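import Mathlib
import Fermat.Prelude.Def_GaloisRep_Residual
import Fermat.Agent.Lib.GalQbar

/-!
# DS glue: Chebotarev adapters for homomorphisms of finite level

The symmetric Chebotarev density theorem is proved (in `DS/Cheb`) for a finite Galois extension
`K/ℚ` inside `AlgebraicClosure ℚ` and a subset of `Gal(K/ℚ)`.  The consumers have a homomorphism
`ρ : Gal(ℚ̄/ℚ) →* M` factoring through finite level and a subset of `M`.  This file transports the
statement (densities are counted in `ρ.range`).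
-/

set_option autoImplicit false

namespace Fermat.Agent.DS.ChebHom

local notation "Qbar" => AlgebraicClosure ℚ
local notation "Γℚ" => (AlgebraicClosure ℚ ≃ₐ[ℚ] AlgebraicClosure ℚ)

/-- Fibre counting for a homomorphism from a finite group. -/
theorem ncard_preimage_eq {Q M : Type*} [Group Q] [Group M] [Finite Q] (ψ : Q →* M) (S : Set M) :
    (ψ ⁻¹' S).ncard = Nat.card ψ.ker * (S ∩ Set.range ψ).ncard := by
  classical
  have hsec : ∀ m : ↥(S ∩ Set.range ψ), ∃ q : Q, ψ q = m.1 := fun m => m.2.2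
  choose sec hsec' using hsec
  let e : ↥(ψ ⁻¹' S) ≃ ↥(S ∩ Set.range ψ) × ψ.ker :=
    { toFun := fun q =>
        (⟨ψ q.1, q.2, q.1, rfl⟩,
          ⟨(sec ⟨ψ q.1, q.2, q.1, rfl⟩)⁻¹ * q.1, by
            rw [MonoidHom.mem_ker, map_mul, map_inv, hsec']
            simp⟩)
      invFun := fun mk => ⟨sec mk.1 * mk.2.1, by
        show ψ (sec mk.1 * mk.2.1) ∈ S
        rw [map_mul, hsec', MonoidHom.mem_ker.mp mk.2.2, mul_one]
        exact mk.1.2.1⟩
      left_inv := by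
        rintro ⟨q, hq⟩
        apply Subtype.ext
        simp
      right_inv := by
        rintro ⟨⟨m, hm⟩, ⟨k, hk⟩⟩
        have h1 : ψ (sec ⟨m, hm⟩ * k) = m := by
          rw [map_mul, hsec', MonoidHom.mem_ker.mp hk, mul_one]
        apply Prod.ext
        · apply Subtype.ext
          exact h1
        · apply Subtype.ext
          show (sec ⟨ψ (sec ⟨m, hm⟩ * k), _⟩)⁻¹ * (sec ⟨m, hm⟩ * k) = k
          have h2 : (⟨ψ (sec ⟨m, hm⟩ * k), by rw [h1]; exact hm⟩ : ↥(S ∩ Set.range ψ)) = ⟨m, hm⟩ :=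
            Subtype.ext h1
          rw [h2]
          group }
  rw [← Nat.card_coe_set_eq, Nat.card_congr e, Nat.card_prod, Nat.card_coe_set_eq, mul_comm]

/-- Cardinality of a finite group through a homomorphism. -/
theorem card_eq_ker_mul_range {Q M : Type*} [Group Q] [Group M] [Finite Q] (ψ : Q →* M) :
    Nat.card Q = Nat.card ψ.ker * Nat.card ψ.range := by
  have h := ncard_preimage_eq ψ Set.univ
  rw [Set.preimage_univ, Set.ncard_univ, Set.univ_inter] at h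
  rw [h]
  congr 1

/-- **K-form** of the symmetric Chebotarev density theorem (the statement proved in `DS/Cheb`). -/
def ChebSymK : Prop :=
  ∀ (K : IntermediateField ℚ Qbar) [FiniteDimensional ℚ K] [IsGalois ℚ K]
    (S : Set (K ≃ₐ[ℚ] K)), (∀ g h, g ∈ S → h * g * h⁻¹ ∈ S) → (∀ g ∈ S, g⁻¹ ∈ S) →
    ∀ (bad : Finset ℕ) (ε : ℝ), 0 < ε →
    ∃ δ : ℝ, 0 < δ ∧ ∀ s : ℝ, 1 < s → s < 1 + δ → ∃ T : Finset ℕ,
      (∀ p ∈ T, p.Prime ∧ p ∉ bad ∧ ∃ (A : ValuationSubring Qbar) (σ : Γℚ),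
        A.LiesOverPrime p ∧ A.IsFrobeniusAt σ p ∧ AlgEquiv.restrictNormalHom K σ ∈ S) ∧
      ((Nat.card S : ℝ) / Nat.card (K ≃ₐ[ℚ] K) - ε) * Real.log (1 / (s - 1)) ≤
        ∑ p ∈ T, (p : ℝ) ^ (-s)

/-- A homomorphism of finite level factors through `Gal(K/ℚ)` for a finite Galois `K`. -/
theorem exists_factor_galois {M : Type} [Group M] (ρ : Γℚ →* M)
    (hρ : GaloisFactorsThroughFiniteLevel ρ) :
    ∃ (K : IntermediateField ℚ Qbar) (_ : FiniteDimensional ℚ K) (_ : IsGalois ℚ K)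
      (ψ : (K ≃ₐ[ℚ] K) →* M), (∀ σ : Γℚ, ψ (AlgEquiv.restrictNormalHom K σ) = ρ σ) ∧
        Function.Surjective (AlgEquiv.restrictNormalHom K : Γℚ →* (K ≃ₐ[ℚ] K)) := by
  obtain ⟨L, hL, hfix⟩ := hρ
  have hn : Normal ℚ Qbar := Fermat.Agent.Lib.GalQbar.normal_rat
  let K : IntermediateField ℚ Qbar := IntermediateField.normalClosure ℚ L Qbar
  have hLK : L ≤ K := IntermediateField.le_normalClosure L
  have hKn : Normal ℚ K := normalClosure.normal ℚ L Qbar
  have hKf : FiniteDimensional ℚ K := normalClosure.is_finiteDimensional ℚ L Qbar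
  have hKg : IsGalois ℚ K := { to_isSeparable := inferInstance, to_normal := inferInstance }
  have hsurj : Function.Surjective (AlgEquiv.restrictNormalHom K : Γℚ →* (K ≃ₐ[ℚ] K)) :=
    AlgEquiv.restrictNormalHom_surjective Qbar
  have hker : (AlgEquiv.restrictNormalHom K : Γℚ →* (K ≃ₐ[ℚ] K)).ker ≤ ρ.ker := by
    intro σ hσ
    rw [MonoidHom.mem_ker] at hσ ⊢
    apply hfix
    intro x hx
    have h := AlgEquiv.restrictNormal_commutes σ K ⟨x, hLK hx⟩
    have h' : AlgEquiv.restrictNormal σ K = 1 := hσ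
    rw [h'] at h
    exact h.symm
  refine ⟨K, hKf, hKg, (AlgEquiv.restrictNormalHom K).liftOfSurjective hsurj ⟨ρ, hker⟩, ?_, hsurj⟩
  intro σ
  exact MonoidHom.liftOfRightInverse_comp_apply _ _ _ ⟨ρ, hker⟩ σ

/-- **Symmetric Chebotarev for a homomorphism of finite level**: densities are counted in the
(finite) image. -/
theorem cheb_sym_hom (hK : ChebSymK) {M : Type} [Group M] (ρ : Γℚ →* M)
    (hρ : GaloisFactorsThroughFiniteLevel ρ) (S : Set M)
    (hconj : ∀ g h, g ∈ S → h ∈ ρ.range → h * g * h⁻¹ ∈ S) (hinv : ∀ g ∈ S, g⁻¹ ∈ S)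
    (bad : Finset ℕ) (ε : ℝ) (hε : 0 < ε) :
    ∃ δ : ℝ, 0 < δ ∧ ∀ s : ℝ, 1 < s → s < 1 + δ → ∃ T : Finset ℕ,
      (∀ p ∈ T, p.Prime ∧ p ∉ bad ∧ ∃ (A : ValuationSubring Qbar) (σ : Γℚ),
        A.LiesOverPrime p ∧ A.IsFrobeniusAt σ p ∧ ρ σ ∈ S) ∧
      (((S ∩ (ρ.range : Set M)).ncard : ℝ) / Nat.card ρ.range - ε) * Real.log (1 / (s - 1)) ≤
        ∑ p ∈ T, (p : ℝ) ^ (-s) := by
  obtain ⟨K, hKf, hKg, ψ, hψ, hsurj⟩ := exists_factor_galois ρ hρ
  have hrange : (Set.range ψ : Set M) = (ρ.range : Set M) := by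
    ext m
    constructor
    · rintro ⟨q, rfl⟩
      obtain ⟨σ, rfl⟩ := hsurj q
      exact ⟨σ, (hψ σ).symm⟩
    · rintro ⟨σ, rfl⟩
      exact ⟨_, hψ σ⟩
  have hrange' : ψ.range = ρ.range := SetLike.coe_injective hrange
  obtain ⟨δ, hδ, H⟩ := hK K (ψ ⁻¹' S)
    (fun g h hg => by
      show ψ (h * g * h⁻¹) ∈ S
      rw [map_mul, map_mul, map_inv]
      refine hconj _ _ hg ?_
      rw [← SetLike.mem_coe, ← hrange]
      exact ⟨h, rfl⟩)
    (fun g hg => by
      show ψ g⁻¹ ∈ S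
      rw [map_inv]
      exact hinv _ hg) bad ε hε
  refine ⟨δ, hδ, fun s hs1 hs2 => ?_⟩
  obtain ⟨T, hT, hle⟩ := H s hs1 hs2
  refine ⟨T, fun p hp => ?_, ?_⟩
  · obtain ⟨hpp, hpb, A, σ, hA, hσ, hmem⟩ := hT p hp
    refine ⟨hpp, hpb, A, σ, hA, hσ, ?_⟩
    have : ψ (AlgEquiv.restrictNormalHom K σ) ∈ S := hmem
    rwa [hψ σ] at this
  · have hfin : Finite (K ≃ₐ[ℚ] K) := inferInstance
    have h1 : Nat.card ↥(ψ ⁻¹' S) = Nat.card ψ.ker * (S ∩ (ρ.range : Set M)).ncard := by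
      rw [Nat.card_coe_set_eq, ncard_preimage_eq ψ S, hrange]
    have h2 : Nat.card (K ≃ₐ[ℚ] K) = Nat.card ψ.ker * Nat.card ρ.range := by
      rw [card_eq_ker_mul_range ψ, hrange']
    have hk : (0 : ℝ) < Nat.card ψ.ker := by
      exact_mod_cast Nat.card_pos
    have h3 : (Nat.card ↥(ψ ⁻¹' S) : ℝ) / Nat.card (K ≃ₐ[ℚ] K) =
        ((S ∩ (ρ.range : Set M)).ncard : ℝ) / Nat.card ρ.range := by
      rw [h1, h2]
      push_cast
      rw [mul_div_mul_left _ _ hk.ne']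
    rw [← h3]
    exact hle

end Fermat.Agent.DS.ChebHom
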