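/-
DS (S48, Deligne–Serre), tool E3: Eisenstein series with a Dirichlet character and explicit
`q`-expansion, of every weight `k ≥ 3`.

For a Dirichlet character `χ` mod `N` with `χ(-1) = (-1)^k`, `N ≠ 1`:

  `eisB χ k = ∑_{n ≥ 1} (∑_{x y = n} χ(x) y^(k-1)) qⁿ`      (`sigmaChar χ k n` is the coefficient)

* `mdiff_eisB`, `isBoundedAtImInfty_eisB_slash` : holomorphic, bounded at every cusp;
* `eisB_slash` : `eisB χ k ∣[k] γ = χ(γ₁₁) • eisB χ k` for `γ ∈ Γ₀(N)`;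
* `hasSum_eisB`, `qExpansion_eisB_coeff`, `qan_eisB`, `eisB_ne_zero` (leading coefficient `1`);
* `qExpansion_eisB_map` : the `s`-conjugate (`s : ℂ →+* ℂ`) of the `q`-expansion of `eisB χ k` is
  the `q`-expansion of `eisB (χ.ringHomComp s) k`.

Built on `Lib/Analysis/EisensteinChar.lean` (weighted lattice sums `wEis`) and Mathlib's
`EisensteinSeries.qExpansion_identity_pnat`.
-/
import Mathlib
import Fermat.Agent.Lib.Analysis.EisensteinChar
import Fermat.Agent.S23.QAnalytic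

set_option autoImplicit false

namespace Fermat.Agent.DS.EisChar

open EisensteinSeries UpperHalfPlane Matrix ModularForm CongruenceSubgroup Filter Complex
open Fermat.Agent.Lib.Analysis.EisensteinChar
open scoped MatrixGroups Manifold Topology Real Nat

variable {N : ℕ}

/-- The twisted divisor sum `∑_{x y = n} χ(x) y^(k-1)`. -/
noncomputable def sigmaChar (χ : DirichletCharacter ℂ N) (k : ℕ) (n : ℕ) : ℂ :=
  ∑ x ∈ n.divisorsAntidiagonal, χ (x.1 : ZMod N) * (x.2 : ℂ) ^ (k - 1)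

theorem sigmaChar_zero (χ : DirichletCharacter ℂ N) (k : ℕ) : sigmaChar χ k 0 = 0 := by
  simp [sigmaChar]

theorem sigmaChar_one (χ : DirichletCharacter ℂ N) (k : ℕ) : sigmaChar χ k 1 = 1 := by
  simp [sigmaChar]

/-- The weight attached to a Dirichlet character: `(c, d) ↦ χ(c)`. -/
noncomputable def charWeight (χ : DirichletCharacter ℂ N) (v : Fin 2 → ℤ) : ℂ := χ ((v 0 : ℤ) : ZMod N)

theorem norm_charWeight_le (χ : DirichletCharacter ℂ N) (v : Fin 2 → ℤ) : ‖charWeight χ v‖ ≤ 1 :=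
  DirichletCharacter.norm_le_one χ _

theorem summable_char_prod (χ : DirichletCharacter ℂ N) (k : ℕ) {r : ℂ} (hr : ‖r‖ < 1) :
    Summable fun c : ℕ+ × ℕ+ => χ ((c.1 : ℕ) : ZMod N) * ((c.2 : ℕ) : ℂ) ^ k * r ^ (c.1 * c.2 : ℕ) := by
  refine Summable.of_norm_bounded (summable_prod_mul_pow (𝕜 := ℂ) k hr).norm fun c => ?_
  rw [mul_assoc, norm_mul]
  refine mul_le_of_le_one_left (norm_nonneg _) (DirichletCharacter.norm_le_one χ _)

theorem tsum_char_prod (χ : DirichletCharacter ℂ N) (k : ℕ) {r : ℂ} (hr : ‖r‖ < 1) :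
    ∑' c : ℕ+, ∑' n : ℕ+, χ ((c : ℕ) : ZMod N) * ((n : ℕ) : ℂ) ^ k * r ^ (c * n : ℕ) =
      ∑' e : ℕ+, sigmaChar χ (k + 1) e * r ^ (e : ℕ) := by
  have hs := summable_char_prod χ k hr
  rw [← hs.tsum_prod (f := fun c : ℕ+ × ℕ+ => χ ((c.1 : ℕ) : ZMod N) * ((c.2 : ℕ) : ℂ) ^ k * r ^ (c.1 * c.2 : ℕ))]
  rw [← sigmaAntidiagonalEquivProd.tsum_eq]
  have hs' : Summable (fun c : (Σ n : ℕ+, (n : ℕ).divisorsAntidiagonal) =>
      χ (((sigmaAntidiagonalEquivProd c).1 : ℕ) : ZMod N) *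
        (((sigmaAntidiagonalEquivProd c).2 : ℕ) : ℂ) ^ k *
        r ^ ((sigmaAntidiagonalEquivProd c).1 * (sigmaAntidiagonalEquivProd c).2 : ℕ)) :=
    (sigmaAntidiagonalEquivProd.summable_iff).mpr hs
  refine (Summable.tsum_sigma hs').trans ?_
  refine tsum_congr fun e => ?_
  rw [tsum_fintype, sigmaChar, Finset.sum_mul, Finset.univ_eq_attach]
  rw [← Finset.sum_attach (e : ℕ).divisorsAntidiagonal]
  refine Finset.sum_congr rfl fun x _ => ?_
  have hx := Nat.mem_divisorsAntidiagonal.mp x.2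
  simp only [sigmaAntidiagonalEquivProd, divisorsAntidiagonalFactors,
    Equiv.coe_fn_mk, PNat.mk_coe, Nat.add_sub_cancel]
  rw [hx.1]

theorem char_zero_eq_zero (χ : DirichletCharacter ℂ N) (hN : N ≠ 1) : χ (0 : ZMod N) = 0 := by
  have : Nontrivial (ZMod N) := ZMod.nontrivial_iff.mpr hN
  exact MulChar.map_nonunit χ not_isUnit_zero

/-- The `q`-expansion of the weighted Eisenstein sum attached to a Dirichlet character. -/
theorem wEis_charWeight_eq (χ : DirichletCharacter ℂ N) (hN : N ≠ 1) {k : ℕ} (hk : 3 ≤ k)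
    (hpar : χ (-1) = (-1) ^ k) (z : ℍ) :
    wEis (charWeight χ) k z = 2 * ((-2 * π * Complex.I) ^ k / (k - 1)!) *
      ∑' e : ℕ+, sigmaChar χ k e * cexp (2 * π * Complex.I * z) ^ (e : ℕ) := by
  have hk' : (3 : ℤ) ≤ (k : ℤ) := by exact_mod_cast hk
  have hsum : Summable fun x : ℤ × ℤ => χ ((x.1 : ℤ) : ZMod N) * eisSummand k ![x.1, x.2] z := by
    refine (finTwoArrowEquiv ℤ).summable_iff.mp <|
      (summable_term (norm_charWeight_le χ) hk' z).congr (fun v ↦ ?_)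
    simp [charWeight, show ![v 0, v 1] = v from List.ofFn_inj.mp rfl]
  have h1 : wEis (charWeight χ) k z =
      ∑' x : ℤ × ℤ, χ ((x.1 : ℤ) : ZMod N) * eisSummand k ![x.1, x.2] z := by
    unfold wEis
    rw [← (finTwoArrowEquiv ℤ).symm.tsum_eq]
    refine tsum_congr fun x => ?_
    simp [charWeight]
  rw [h1, Summable.tsum_prod hsum]
  set g : ℤ → ℂ := fun c => ∑' d : ℤ, χ ((c : ℤ) : ZMod N) * eisSummand k ![c, d] z with hg
  have hgeven : Function.Even g := by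
    intro c
    simp only [hg]
    rw [← tsum_comp_neg]
    refine tsum_congr fun d => ?_
    have h2 : χ (((-c : ℤ)) : ZMod N) = (-1) ^ k * χ ((c : ℤ) : ZMod N) := by
      rw [Int.cast_neg, ← neg_one_mul, map_mul, hpar]
    rw [h2]
    have h3 : eisSummand k ![-c, -d] z = (-1) ^ k * eisSummand k ![c, d] z := by
      simp only [eisSummand, Matrix.cons_val_zero, Matrix.cons_val_one, Int.cast_neg]
      rw [show (-(c : ℂ) * (z : ℂ) + -(d : ℂ)) = (-1) * ((c : ℂ) * z + d) by ring, mul_zpow]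
      congr 1
      rw [_root_.zpow_neg, zpow_natCast, ← inv_pow]
      norm_num
    rw [h3]
    have h4 : ((-1 : ℂ) ^ k) * ((-1 : ℂ) ^ k) = 1 := by
      rw [← mul_pow]; norm_num
    calc (-1 : ℂ) ^ k * χ ((c : ℤ) : ZMod N) * ((-1) ^ k * eisSummand k ![c, d] z)
        = ((-1 : ℂ) ^ k * (-1) ^ k) * (χ ((c : ℤ) : ZMod N) * eisSummand k ![c, d] z) := by ring
      _ = _ := by rw [h4, one_mul]
  have hgsum : Summable g := hsum.prod
  have hmain : ∑' c : ℤ, g c = g 0 + 2 • ∑' c : ℕ+, g (c : ℕ) :=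
    tsum_int_eq_zero_add_two_mul_tsum_pnat hgeven hgsum
  show ∑' c : ℤ, g c = _
  rw [hmain]
  have h0 : g 0 = 0 := by
    simp [hg, char_zero_eq_zero χ hN]
  rw [h0, zero_add, nsmul_eq_mul, Nat.cast_ofNat, mul_assoc]
  congr 1
  have H (b : ℕ+) := qExpansion_identity_pnat (k := k - 1) (by omega)
    ⟨b * z, by simpa using z.2⟩
  simp_rw [show k - 1 + 1 = k by omega, one_div] at H
  have h5 : ∀ c : ℕ+, g (c : ℕ) =
      ((-2 * π * Complex.I) ^ k / (k - 1)!) * ∑' n : ℕ+, χ ((c : ℕ) : ZMod N) * ((n : ℕ) : ℂ) ^ (k - 1) *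
        cexp (2 * π * Complex.I * z) ^ (c * n : ℕ) := by
    intro c
    simp only [hg]
    rw [tsum_mul_left]
    have h6 : (∑' d : ℤ, eisSummand k ![((c : ℕ) : ℤ), d] z) =
        ∑' d : ℤ, ((((c : ℕ) : ℂ) * (z : ℂ) + d) ^ (k : ℕ))⁻¹ := by
      refine tsum_congr fun d => ?_
      simp [eisSummand]
    rw [h6]
    have H' := H c
    rw [H', Int.cast_natCast, mul_left_comm]
    congr 1
    rw [← tsum_mul_left]
    refine tsum_congr fun n => ?_
    have hE : cexp (2 * π * Complex.I * (((c : ℕ) : ℂ) * (z : ℂ))) ^ (n : ℕ) =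
        cexp (2 * π * Complex.I * z) ^ (c * n : ℕ) := by
      rw [← Complex.exp_nat_mul, ← Complex.exp_nat_mul]
      congr 1
      push_cast
      ring
    rw [hE]
    ring
  rw [tsum_congr h5, tsum_mul_left]
  congr 1
  have hr : ‖cexp (2 * π * Complex.I * z)‖ < 1 := norm_exp_two_pi_I_lt_one z
  have := tsum_char_prod χ (k - 1) hr
  rw [show k - 1 + 1 = k by omega] at this
  exact this

/-- How the character weight transforms under `Γ₀(N)`. -/
theorem charWeight_vecMul_inv (χ : DirichletCharacter ℂ N) (γ : SL(2, ℤ)) (hγ : γ ∈ Gamma0 N)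
    (v : Fin 2 → ℤ) :
    charWeight χ (v ᵥ* ((γ⁻¹ : SL(2, ℤ)) : Matrix (Fin 2) (Fin 2) ℤ)) =
      χ ((γ 1 1 : ℤ) : ZMod N) * charWeight χ v := by
  have hc : ((γ 1 0 : ℤ) : ZMod N) = 0 := Gamma0_mem.mp hγ
  simp only [charWeight]
  rw [Matrix.SpecialLinearGroup.coe_inv, Matrix.adjugate_fin_two]
  have h1 : (v ᵥ* !![(γ : Matrix (Fin 2) (Fin 2) ℤ) 1 1, -(γ : Matrix (Fin 2) (Fin 2) ℤ) 0 1;
      -(γ : Matrix (Fin 2) (Fin 2) ℤ) 1 0, (γ : Matrix (Fin 2) (Fin 2) ℤ) 0 0]) 0 =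
      v 0 * γ 1 1 - v 1 * γ 1 0 := by
    simp [Matrix.vecMul, dotProduct, Fin.sum_univ_two]
    ring
  rw [h1]
  push_cast
  rw [hc, mul_zero, sub_zero, map_mul, mul_comm]

/-- The normalised Eisenstein series with character `χ`: `∑_{n ≥ 1} (∑_{xy = n} χ(x) y^(k-1)) qⁿ`. -/
noncomputable def eisB (χ : DirichletCharacter ℂ N) (k : ℕ) : ℍ → ℂ :=
  ((k - 1)! / (2 * (-2 * π * Complex.I) ^ k) : ℂ) • wEis (charWeight χ) k

theorem mdiff_eisB (χ : DirichletCharacter ℂ N) {k : ℕ} (hk : 3 ≤ k) : MDiff (eisB χ k) := by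
  have hk' : (3 : ℤ) ≤ (k : ℤ) := by exact_mod_cast hk
  exact (wEis_mdifferentiable (norm_charWeight_le χ) hk').const_smul _

/-- Transformation law under `Γ₀(N)`. -/
theorem eisB_slash (χ : DirichletCharacter ℂ N) (k : ℕ) (γ : SL(2, ℤ)) (hγ : γ ∈ Gamma0 N) :
    eisB χ k ∣[(k : ℤ)] γ = χ ((γ 1 1 : ℤ) : ZMod N) • eisB χ k := by
  unfold eisB
  rw [ModularForm.SL_smul_slash, wEis_slash]
  have : (fun v => charWeight χ (v ᵥ* ((γ⁻¹ : SL(2, ℤ)) : Matrix (Fin 2) (Fin 2) ℤ))) =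
      fun v => χ ((γ 1 1 : ℤ) : ZMod N) * charWeight χ v := by
    funext v
    exact charWeight_vecMul_inv χ γ hγ v
  rw [this]
  have h2 : wEis (fun v => χ ((γ 1 1 : ℤ) : ZMod N) * charWeight χ v) k =
      χ ((γ 1 1 : ℤ) : ZMod N) • wEis (charWeight χ) k := by
    funext z
    simp only [wEis, Pi.smul_apply, smul_eq_mul, mul_assoc]
    rw [tsum_mul_left]
  rw [h2, smul_comm]

theorem isBoundedAtImInfty_eisB_slash (χ : DirichletCharacter ℂ N) {k : ℕ} (hk : 3 ≤ k)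
    (γ : SL(2, ℤ)) : IsBoundedAtImInfty (eisB χ k ∣[(k : ℤ)] γ) := by
  have hk' : (3 : ℤ) ≤ (k : ℤ) := by exact_mod_cast hk
  unfold eisB
  rw [ModularForm.SL_smul_slash]
  exact (wEis_slash_isBoundedAtImInfty (norm_charWeight_le χ) hk' γ).const_smul_left _

/-! ### The `q`-expansion of `eisB` -/

theorem norm_sigmaChar_le (χ : DirichletCharacter ℂ N) {k : ℕ} (hk : 1 ≤ k) (n : ℕ) :
    ‖sigmaChar χ k n‖ ≤ (n : ℝ) ^ k := by
  unfold sigmaChar
  refine (norm_sum_le _ _).trans ?_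
  have h1 : ∀ x ∈ n.divisorsAntidiagonal,
      ‖χ ((x.1 : ℕ) : ZMod N) * ((x.2 : ℕ) : ℂ) ^ (k - 1)‖ ≤ (n : ℝ) ^ (k - 1) := by
    intro x hx
    have hx' := Nat.mem_divisorsAntidiagonal.mp hx
    have hle : x.2 ≤ n := Nat.le_of_dvd (Nat.pos_of_ne_zero hx'.2) ⟨x.1, by rw [← hx'.1, mul_comm]⟩
    rw [norm_mul, norm_pow, Complex.norm_natCast]
    calc ‖χ ((x.1 : ℕ) : ZMod N)‖ * (x.2 : ℝ) ^ (k - 1) ≤ 1 * (n : ℝ) ^ (k - 1) := by
          refine mul_le_mul (DirichletCharacter.norm_le_one χ _) ?_ (by positivity) zero_le_one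
          exact pow_le_pow_left₀ (Nat.cast_nonneg _) (by exact_mod_cast hle) _
      _ = (n : ℝ) ^ (k - 1) := one_mul _
  refine (Finset.sum_le_sum h1).trans ?_
  rw [Finset.sum_const, nsmul_eq_mul, ← Nat.map_div_right_divisors, Finset.card_map]
  have h2 : (n.divisors.card : ℝ) ≤ n := by exact_mod_cast Nat.card_divisors_le_self n
  calc (n.divisors.card : ℝ) * (n : ℝ) ^ (k - 1) ≤ (n : ℝ) * (n : ℝ) ^ (k - 1) :=
        mul_le_mul_of_nonneg_right h2 (by positivity)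
    _ = (n : ℝ) ^ k := by rw [← pow_succ', Nat.sub_add_cancel hk]

theorem summable_sigmaChar (χ : DirichletCharacter ℂ N) {k : ℕ} (hk : 1 ≤ k) {r : ℂ}
    (hr : ‖r‖ < 1) : Summable fun n : ℕ => sigmaChar χ k n * r ^ n := by
  refine Summable.of_norm_bounded (summable_norm_pow_mul_geometric_of_norm_lt_one (R := ℂ) k hr)
    fun n => ?_
  simp only [norm_mul, norm_pow, Complex.norm_natCast]
  exact mul_le_mul_of_nonneg_right (norm_sigmaChar_le χ hk n) (by positivity)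

/-- **The `q`-expansion of `eisB`.** -/
theorem hasSum_eisB (χ : DirichletCharacter ℂ N) (hN : N ≠ 1) {k : ℕ} (hk : 3 ≤ k)
    (hpar : χ (-1) = (-1) ^ k) (z : ℍ) :
    HasSum (fun n : ℕ => sigmaChar χ k n * Function.Periodic.qParam 1 z ^ n) (eisB χ k z) := by
  have hq : Function.Periodic.qParam 1 (z : ℂ) = cexp (2 * π * Complex.I * z) := by
    simp [Function.Periodic.qParam]
  rw [hq]
  have hr : ‖cexp (2 * π * Complex.I * z)‖ < 1 := norm_exp_two_pi_I_lt_one z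
  have hs := summable_sigmaChar χ (show 1 ≤ k by omega) hr
  have h1 := tsum_zero_pnat_eq_tsum_nat hs
  rw [sigmaChar_zero, zero_mul, zero_add] at h1
  have h2 : eisB χ k z = ∑' e : ℕ+, sigmaChar χ k e * cexp (2 * π * Complex.I * z) ^ (e : ℕ) := by
    unfold eisB
    rw [Pi.smul_apply, wEis_charWeight_eq χ hN hk hpar z, smul_eq_mul, ← mul_assoc]
    have hf : ((k - 1)! : ℂ) ≠ 0 := by exact_mod_cast Nat.factorial_ne_zero _
    have hpi : (-2 * π * Complex.I : ℂ) ^ k ≠ 0 := by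
      refine pow_ne_zero _ ?_
      simp [Real.pi_ne_zero, Complex.I_ne_zero]
    have h3 : ((k - 1)! / (2 * (-2 * π * Complex.I) ^ k) : ℂ) *
        (2 * ((-2 * π * Complex.I) ^ k / (k - 1)!)) = 1 := by
      field_simp
    rw [h3, one_mul]
  rw [h2, h1]
  exact hs.hasSum

theorem eisB_vadd_one (χ : DirichletCharacter ℂ N) (hN : N ≠ 1) {k : ℕ} (hk : 3 ≤ k)
    (hpar : χ (-1) = (-1) ^ k) (z : ℍ) : eisB χ k ((1 : ℝ) +ᵥ z) = eisB χ k z := by
  have h1 := hasSum_eisB χ hN hk hpar ((1 : ℝ) +ᵥ z)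
  have h2 := hasSum_eisB χ hN hk hpar z
  have hq : Function.Periodic.qParam 1 (((1 : ℝ) +ᵥ z : ℍ) : ℂ) = Function.Periodic.qParam 1 (z : ℂ) := by
    rw [UpperHalfPlane.coe_vadd]
    simp only [Function.Periodic.qParam, Complex.ofReal_one, div_one]
    rw [mul_add, Complex.exp_add, mul_one, Complex.exp_two_pi_mul_I, one_mul]
  rw [hq] at h1
  exact h1.unique h2

/-- A function on `ℍ` invariant under `z ↦ z + 1` gives a `1`-periodic function on `ℂ`. -/
theorem periodic_of_vadd_one {F : ℍ → ℂ} (hF : ∀ z : ℍ, F ((1 : ℝ) +ᵥ z) = F z) :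
    Function.Periodic (F ∘ ofComplex) (1 : ℝ) := by
  intro w
  rw [Complex.ofReal_one]
  by_cases hw : 0 < w.im
  · have him : 0 < (w + 1).im := by simpa using hw
    simp only [Function.comp_apply, ofComplex_apply_of_im_pos him, ofComplex_apply_of_im_pos hw]
    rw [← hF ⟨w, hw⟩]
    congr 1
    ext
    simp [add_comm]
  · have hw' : w.im ≤ 0 := not_lt.mp hw
    have him : (w + 1).im ≤ 0 := by simpa using hw'
    simp [ofComplex_apply_of_im_nonpos him, ofComplex_apply_of_im_nonpos hw']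

open Fermat.Agent.S23 in
theorem qan_eisB (χ : DirichletCharacter ℂ N) (hN : N ≠ 1) {k : ℕ} (hk : 3 ≤ k)
    (hpar : χ (-1) = (-1) ^ k) : QAn (eisB χ k) where
  per := periodic_of_vadd_one (eisB_vadd_one χ hN hk hpar)
  hol := mdiff_eisB χ hk
  bdd := by
    have := isBoundedAtImInfty_eisB_slash χ hk 1
    simpa using this

/-- Uniqueness of `q`-expansion coefficients. -/
theorem coeff_eq_of_hasSum {F : ℍ → ℂ} {c : ℕ → ℂ}
    (ha : AnalyticAt ℂ (cuspFunction 1 F) 0)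
    (hF : ∀ τ : ℍ, HasSum (fun m : ℕ => c m * Function.Periodic.qParam 1 τ ^ m) (F τ)) (m : ℕ) :
    (qExpansion 1 F).coeff m = c m := by
  have hF' : ∀ τ : ℍ, HasSum (fun m : ℕ => c m • Function.Periodic.qParam 1 τ ^ m) (F τ) :=
    fun τ => by simpa only [smul_eq_mul] using hF τ
  have h1 := (hasFPowerSeriesOnBall_cuspFunction one_pos ha hF').hasFPowerSeriesAt
  have h2 : HasFPowerSeriesAt (cuspFunction 1 F)
      (.ofScalars ℂ fun m ↦ (qExpansion 1 F).coeff m) 0 := by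
    simpa [qExpansion_coeff, div_eq_mul_inv, mul_comm] using ha.hasFPowerSeriesAt
  have := congr_arg (FormalMultilinearSeries.coeff · m) (h1.eq_formalMultilinearSeries h2)
  simpa using this.symm

theorem qExpansion_eisB_coeff (χ : DirichletCharacter ℂ N) (hN : N ≠ 1) {k : ℕ} (hk : 3 ≤ k)
    (hpar : χ (-1) = (-1) ^ k) (n : ℕ) :
    (qExpansion 1 (eisB χ k)).coeff n = sigmaChar χ k n :=
  coeff_eq_of_hasSum (qan_eisB χ hN hk hpar).analytic (hasSum_eisB χ hN hk hpar) n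

theorem eisB_ne_zero (χ : DirichletCharacter ℂ N) (hN : N ≠ 1) {k : ℕ} (hk : 3 ≤ k)
    (hpar : χ (-1) = (-1) ^ k) : eisB χ k ≠ 0 := by
  intro h
  have h1 := qExpansion_eisB_coeff χ hN hk hpar 1
  rw [h, sigmaChar_one] at h1
  have h2 : (qExpansion 1 (0 : ℍ → ℂ)).coeff 1 = 0 := by
    rw [UpperHalfPlane.qExpansion_zero]; simp
  rw [h2] at h1
  exact zero_ne_one h1

/-- Conjugating the character conjugates the twisted divisor sums. -/
theorem sigmaChar_ringHomComp (χ : DirichletCharacter ℂ N) (s : ℂ →+* ℂ) (k n : ℕ) :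
    sigmaChar (χ.ringHomComp s) k n = s (sigmaChar χ k n) := by
  simp [sigmaChar, MulChar.ringHomComp_apply]

theorem ringHomComp_neg_one (χ : DirichletCharacter ℂ N) (s : ℂ →+* ℂ) {k : ℕ}
    (hpar : χ (-1) = (-1) ^ k) : (χ.ringHomComp s) (-1) = (-1) ^ k := by
  rw [MulChar.ringHomComp_apply, hpar]
  simp

/-- **Conjugates of `eisB`**: the coefficientwise `s`-conjugate of the `q`-expansion of `eisB χ k`
is the `q`-expansion of `eisB (s ∘ χ) k`. -/
theorem qExpansion_eisB_map (χ : DirichletCharacter ℂ N) (hN : N ≠ 1) {k : ℕ} (hk : 3 ≤ k)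
    (hpar : χ (-1) = (-1) ^ k) (s : ℂ →+* ℂ) :
    (qExpansion 1 (eisB χ k)).map s = qExpansion 1 (eisB (χ.ringHomComp s) k) := by
  ext n
  rw [PowerSeries.coeff_map, qExpansion_eisB_coeff χ hN hk hpar,
    qExpansion_eisB_coeff (χ.ringHomComp s) hN hk (ringHomComp_neg_one χ s hpar),
    sigmaChar_ringHomComp]

/-- An odd-type parity condition excludes the trivial level. -/
theorem ne_one_of_parity (χ : DirichletCharacter ℂ N) {k : ℕ} (hk : Odd k)
    (hpar : χ (-1) = (-1) ^ k) : N ≠ 1 := by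
  rintro rfl
  have h1 : (-1 : ZMod 1) = 1 := Subsingleton.elim _ _
  rw [h1, map_one, hk.neg_one_pow] at hpar
  norm_num at hpar

end Fermat.Agent.DS.EisChar
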