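/-
DS (S48, Deligne–Serre), layer L1(c): abstract Rankin-type prime sum bounds.

Input: a sequence `a : ℕ → ℂ` with mean-square bound `∑_{n ≤ X} |a n|² ≤ C (X+1)` (for weight one
cusp forms this is `Fermat.Agent.DS.rankin_meanSquare` in `DS/Rankin.lean`), `a 1 = 1` and
`a (p n) = a p * a n` for primes `p ∤ N`, `p ∤ n`.

Output (finite sums only, `1 < s ≤ 2`, `S` any finite set of primes not dividing `N`):
* `sum_mul_rpow_le`     : `∑_{1 ≤ n ≤ X} w n n^(-s) ≤ 4C/(s-1)`               (R2)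
* `prod_one_add_le`     : `∏_{p ∈ S} (1 + |a p|² p^(-s)) ≤ 4C/(s-1)`
* `sum_primes_le_weak`  : `∑_{p ∈ S} |a p|² p^(-s) ≤ (1+2C) log(1/(s-1)) + (1+2C) log(4C)`   (R3)
* `sum_primes_le_sharp` : if `|a p| ≤ 2` on `S`: `… ≤ log(1/(s-1)) + log(4C) + 32`            (R4)
-/
import Mathlib

set_option autoImplicit false

namespace Fermat.Agent.DS

open Finset
open scoped Real

/-- Abel summation, telescoped form. -/
theorem abel_identity (w φ : ℕ → ℝ) (X : ℕ) :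
    ∑ n ∈ range (X + 1), w n * φ n =
      (∑ n ∈ range (X + 1), w n) * φ X +
        ∑ n ∈ range X, (∑ m ∈ range (n + 1), w m) * (φ n - φ (n + 1)) := by
  induction X with
  | zero => simp
  | succ X ih =>
    rw [sum_range_succ, ih, sum_range_succ (fun n => (∑ m ∈ range (n + 1), w m) * (φ n - φ (n + 1))),
      sum_range_succ w (X + 1)]
    ring

/-- Majorization: if the partial sums of `w` are dominated by those of `v` and `φ` is
nonnegative and antitone, then the `φ`-weighted sums are dominated as well. -/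
theorem sum_mul_le_of_partial_le (w v φ : ℕ → ℝ) (hφ : Antitone φ) (hφ0 : ∀ n, 0 ≤ φ n)
    (h : ∀ X, ∑ n ∈ range (X + 1), w n ≤ ∑ n ∈ range (X + 1), v n) (X : ℕ) :
    ∑ n ∈ range (X + 1), w n * φ n ≤ ∑ n ∈ range (X + 1), v n * φ n := by
  rw [abel_identity w φ X, abel_identity v φ X]
  refine add_le_add (mul_le_mul_of_nonneg_right (h X) (hφ0 X)) (sum_le_sum fun n _ => ?_)
  exact mul_le_mul_of_nonneg_right (h n) (sub_nonneg.mpr (hφ (Nat.le_succ n)))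

/-- Partial sums of `ζ(s)`: `∑_{n < X} (n+1)^(-s) ≤ s/(s-1)`. -/
theorem sum_rpow_neg_le {s : ℝ} (hs : 1 < s) (X : ℕ) :
    ∑ n ∈ range X, ((n : ℝ) + 1) ^ (-s) ≤ s / (s - 1) := by
  have hs1 : 0 < s - 1 := by linarith
  rcases Nat.eq_zero_or_pos X with rfl | hX
  · simp; positivity
  obtain ⟨a, rfl⟩ : ∃ a, X = a + 1 := ⟨X - 1, by omega⟩
  rw [sum_range_succ']
  have hanti : AntitoneOn (fun x : ℝ => x ^ (-s)) (Set.Icc (1 : ℝ) (1 + a)) := by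
    intro x hx y hy hxy
    exact Real.rpow_le_rpow_of_nonpos (by linarith [hx.1]) hxy (by linarith)
  have h1 := hanti.sum_le_integral
  have h2 : ∫ x in (1 : ℝ)..(1 + a), x ^ (-s) = ((1 + (a : ℝ)) ^ (-s + 1) - 1 ^ (-s + 1)) / (-s + 1) := by
    rw [integral_rpow]
    right
    refine ⟨by linarith, ?_⟩
    rw [Set.uIcc_of_le (by linarith [Nat.cast_nonneg (α := ℝ) a])]
    intro h0
    linarith [h0.1]
  rw [h2] at h1
  have h3 : ((1 + (a : ℝ)) ^ (-s + 1) - 1 ^ (-s + 1)) / (-s + 1) ≤ 1 / (s - 1) := by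
    rw [Real.one_rpow, show (-s + 1) = -(s - 1) by ring, div_neg, ← neg_div, neg_sub]
    refine div_le_div_of_nonneg_right ?_ hs1.le
    have : 0 ≤ (1 + (a : ℝ)) ^ (-(s - 1)) := Real.rpow_nonneg (by positivity) _
    linarith
  have h4 : ∑ n ∈ range a, (((n + 1 : ℕ) : ℝ) + 1) ^ (-s) ≤ 1 / (s - 1) := by
    refine le_trans (le_of_eq ?_) (h1.trans h3)
    refine sum_congr rfl fun n _ => ?_
    congr 1
    push_cast
    ring
  have h5 : (((0 : ℕ) : ℝ) + 1) ^ (-s) = 1 := by simp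
  rw [h5]
  have : s / (s - 1) = 1 / (s - 1) + 1 := by field_simp; ring
  rw [this]
  linarith

/-- **R2**: if `∑_{n ≤ X} w n ≤ C (X+1)` with `w ≥ 0`, then
`∑_{1 ≤ n ≤ X} w n n^(-s) ≤ 4C/(s-1)` for `1 < s ≤ 2`. -/
theorem sum_mul_rpow_le (w : ℕ → ℝ) (C : ℝ) (hw : ∀ n, 0 ≤ w n)
    (hC : ∀ X : ℕ, ∑ n ∈ range (X + 1), w n ≤ C * ((X : ℝ) + 1)) {s : ℝ} (hs : 1 < s)
    (hs2 : s ≤ 2) (X : ℕ) :
    ∑ n ∈ range X, w (n + 1) * ((n : ℝ) + 1) ^ (-s) ≤ 4 * C / (s - 1) := by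
  have hs1 : 0 < s - 1 := by linarith
  have hC0 : 0 ≤ C := by
    have := hC 0
    simp at this
    exact (hw 0).trans this
  rcases Nat.eq_zero_or_pos X with rfl | hX
  · simp; positivity
  obtain ⟨a, rfl⟩ : ∃ a, X = a + 1 := ⟨X - 1, by omega⟩
  have hφ : Antitone (fun n : ℕ => ((n : ℝ) + 1) ^ (-s)) := by
    intro m n hmn
    exact Real.rpow_le_rpow_of_nonpos (by positivity) (by exact_mod_cast Nat.succ_le_succ hmn)
      (by linarith)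
  have hmaj : ∀ Y, ∑ n ∈ range (Y + 1), w (n + 1) ≤ ∑ n ∈ range (Y + 1), 2 * C := by
    intro Y
    have h1 := hC (Y + 1)
    rw [sum_range_succ'] at h1
    have h2 : ∑ n ∈ range (Y + 1), w (n + 1) ≤ C * (((Y + 1 : ℕ) : ℝ) + 1) := by
      linarith [hw 0]
    refine h2.trans ?_
    rw [sum_const, card_range, nsmul_eq_mul]
    push_cast
    nlinarith [Nat.cast_nonneg (α := ℝ) Y]
  have h := sum_mul_le_of_partial_le (fun n => w (n + 1)) (fun _ => 2 * C)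
    (fun n : ℕ => ((n : ℝ) + 1) ^ (-s)) hφ (fun n => Real.rpow_nonneg (by positivity) _) hmaj a
  refine h.trans ?_
  rw [← mul_sum]
  have h6 := sum_rpow_neg_le hs (a + 1)
  have h7 : s / (s - 1) ≤ 2 / (s - 1) := div_le_div_of_nonneg_right hs2 hs1.le
  calc 2 * C * ∑ n ∈ range (a + 1), ((n : ℝ) + 1) ^ (-s) ≤ 2 * C * (2 / (s - 1)) :=
        mul_le_mul_of_nonneg_left (h6.trans h7) (by positivity)
    _ = 4 * C / (s - 1) := by ring

/-- Multiplicativity on products of distinct primes not dividing `N`. -/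
theorem coeff_prod_primes (a : ℕ → ℂ) (N : ℕ) (h1 : a 1 = 1)
    (hmul : ∀ p : ℕ, p.Prime → ¬ p ∣ N → ∀ n : ℕ, ¬ p ∣ n → a (p * n) = a p * a n)
    (T : Finset ℕ) (hT : ∀ p ∈ T, p.Prime ∧ ¬ p ∣ N) :
    a (∏ p ∈ T, p) = ∏ p ∈ T, a p := by
  induction T using Finset.induction_on with
  | empty => simpa using h1
  | insert q T hq ih =>
    have hT' : ∀ p ∈ T, p.Prime ∧ ¬ p ∣ N := fun p hp => hT p (mem_insert_of_mem hp)
    obtain ⟨hqp, hqN⟩ := hT q (mem_insert_self q T)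
    rw [prod_insert hq, prod_insert hq, ← ih hT']
    refine hmul q hqp hqN _ ?_
    intro hdvd
    obtain ⟨p, hpT, hqp'⟩ := (Prime.dvd_finsetProd_iff hqp.prime _).mp hdvd
    have : q = p := (Nat.prime_dvd_prime_iff_eq hqp (hT' p hpT).1).mp hqp'
    exact hq (this ▸ hpT)

/-- Finite Euler product bound. -/
theorem prod_one_add_le (a : ℕ → ℂ) (N : ℕ) (C : ℝ) (h1 : a 1 = 1)
    (hmul : ∀ p : ℕ, p.Prime → ¬ p ∣ N → ∀ n : ℕ, ¬ p ∣ n → a (p * n) = a p * a n)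
    (hC : ∀ X : ℕ, ∑ n ∈ range (X + 1), ‖a n‖ ^ 2 ≤ C * ((X : ℝ) + 1))
    {s : ℝ} (hs : 1 < s) (hs2 : s ≤ 2) (S : Finset ℕ) (hS : ∀ p ∈ S, p.Prime ∧ ¬ p ∣ N) :
    ∏ p ∈ S, (1 + ‖a p‖ ^ 2 * (p : ℝ) ^ (-s)) ≤ 4 * C / (s - 1) := by
  classical
  rw [prod_one_add]
  set g : ℕ → ℝ := fun n => if n = 0 then 0 else ‖a n‖ ^ 2 * (n : ℝ) ^ (-s) with hg
  have hg0 : ∀ n, 0 ≤ g n := by
    intro n
    simp only [hg]
    split_ifs
    · exact le_rfl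
    · exact mul_nonneg (by positivity) (Real.rpow_nonneg (Nat.cast_nonneg _) _)
  have hprime : ∀ T ∈ S.powerset, ∀ p ∈ T, p.Prime ∧ ¬ p ∣ N := fun T hT p hp =>
    hS p (mem_powerset.mp hT hp)
  have hpos : ∀ T ∈ S.powerset, 0 < ∏ p ∈ T, p := fun T hT =>
    prod_pos fun p hp => (hprime T hT p hp).1.pos
  have hterm : ∀ T ∈ S.powerset, ∏ p ∈ T, ‖a p‖ ^ 2 * (p : ℝ) ^ (-s) = g (∏ p ∈ T, p) := by
    intro T hT
    simp only [hg]
    rw [if_neg (hpos T hT).ne', prod_mul_distrib, coeff_prod_primes a N h1 hmul T (hprime T hT),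
      norm_prod, prod_pow, Nat.cast_prod, Real.finsetProd_rpow _ _ (fun p _ => Nat.cast_nonneg p)]
  rw [sum_congr rfl hterm]
  have hinj : Set.InjOn (fun T : Finset ℕ => ∏ p ∈ T, p) (S.powerset : Set (Finset ℕ)) := by
    intro T hT T' hT' h
    have e1 := Nat.primeFactors_prod (s := T) (fun p hp => (hprime T hT p hp).1)
    have e2 := Nat.primeFactors_prod (s := T') (fun p hp => (hprime T' hT' p hp).1)
    simp only at h
    rw [← e1, ← e2, h]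
  rw [← sum_image (f := g) hinj]
  set X : ℕ := ∏ p ∈ S, p with hX
  have hsub : S.powerset.image (fun T : Finset ℕ => ∏ p ∈ T, p) ⊆ range (X + 1) := by
    intro n hn
    obtain ⟨T, hT, rfl⟩ := mem_image.mp hn
    rw [mem_range, Nat.lt_succ_iff]
    exact Nat.le_of_dvd (hpos S (mem_powerset.mpr (Subset.refl S)))
      (prod_dvd_prod_of_subset _ _ _ (mem_powerset.mp hT))
  refine (sum_le_sum_of_subset_of_nonneg hsub fun n _ _ => hg0 n).trans ?_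
  rw [sum_range_succ']
  have h0 : g 0 = 0 := by simp [hg]
  rw [h0, add_zero]
  refine le_trans (le_of_eq ?_) (sum_mul_rpow_le (fun n => ‖a n‖ ^ 2) C (fun n => by positivity) hC hs hs2 X)
  refine sum_congr rfl fun n _ => ?_
  simp only [hg]
  rw [if_neg (Nat.succ_ne_zero n)]
  push_cast
  rfl

/-- A-priori bound on a single coefficient. -/
theorem normSq_le_of_meanSquare (a : ℕ → ℂ) (C : ℝ)
    (hC : ∀ X : ℕ, ∑ n ∈ range (X + 1), ‖a n‖ ^ 2 ≤ C * ((X : ℝ) + 1)) (n : ℕ) :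
    ‖a n‖ ^ 2 ≤ C * ((n : ℝ) + 1) :=
  le_trans (single_le_sum (f := fun m => ‖a m‖ ^ 2) (fun m _ => by positivity)
    (mem_range.mpr (Nat.lt_succ_self n))) (hC n)

/-- **R3** (weak constant): `∑_{p ∈ S} |a_p|² p^(-s) ≤ K log(1/(s-1)) + B` with explicit
`K = 1 + 2C`, `B = (1 + 2C) log (4C)`. -/
theorem sum_primes_le_weak (a : ℕ → ℂ) (N : ℕ) (C : ℝ) (h1 : a 1 = 1)
    (hmul : ∀ p : ℕ, p.Prime → ¬ p ∣ N → ∀ n : ℕ, ¬ p ∣ n → a (p * n) = a p * a n)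
    (hC : ∀ X : ℕ, ∑ n ∈ range (X + 1), ‖a n‖ ^ 2 ≤ C * ((X : ℝ) + 1))
    {s : ℝ} (hs : 1 < s) (hs2 : s ≤ 2) (S : Finset ℕ) (hS : ∀ p ∈ S, p.Prime ∧ ¬ p ∣ N) :
    ∑ p ∈ S, ‖a p‖ ^ 2 * (p : ℝ) ^ (-s) ≤
      (1 + 2 * C) * Real.log (1 / (s - 1)) + (1 + 2 * C) * Real.log (4 * C) := by
  have hs1 : 0 < s - 1 := by linarith
  have hC0 : 0 ≤ C := by
    have := hC 0
    simp at this
    exact (by positivity : (0:ℝ) ≤ ‖a 0‖ ^ 2).trans this
  have hE := prod_one_add_le a N C h1 hmul hC hs hs2 S hS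
  have ht0 : ∀ p ∈ S, 0 ≤ ‖a p‖ ^ 2 * (p : ℝ) ^ (-s) := fun p _ =>
    mul_nonneg (by positivity) (Real.rpow_nonneg (Nat.cast_nonneg _) _)
  have htM : ∀ p ∈ S, ‖a p‖ ^ 2 * (p : ℝ) ^ (-s) ≤ 2 * C := by
    intro p hp
    have hp1 : (1 : ℝ) ≤ p := by exact_mod_cast (hS p hp).1.one_le
    have h2 := normSq_le_of_meanSquare a C hC p
    have h3 : (p : ℝ) ^ (-s) ≤ (p : ℝ) ^ (-(1:ℝ)) :=
      Real.rpow_le_rpow_of_exponent_le hp1 (by linarith)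
    have h4 : (p : ℝ) ^ (-(1:ℝ)) = (p : ℝ)⁻¹ := by rw [Real.rpow_neg_one]
    have hp0 : (0 : ℝ) < p := by linarith
    calc ‖a p‖ ^ 2 * (p : ℝ) ^ (-s) ≤ (C * ((p : ℝ) + 1)) * (p : ℝ)⁻¹ := by
          rw [← h4]
          exact mul_le_mul h2 h3 (Real.rpow_nonneg hp0.le _) (by positivity)
      _ ≤ (C * (2 * p)) * (p : ℝ)⁻¹ := by
          refine mul_le_mul_of_nonneg_right ?_ (inv_nonneg.mpr hp0.le)
          exact mul_le_mul_of_nonneg_left (by linarith) hC0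
      _ = 2 * C := by field_simp
  have hprod1 : 1 ≤ ∏ p ∈ S, (1 + ‖a p‖ ^ 2 * (p : ℝ) ^ (-s)) := by
    have : ∀ p ∈ S, (1:ℝ) ≤ 1 + ‖a p‖ ^ 2 * (p : ℝ) ^ (-s) := fun p hp => by linarith [ht0 p hp]
    calc (1:ℝ) = ∏ p ∈ S, (1:ℝ) := by simp
      _ ≤ _ := prod_le_prod (fun _ _ => zero_le_one) this
  have h4C : 0 < 4 * C := by
    have : 1 ≤ 4 * C / (s - 1) := hprod1.trans hE
    rw [le_div_iff₀ hs1] at this
    linarith
  have hlog : ∀ p ∈ S, ‖a p‖ ^ 2 * (p : ℝ) ^ (-s) ≤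
      (1 + 2 * C) * Real.log (1 + ‖a p‖ ^ 2 * (p : ℝ) ^ (-s)) := by
    intro p hp
    set t := ‖a p‖ ^ 2 * (p : ℝ) ^ (-s) with ht
    have ht0' : 0 ≤ t := ht0 p hp
    have htM' : t ≤ 2 * C := htM p hp
    have hne : (1 + t) ≠ 0 := by linarith
    have h5 : 1 - (1 + t)⁻¹ ≤ Real.log (1 + t) := Real.one_sub_inv_le_log_of_pos (by linarith)
    have h6 : t / (1 + 2 * C) ≤ 1 - (1 + t)⁻¹ := by
      have : 1 - (1 + t)⁻¹ = t / (1 + t) := by field_simp; ring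
      rw [this]
      exact div_le_div_of_nonneg_left ht0' (by linarith) (by linarith)
    have h7 := h6.trans h5
    rw [div_le_iff₀ (by linarith)] at h7
    linarith
  calc ∑ p ∈ S, ‖a p‖ ^ 2 * (p : ℝ) ^ (-s)
      ≤ ∑ p ∈ S, (1 + 2 * C) * Real.log (1 + ‖a p‖ ^ 2 * (p : ℝ) ^ (-s)) := sum_le_sum hlog
    _ = (1 + 2 * C) * Real.log (∏ p ∈ S, (1 + ‖a p‖ ^ 2 * (p : ℝ) ^ (-s))) := by
        rw [← mul_sum, Real.log_prod]
        intro p hp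
        linarith [ht0 p hp]
    _ ≤ (1 + 2 * C) * Real.log (4 * C / (s - 1)) := by
        refine mul_le_mul_of_nonneg_left ?_ (by linarith)
        exact Real.log_le_log (by linarith) hE
    _ = (1 + 2 * C) * Real.log (1 / (s - 1)) + (1 + 2 * C) * Real.log (4 * C) := by
        rw [div_eq_mul_one_div, Real.log_mul h4C.ne' (one_div_pos.mpr hs1).ne']
        ring

/-- **R4** (sharp constant): if moreover `|a_p| ≤ 2` on `S`, then
`∑_{p ∈ S} |a_p|² p^(-s) ≤ log(1/(s-1)) + log (4C) + 32`. -/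
theorem sum_primes_le_sharp (a : ℕ → ℂ) (N : ℕ) (C : ℝ) (h1 : a 1 = 1)
    (hmul : ∀ p : ℕ, p.Prime → ¬ p ∣ N → ∀ n : ℕ, ¬ p ∣ n → a (p * n) = a p * a n)
    (hC : ∀ X : ℕ, ∑ n ∈ range (X + 1), ‖a n‖ ^ 2 ≤ C * ((X : ℝ) + 1))
    {s : ℝ} (hs : 1 < s) (hs2 : s ≤ 2) (S : Finset ℕ) (hS : ∀ p ∈ S, p.Prime ∧ ¬ p ∣ N)
    (h2 : ∀ p ∈ S, ‖a p‖ ≤ 2) :
    ∑ p ∈ S, ‖a p‖ ^ 2 * (p : ℝ) ^ (-s) ≤
      Real.log (1 / (s - 1)) + (Real.log (4 * C) + 32) := by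
  have hs1 : 0 < s - 1 := by linarith
  have hE := prod_one_add_le a N C h1 hmul hC hs hs2 S hS
  have ht0 : ∀ p ∈ S, 0 ≤ ‖a p‖ ^ 2 * (p : ℝ) ^ (-s) := fun p _ =>
    mul_nonneg (by positivity) (Real.rpow_nonneg (Nat.cast_nonneg _) _)
  have hprod1 : 1 ≤ ∏ p ∈ S, (1 + ‖a p‖ ^ 2 * (p : ℝ) ^ (-s)) := by
    have : ∀ p ∈ S, (1:ℝ) ≤ 1 + ‖a p‖ ^ 2 * (p : ℝ) ^ (-s) := fun p hp => by linarith [ht0 p hp]
    calc (1:ℝ) = ∏ p ∈ S, (1:ℝ) := by simp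
      _ ≤ _ := prod_le_prod (fun _ _ => zero_le_one) this
  have h4C : 0 < 4 * C := by
    have : 1 ≤ 4 * C / (s - 1) := hprod1.trans hE
    rw [le_div_iff₀ hs1] at this
    linarith
  -- t ≤ log (1 + t) + t²
  have hlog : ∀ p ∈ S, ‖a p‖ ^ 2 * (p : ℝ) ^ (-s) ≤
      Real.log (1 + ‖a p‖ ^ 2 * (p : ℝ) ^ (-s)) + 16 * ((p : ℝ) ^ (-(2:ℝ))) := by
    intro p hp
    set t := ‖a p‖ ^ 2 * (p : ℝ) ^ (-s) with ht
    have ht0' : 0 ≤ t := ht0 p hp
    have hne : (1 + t) ≠ 0 := by linarith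
    have hp1 : (1 : ℝ) ≤ p := by exact_mod_cast (hS p hp).1.one_le
    have hp0 : (0 : ℝ) < p := by linarith
    have h5 : 1 - (1 + t)⁻¹ ≤ Real.log (1 + t) := Real.one_sub_inv_le_log_of_pos (by linarith)
    have h6 : t - t ^ 2 ≤ 1 - (1 + t)⁻¹ := by
      have : 1 - (1 + t)⁻¹ = t / (1 + t) := by field_simp; ring
      rw [this, le_div_iff₀ (by linarith)]
      nlinarith [mul_nonneg ht0' (mul_nonneg ht0' ht0')]
    have h7 : (p : ℝ) ^ (-s) ≤ (p : ℝ) ^ (-(1:ℝ)) :=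
      Real.rpow_le_rpow_of_exponent_le hp1 (by linarith)
    have h8 : t ≤ 4 * (p : ℝ) ^ (-(1:ℝ)) := by
      have : ‖a p‖ ^ 2 ≤ 4 := by nlinarith [h2 p hp, norm_nonneg (a p)]
      calc t ≤ 4 * (p : ℝ) ^ (-s) := mul_le_mul_of_nonneg_right this (Real.rpow_nonneg hp0.le _)
        _ ≤ 4 * (p : ℝ) ^ (-(1:ℝ)) := by linarith
    have h9 : t ^ 2 ≤ 16 * ((p : ℝ) ^ (-(2:ℝ))) := by
      have e : (p : ℝ) ^ (-(2:ℝ)) = ((p : ℝ) ^ (-(1:ℝ))) ^ 2 := by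
        rw [← Real.rpow_natCast, ← Real.rpow_mul hp0.le]; norm_num
      rw [e]
      nlinarith [Real.rpow_nonneg hp0.le (-(1:ℝ))]
    linarith
  have hsum2 : ∑ p ∈ S, (p : ℝ) ^ (-(2:ℝ)) ≤ 2 := by
    classical
    set X : ℕ := S.sup id + 1 with hX
    have hsub : S ⊆ (range X).image (fun n => n + 1) := by
      intro p hp
      have hp1 := (hS p hp).1.one_le
      have hle : p ≤ S.sup id := le_sup (f := id) hp
      refine mem_image.mpr ⟨p - 1, mem_range.mpr (by omega), by omega⟩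
    refine (sum_le_sum_of_subset_of_nonneg hsub fun n _ _ =>
      Real.rpow_nonneg (Nat.cast_nonneg _) _).trans ?_
    rw [sum_image (fun x _ y _ h => by simpa using h)]
    have := sum_rpow_neg_le (s := 2) (by norm_num) X
    refine le_trans (le_of_eq ?_) (this.trans (by norm_num))
    refine sum_congr rfl fun n _ => ?_
    push_cast
    rfl
  calc ∑ p ∈ S, ‖a p‖ ^ 2 * (p : ℝ) ^ (-s)
      ≤ ∑ p ∈ S, (Real.log (1 + ‖a p‖ ^ 2 * (p : ℝ) ^ (-s)) + 16 * ((p : ℝ) ^ (-(2:ℝ)))) :=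
        sum_le_sum hlog
    _ = Real.log (∏ p ∈ S, (1 + ‖a p‖ ^ 2 * (p : ℝ) ^ (-s))) + 16 * ∑ p ∈ S, (p : ℝ) ^ (-(2:ℝ)) := by
        rw [sum_add_distrib, ← mul_sum, Real.log_prod]
        intro p hp
        linarith [ht0 p hp]
    _ ≤ Real.log (4 * C / (s - 1)) + 16 * 2 := by
        refine add_le_add (Real.log_le_log (by linarith) hE) (by linarith)
    _ = Real.log (1 / (s - 1)) + (Real.log (4 * C) + 32) := by
        rw [div_eq_mul_one_div, Real.log_mul h4C.ne' (one_div_pos.mpr hs1).ne']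
        ring

end Fermat.Agent.DS
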