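/-
DS (S48, Deligne–Serre), layer L1(c): Rankin-type mean square bound via Parseval.

* `sum_normSq_coeff_mul_exp_le` : Bessel's inequality on a horizontal line
    `∑_{n ∈ s} |a_n|² e^{-4π n y} ≤ sup_x |f(x+iy)|²`.
* `meanSquare_general` : cusp form of weight `k` on an arithmetic group with strict period `1`:
    `∑_{n ≤ X} |a_n|² ≤ C (X+1)^k`.
* `rankin_meanSquare` (R1) : weight one on `Γ₁(N)`: `∑_{n ≤ X} |a_n|² ≤ C (X+1)`.
* `rankin_primes_weak`, `rankin_primes_sharp` : the prime sum bounds of `DS/PrimeSumBound.lean`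
    specialised to such a form with multiplicative coefficients.
-/
import Mathlib
import Fermat.Prelude.Def_FLTPrelim_Modularity
import Fermat.Agent.DS.PrimeSumBound

set_option autoImplicit false

namespace Fermat.Agent.DS

open UpperHalfPlane ModularFormClass MeasureTheory
open scoped Real

/-- The restriction of a modular form to a horizontal line. -/
noncomputable def lineFn {F : Type*} [FunLike F ℍ ℂ] (f : F) (y : ℝ) (hy : 0 < y) : ℝ → ℂ :=
  fun x => f ⟨(x : ℂ) + y * Complex.I, by simpa using hy⟩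

theorem continuous_lineFn {Γ : Subgroup (GL (Fin 2) ℝ)} {k : ℤ} {F : Type*} [FunLike F ℍ ℂ]
    [ModularFormClass F Γ k] (f : F) (y : ℝ) (hy : 0 < y) : Continuous (lineFn f y hy) := by
  have h1 : Continuous (f : ℍ → ℂ) := (ModularFormClass.holo f).continuous
  have h2 : Continuous (fun x : ℝ => (⟨(x : ℂ) + y * Complex.I, by simpa using hy⟩ : ℍ)) := by
    rw [UpperHalfPlane.isEmbedding_coe.continuous_iff]
    show Continuous (fun x : ℝ => (x : ℂ) + y * Complex.I)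
    fun_prop
  exact h1.comp h2

theorem fourierCoeffOn_lineFn {Γ : Subgroup (GL (Fin 2) ℝ)} {k : ℤ} {F : Type*} [FunLike F ℍ ℂ]
    [ModularFormClass F Γ k] (f : F) (hΓ : (1 : ℝ) ∈ Γ.strictPeriods) (y : ℝ) (hy : 0 < y) (n : ℕ) :
    fourierCoeffOn zero_lt_one (lineFn f y hy) (n : ℤ) =
      Real.exp (-2 * π * n * y) * (qExpansion 1 f).coeff n := by
  rw [fourierCoeffOn_eq_integral (lineFn f y hy) (n : ℤ) zero_lt_one,
    ModularFormClass.qExpansion_coeff_eq_intervalIntegral f one_pos hΓ n hy]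
  simp only [sub_zero, ne_eq, one_ne_zero, not_false_eq_true, div_self, one_smul]
  rw [← intervalIntegral.integral_const_mul, ← intervalIntegral.integral_const_mul]
  refine intervalIntegral.integral_congr fun x _ => ?_
  simp only [lineFn, smul_eq_mul]
  rw [← mul_assoc, ← mul_assoc]
  congr 1
  rw [fourier_coe_apply, Function.Periodic.qParam, ← Complex.exp_nat_mul, Complex.ofReal_exp]
  simp only [Complex.ofReal_one, mul_one, one_div, sub_zero, div_one]
  rw [← Complex.exp_neg, ← Complex.exp_add]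
  congr 1
  push_cast
  have : (Complex.I : ℂ) ^ 2 = -1 := Complex.I_sq
  ring_nf
  rw [this]
  ring

theorem memLp_lineFn {Γ : Subgroup (GL (Fin 2) ℝ)} {k : ℤ} {F : Type*} [FunLike F ℍ ℂ]
    [ModularFormClass F Γ k] (f : F) (y : ℝ) (hy : 0 < y) :
    MemLp (lineFn f y hy) 2 (volume.restrict (Set.Ioc (0:ℝ) 1)) := by
  have hc := continuous_lineFn f y hy
  obtain ⟨B, hB⟩ := (isCompact_Icc (a := (0:ℝ)) (b := 1)).exists_bound_of_continuousOn hc.continuousOn
  refine MemLp.of_bound hc.aestronglyMeasurable B ?_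
  rw [ae_restrict_iff' measurableSet_Ioc]
  exact Filter.Eventually.of_forall fun x hx => hB x (Set.Ioc_subset_Icc_self hx)

/-- Bessel's inequality on a horizontal line. -/
theorem sum_normSq_coeff_mul_exp_le {Γ : Subgroup (GL (Fin 2) ℝ)} {k : ℤ} {F : Type*}
    [FunLike F ℍ ℂ] [ModularFormClass F Γ k] (f : F) (hΓ : (1 : ℝ) ∈ Γ.strictPeriods)
    (y : ℝ) (hy : 0 < y) (B : ℝ) (hB : ∀ x : ℝ, ‖lineFn f y hy x‖ ≤ B) (s : Finset ℕ) :
    ∑ n ∈ s, ‖(qExpansion 1 f).coeff n‖ ^ 2 * Real.exp (-4 * π * n * y) ≤ B ^ 2 := by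
  have hB0 : 0 ≤ B := (norm_nonneg _).trans (hB 0)
  have hP := hasSum_sq_fourierCoeffOn (f := lineFn f y hy) zero_lt_one (memLp_lineFn f y hy)
  have h1 : ∑ i ∈ s.map Nat.castEmbedding, ‖fourierCoeffOn zero_lt_one (lineFn f y hy) i‖ ^ 2 ≤
      ((1:ℝ) - 0)⁻¹ • ∫ x in (0:ℝ)..1, ‖lineFn f y hy x‖ ^ 2 :=
    sum_le_hasSum _ (fun i _ => by positivity) hP
  have h2 : ∫ x in (0:ℝ)..1, ‖lineFn f y hy x‖ ^ 2 ≤ ∫ x in (0:ℝ)..1, B ^ 2 := by
    refine intervalIntegral.integral_mono_on zero_le_one ?_ ?_ ?_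
    · exact ((continuous_lineFn f y hy).norm.pow 2).intervalIntegrable _ _
    · exact continuous_const.intervalIntegrable _ _
    · intro x _
      exact pow_le_pow_left₀ (norm_nonneg _) (hB x) 2
  simp only [sub_zero, inv_one, intervalIntegral.integral_const, smul_eq_mul, one_mul] at h1 h2
  refine le_trans (le_of_eq ?_) (h1.trans h2)
  rw [Finset.sum_map]
  refine Finset.sum_congr rfl fun n _ => ?_
  simp only [Nat.castEmbedding_apply]
  rw [fourierCoeffOn_lineFn f hΓ y hy n, norm_mul, mul_pow, Complex.norm_real, Real.norm_eq_abs,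
    abs_of_pos (Real.exp_pos _), ← Real.exp_nat_mul, mul_comm]
  congr 2
  push_cast
  ring

/-- **Rankin-type mean square bound** (general weight, any arithmetic group with strict
period `1`): `∑_{n ≤ X} |a_n|² ≤ C (X+1)^k`. -/
theorem meanSquare_general {Γ : Subgroup (GL (Fin 2) ℝ)} [Γ.IsArithmetic] {k : ℤ} {F : Type*}
    [FunLike F ℍ ℂ] [CuspFormClass F Γ k] (f : F) (hΓ : (1 : ℝ) ∈ Γ.strictPeriods) :
    ∃ C : ℝ, 0 ≤ C ∧ ∀ X : ℕ, ∑ n ∈ Finset.range (X + 1), ‖(qExpansion 1 f).coeff n‖ ^ 2 ≤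
      C * ((X : ℝ) + 1) ^ (k : ℝ) := by
  obtain ⟨C, hC⟩ := CuspFormClass.exists_bound (Γ := Γ) (k := k) f
  refine ⟨Real.exp (4 * π) * C ^ 2, by positivity, fun X => ?_⟩
  have hX : (0 : ℝ) < (X : ℝ) + 1 := by positivity
  set y : ℝ := ((X : ℝ) + 1)⁻¹ with hy_def
  have hy : 0 < y := inv_pos.mpr hX
  have hB : ∀ x : ℝ, ‖lineFn f y hy x‖ ≤ C / y ^ ((k : ℝ) / 2) := by
    intro x
    have := hC ⟨(x : ℂ) + y * Complex.I, by simpa using hy⟩
    have him : (⟨(x : ℂ) + y * Complex.I, by simpa using hy⟩ : ℍ).im = y := by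
      rw [← UpperHalfPlane.coe_im]; simp
    rw [him] at this
    exact this
  have h1 := sum_normSq_coeff_mul_exp_le f hΓ y hy _ hB (Finset.range (X + 1))
  have h2 : (C / y ^ ((k : ℝ) / 2)) ^ 2 = C ^ 2 * ((X : ℝ) + 1) ^ (k : ℝ) := by
    rw [div_pow, ← Real.rpow_natCast (y ^ ((k : ℝ) / 2)) 2, ← Real.rpow_mul hy.le, hy_def,
      Real.inv_rpow hX.le, div_eq_mul_inv, inv_inv]
    congr 2
    push_cast
    ring
  rw [h2] at h1
  have h3 : ∑ n ∈ Finset.range (X + 1), ‖(qExpansion 1 f).coeff n‖ ^ 2 * Real.exp (-4 * π) ≤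
      ∑ n ∈ Finset.range (X + 1), ‖(qExpansion 1 f).coeff n‖ ^ 2 * Real.exp (-4 * π * n * y) := by
    refine Finset.sum_le_sum fun n hn => ?_
    refine mul_le_mul_of_nonneg_left ?_ (by positivity)
    rw [Real.exp_le_exp]
    have hn' : (n : ℝ) ≤ X := by exact_mod_cast Nat.lt_succ_iff.mp (Finset.mem_range.mp hn)
    have hny : (n : ℝ) * y ≤ 1 := by
      rw [hy_def, ← div_eq_mul_inv, div_le_one hX]
      linarith
    have hpi : 0 < π := Real.pi_pos
    nlinarith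
  rw [← Finset.sum_mul] at h3
  have h4 := h3.trans h1
  have h5 : Real.exp (4 * π) * Real.exp (-4 * π) = 1 := by
    rw [← Real.exp_add]; simp
  calc ∑ n ∈ Finset.range (X + 1), ‖(qExpansion 1 f).coeff n‖ ^ 2
      = Real.exp (4 * π) * ((∑ n ∈ Finset.range (X + 1), ‖(qExpansion 1 f).coeff n‖ ^ 2) *
          Real.exp (-4 * π)) := by
        rw [mul_comm (∑ n ∈ Finset.range (X + 1), ‖(qExpansion 1 f).coeff n‖ ^ 2), ← mul_assoc, h5,
          one_mul]
    _ ≤ Real.exp (4 * π) * (C ^ 2 * ((X : ℝ) + 1) ^ (k : ℝ)) :=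
        mul_le_mul_of_nonneg_left h4 (Real.exp_pos _).le
    _ = Real.exp (4 * π) * C ^ 2 * ((X : ℝ) + 1) ^ (k : ℝ) := by ring

open CongruenceSubgroup in
theorem one_mem_strictPeriods_Gamma1 (N : ℕ) :
    (1 : ℝ) ∈ (Subgroup.map (Matrix.SpecialLinearGroup.mapGL ℝ) (Gamma1 N)).strictPeriods := by
  have hT : ModularGroup.T ∈ Gamma1 N := by
    rw [Gamma1_mem]
    simp [ModularGroup.T]
  rw [Subgroup.strictPeriods_eq_zmultiples_one_of_T_mem hT]
  exact AddSubgroup.mem_zmultiples (1 : ℝ)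

open CongruenceSubgroup in
/-- **R1**: Rankin-type mean square bound for weight one cusp forms on `Γ₁(N)`. -/
theorem rankin_meanSquare {N : ℕ} [NeZero N] (f : CuspForm (Gamma1 N) 1) :
    ∃ C : ℝ, 0 ≤ C ∧ ∀ X : ℕ,
      ∑ n ∈ Finset.range (X + 1), ‖ModularFormClass.qCoeff f n‖ ^ 2 ≤ C * ((X : ℝ) + 1) := by
  obtain ⟨C, hC0, hC⟩ := meanSquare_general (k := 1) f (one_mem_strictPeriods_Gamma1 N)
  refine ⟨C, hC0, fun X => ?_⟩
  have := hC X
  simpa [ModularFormClass.qCoeff] using this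

open CongruenceSubgroup in
/-- **R3 for forms** (weak constant): explicit `K`, `B` depending only on `f`. -/
theorem rankin_primes_weak {N : ℕ} [NeZero N] (f : CuspForm (Gamma1 N) 1)
    (hf1 : ModularFormClass.qCoeff f 1 = 1)
    (hmul : ∀ p : ℕ, p.Prime → ¬ p ∣ N → ∀ n : ℕ, ¬ p ∣ n →
      ModularFormClass.qCoeff f (p * n) = ModularFormClass.qCoeff f p * ModularFormClass.qCoeff f n) :
    ∃ K B : ℝ, 0 ≤ K ∧ ∀ s : ℝ, 1 < s → s ≤ 2 → ∀ S : Finset ℕ, (∀ p ∈ S, p.Prime ∧ ¬ p ∣ N) →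
      ∑ p ∈ S, ‖ModularFormClass.qCoeff f p‖ ^ 2 * (p : ℝ) ^ (-s) ≤
        K * Real.log (1 / (s - 1)) + B := by
  obtain ⟨C, hC0, hC⟩ := rankin_meanSquare f
  exact ⟨1 + 2 * C, (1 + 2 * C) * Real.log (4 * C), by positivity, fun s hs hs2 S hS =>
    sum_primes_le_weak (fun n => ModularFormClass.qCoeff f n) N C hf1 hmul hC hs hs2 S hS⟩

open CongruenceSubgroup in
/-- **R4 for forms** (sharp constant `1`), for sets of primes on which `|a_p| ≤ 2`. -/
theorem rankin_primes_sharp {N : ℕ} [NeZero N] (f : CuspForm (Gamma1 N) 1)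
    (hf1 : ModularFormClass.qCoeff f 1 = 1)
    (hmul : ∀ p : ℕ, p.Prime → ¬ p ∣ N → ∀ n : ℕ, ¬ p ∣ n →
      ModularFormClass.qCoeff f (p * n) = ModularFormClass.qCoeff f p * ModularFormClass.qCoeff f n) :
    ∃ B : ℝ, ∀ s : ℝ, 1 < s → s ≤ 2 → ∀ S : Finset ℕ, (∀ p ∈ S, p.Prime ∧ ¬ p ∣ N) →
      (∀ p ∈ S, ‖ModularFormClass.qCoeff f p‖ ≤ 2) →
      ∑ p ∈ S, ‖ModularFormClass.qCoeff f p‖ ^ 2 * (p : ℝ) ^ (-s) ≤
        Real.log (1 / (s - 1)) + B := by
  obtain ⟨C, _, hC⟩ := rankin_meanSquare f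
  exact ⟨Real.log (4 * C) + 32, fun s hs hs2 S hS h2 =>
    sum_primes_le_sharp (fun n => ModularFormClass.qCoeff f n) N C hf1 hmul hC hs hs2 S hS h2⟩

/-- The multiplicativity hypothesis follows from the Hecke relation in the shape of the frozen
statement S48. -/
theorem mul_of_heckeRelation (a : ℕ → ℂ) (e : ℕ → ℂ) (N : ℕ)
    (hT : ∀ p : ℕ, p.Prime → ¬ p ∣ N → ∀ n : ℕ,
      a (p * n) + e p * (if p ∣ n then a (n / p) else 0) = a p * a n) :
    ∀ p : ℕ, p.Prime → ¬ p ∣ N → ∀ n : ℕ, ¬ p ∣ n → a (p * n) = a p * a n := by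
  intro p hp hpN n hn
  have := hT p hp hpN n
  rwa [if_neg hn, mul_zero, add_zero] at this

end Fermat.Agent.DS
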