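/-
DS (S48, Deligne–Serre), step DENS (H2): the density estimate.

If finitely many weight-one cusp forms `F j` on `Γ₁(N)` carry all the conjugates `σ j (a p)` of the
algebraic integers `a p` (`p ∤ N`), then for every `η > 0` there is a FINITE set `Y` of algebraic
integers such that the primes `p ∤ N` with `a p ∉ Y` have upper Dirichlet density at most `η`, in
the finite-sum form

  `∑_{p ∈ T} p^(-s) ≤ η log(1/(s-1)) + C`     (`1 < s ≤ 2`, `T` any finite set of such primes).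

* `exists_ringEquiv_apply_eq` : every root of the minimal polynomial of an algebraic `x : ℂ` is
  `τ x` for a ring automorphism `τ` of `ℂ`;
* `finite_integral_bounded_orbit` : algebraic integers whose orbit under the ring endomorphisms of
  `ℂ` has at most `r` elements, all of absolute value at most `c`, are finite in number;
* `density_of_bound` : the abstract density lemma;
* `dens_of_conjugates`, `dens_of_heckeRelation` : the statement for conjugate forms (Rankin).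
-/
import Mathlib
import Fermat.Agent.DS.Rankin
import Fermat.Agent.S23.FixedField

set_option autoImplicit false

namespace Fermat.Agent.DS

open Polynomial CongruenceSubgroup

/-- Every root of the minimal polynomial of an algebraic complex number `x` is the image of `x`
under a ring automorphism of `ℂ`. -/
theorem exists_ringEquiv_apply_eq {x y : ℂ} (hx : IsAlgebraic ℚ x)
    (hy : Polynomial.aeval y (minpoly ℚ x) = 0) : ∃ τ : ℂ ≃+* ℂ, τ x = y := by
  have hxL : x ∈ algebraicClosure ℚ ℂ := mem_algebraicClosure_iff.mpr hx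
  have hyalg : IsAlgebraic ℚ y := ⟨minpoly ℚ x, minpoly.ne_zero hx.isIntegral, hy⟩
  have hyL : y ∈ algebraicClosure ℚ ℂ := mem_algebraicClosure_iff.mpr hyalg
  have hcl : IsAlgClosure ℚ (algebraicClosure ℚ ℂ) := algebraicClosure.isAlgClosure ℚ ℂ
  have hgal : IsGalois ℚ (algebraicClosure ℚ ℂ) := IsAlgClosure.isGalois _ _
  have hinj : Function.Injective (algebraMap (algebraicClosure ℚ ℂ) ℂ) :=
    (algebraMap (algebraicClosure ℚ ℂ) ℂ).injective
  have hmin : minpoly ℚ (⟨x, hxL⟩ : algebraicClosure ℚ ℂ) = minpoly ℚ x := by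
    have := minpoly.algebraMap_eq (A := ℚ) hinj (⟨x, hxL⟩ : algebraicClosure ℚ ℂ)
    exact this.symm
  have hxalg' : IsAlgebraic ℚ (⟨x, hxL⟩ : algebraicClosure ℚ ℂ) :=
    (isAlgebraic_algebraMap_iff hinj).mp hx
  have hev : Polynomial.aeval (⟨y, hyL⟩ : algebraicClosure ℚ ℂ)
      (minpoly ℚ (⟨x, hxL⟩ : algebraicClosure ℚ ℂ)) = 0 := by
    rw [hmin]
    apply hinj
    rw [← Polynomial.aeval_algebraMap_apply, map_zero]
    exact hy
  obtain ⟨σ, hσ⟩ := minpoly.exists_algEquiv_of_root' hxalg' hev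
  obtain ⟨τ, hτ⟩ := Fermat.Agent.S23.exists_ringEquiv_extending
    (R := algebraicClosure ℚ ℂ) (K := ℂ) hinj σ.toRingEquiv
  refine ⟨τ, ?_⟩
  have h := hτ ⟨x, hxL⟩
  have h2 : σ.toRingEquiv ⟨x, hxL⟩ = ⟨y, hyL⟩ := hσ
  rw [h2] at h
  exact h

/-- **Finiteness**: the algebraic integers `x` all of whose images under ring endomorphisms of
`ℂ` lie in a set of at most `r` complex numbers of absolute value at most `c` form a finite
set. -/
theorem finite_integral_bounded_orbit (r : ℕ) (c : ℝ) :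
    {x : ℂ | IsIntegral ℤ x ∧ ∃ S : Finset ℂ, S.card ≤ r ∧ (∀ y ∈ S, ‖y‖ ≤ c) ∧
      ∀ t : ℂ →+* ℂ, t x ∈ S}.Finite := by
  classical
  let C := Nat.ceil (max c 1 ^ r * r.choose (r / 2))
  have hfin := Polynomial.bUnion_roots_finite (algebraMap ℤ ℂ) r (Set.finite_Icc (-C : ℤ) C)
  refine hfin.subset fun x hx => ?_
  simp_rw [Set.mem_iUnion]
  obtain ⟨hint, S, hcard, hS, hall⟩ := hx
  have hQ : minpoly ℚ x = (minpoly ℤ x).map (algebraMap ℤ ℚ) :=
    minpoly.isIntegrallyClosed_eq_field_fractions' ℚ hint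
  have hmapC : (minpoly ℤ x).map (algebraMap ℤ ℂ) = (minpoly ℚ x).map (algebraMap ℚ ℂ) := by
    rw [hQ, Polynomial.map_map]
    congr 1
  have hintQ : IsIntegral ℚ x := hint.tower_top
  have hmonic : (minpoly ℤ x).Monic := minpoly.monic hint
  have hne : (minpoly ℤ x).map (algebraMap ℤ ℂ) ≠ 0 := (hmonic.map _).ne_zero
  have hroots : ∀ z ∈ ((minpoly ℤ x).map (algebraMap ℤ ℂ)).roots, z ∈ S := by
    intro z hz
    rw [hmapC] at hz
    have hz' : Polynomial.aeval z (minpoly ℚ x) = 0 := by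
      have := (Polynomial.mem_roots (by rw [← hmapC]; exact hne)).mp hz
      rwa [Polynomial.IsRoot.def, Polynomial.eval_map, ← Polynomial.aeval_def] at this
    obtain ⟨τ, hτ⟩ := exists_ringEquiv_apply_eq hintQ.isAlgebraic hz'
    rw [← hτ]
    exact hall τ.toRingHom
  have hsplit : ((minpoly ℤ x).map (algebraMap ℤ ℂ)).Splits := IsAlgClosed.splits _
  have hsep : ((minpoly ℤ x).map (algebraMap ℤ ℂ)).Separable := by
    rw [hmapC]
    exact (minpoly.irreducible hintQ).separable.map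
  have hdeg : (minpoly ℤ x).natDegree ≤ r := by
    rw [← hmonic.natDegree_map (algebraMap ℤ ℂ), hsplit.natDegree_eq_card_roots,
      ← Multiset.toFinset_card_of_nodup (Polynomial.nodup_roots hsep)]
    refine le_trans (Finset.card_le_card fun z hz => ?_) hcard
    exact hroots z (Multiset.mem_toFinset.mp hz)
  refine ⟨minpoly ℤ x, ⟨hdeg, fun i => ?_⟩, ?_⟩
  · rw [Set.mem_Icc, ← abs_le, ← @Int.cast_le ℝ]
    have hb := Polynomial.coeff_bdd_of_roots_le (algebraMap ℤ ℂ) hmonic hsplit hdeg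
      (fun z hz => hS z (hroots z hz)) i
    rw [Polynomial.coeff_map, eq_intCast, Complex.norm_intCast] at hb
    rw [Int.cast_abs]
    exact hb.trans (Nat.le_ceil _)
  · rw [Finset.mem_coe, Multiset.mem_toFinset, Polynomial.mem_roots hne, Polynomial.IsRoot.def,
      Polynomial.eval_map, ← Polynomial.aeval_def]
    exact minpoly.aeval ℤ x

/-- **Abstract density lemma.** If the conjugates `σ j (a p)` (finitely many `σ j` carrying all
conjugates) satisfy a Rankin-type bound, the primes `p` with `a p` outside a suitable finite set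
of algebraic integers have upper Dirichlet density at most `η`. -/
theorem density_of_bound (a : ℕ → ℂ) (N : ℕ) (r : ℕ) (σ : Fin r → ℂ →+* ℂ)
    (hint : ∀ p : ℕ, p.Prime → ¬ p ∣ N → IsIntegral ℤ (a p))
    (hall : ∀ p : ℕ, p.Prime → ¬ p ∣ N → ∀ t : ℂ →+* ℂ, ∃ j, t (a p) = σ j (a p))
    (K B : ℝ) (hK : 0 ≤ K)
    (hb : ∀ s : ℝ, 1 < s → s ≤ 2 → ∀ S : Finset ℕ, (∀ p ∈ S, p.Prime ∧ ¬ p ∣ N) →
      ∑ p ∈ S, (∑ j, ‖σ j (a p)‖ ^ 2) * (p : ℝ) ^ (-s) ≤ K * Real.log (1 / (s - 1)) + B)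
    {η : ℝ} (hη : 0 < η) :
    ∃ (Y : Finset ℂ) (C : ℝ), (∀ y ∈ Y, IsIntegral ℤ y) ∧ ∀ s : ℝ, 1 < s → s ≤ 2 →
      ∀ T : Finset ℕ, (∀ p ∈ T, p.Prime ∧ ¬ p ∣ N ∧ a p ∉ Y) →
        ∑ p ∈ T, (p : ℝ) ^ (-s) ≤ η * Real.log (1 / (s - 1)) + C := by
  classical
  set c2 : ℝ := (K + 1) / η with hc2
  have hc2pos : 0 < c2 := by positivity
  have hfin := finite_integral_bounded_orbit r (Real.sqrt c2)
  refine ⟨hfin.toFinset, |B| / c2, fun y hy => ((Set.Finite.mem_toFinset _).mp hy).1,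
    fun s hs hs2 T hT => ?_⟩
  have key : ∀ p ∈ T, c2 ≤ ∑ j, ‖σ j (a p)‖ ^ 2 := by
    intro p hp
    obtain ⟨hpp, hpN, hpY⟩ := hT p hp
    by_contra hlt
    push Not at hlt
    apply hpY
    rw [Set.Finite.mem_toFinset]
    refine ⟨hint p hpp hpN, Finset.univ.image (fun j => σ j (a p)), ?_, ?_, ?_⟩
    · exact Finset.card_image_le.trans (by simp)
    · intro y hy
      obtain ⟨j, -, rfl⟩ := Finset.mem_image.mp hy
      have h1 : ‖σ j (a p)‖ ^ 2 ≤ ∑ j, ‖σ j (a p)‖ ^ 2 :=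
        Finset.single_le_sum (f := fun j => ‖σ j (a p)‖ ^ 2) (fun _ _ => by positivity)
          (Finset.mem_univ j)
      exact Real.le_sqrt_of_sq_le (h1.trans hlt.le)
    · intro t
      obtain ⟨j, hj⟩ := hall p hpp hpN t
      exact Finset.mem_image.mpr ⟨j, Finset.mem_univ _, hj.symm⟩
  have h1 : c2 * ∑ p ∈ T, (p : ℝ) ^ (-s) ≤
      ∑ p ∈ T, (∑ j, ‖σ j (a p)‖ ^ 2) * (p : ℝ) ^ (-s) := by
    rw [Finset.mul_sum]
    exact Finset.sum_le_sum fun p hp =>
      mul_le_mul_of_nonneg_right (key p hp) (Real.rpow_nonneg (Nat.cast_nonneg _) _)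
  have h2 := hb s hs hs2 T (fun p hp => ⟨(hT p hp).1, (hT p hp).2.1⟩)
  have hlog : 0 ≤ Real.log (1 / (s - 1)) := by
    apply Real.log_nonneg
    rw [le_div_iff₀ (by linarith)]
    linarith
  have h3 : c2 * η = K + 1 := by
    rw [hc2]
    field_simp
  have h4 : c2 * ∑ p ∈ T, (p : ℝ) ^ (-s) ≤ c2 * (η * Real.log (1 / (s - 1)) + |B| / c2) := by
    have e : c2 * (η * Real.log (1 / (s - 1)) + |B| / c2) =
        (K + 1) * Real.log (1 / (s - 1)) + |B| := by
      rw [mul_add, ← mul_assoc, h3, mul_div_cancel₀ _ hc2pos.ne']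
    rw [e]
    have := le_abs_self B
    nlinarith
  exact le_of_mul_le_mul_left h4 hc2pos

/-- **DENS (H2)**: the density estimate from finitely many conjugate forms. -/
theorem dens_of_conjugates {N : ℕ} [NeZero N] (a : ℕ → ℂ) (h1 : a 1 = 1)
    (hmul : ∀ p : ℕ, p.Prime → ¬ p ∣ N → ∀ n : ℕ, ¬ p ∣ n → a (p * n) = a p * a n)
    (hint : ∀ p : ℕ, p.Prime → ¬ p ∣ N → IsIntegral ℤ (a p))
    (r : ℕ) (F : Fin r → CuspForm (Gamma1 N) 1) (σ : Fin r → ℂ →+* ℂ)
    (hF : ∀ j n, ModularFormClass.qCoeff (F j) n = σ j (a n))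
    (hall : ∀ p : ℕ, p.Prime → ¬ p ∣ N → ∀ t : ℂ →+* ℂ, ∃ j, t (a p) = σ j (a p))
    {η : ℝ} (hη : 0 < η) :
    ∃ (Y : Finset ℂ) (C : ℝ), (∀ y ∈ Y, IsIntegral ℤ y) ∧ ∀ s : ℝ, 1 < s → s ≤ 2 →
      ∀ T : Finset ℕ, (∀ p ∈ T, p.Prime ∧ ¬ p ∣ N ∧ a p ∉ Y) →
        ∑ p ∈ T, (p : ℝ) ^ (-s) ≤ η * Real.log (1 / (s - 1)) + C := by
  have hR : ∀ j : Fin r, ∃ K B : ℝ, 0 ≤ K ∧ ∀ s : ℝ, 1 < s → s ≤ 2 → ∀ S : Finset ℕ,
      (∀ p ∈ S, p.Prime ∧ ¬ p ∣ N) →
      ∑ p ∈ S, ‖σ j (a p)‖ ^ 2 * (p : ℝ) ^ (-s) ≤ K * Real.log (1 / (s - 1)) + B := by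
    intro j
    have hf1 : ModularFormClass.qCoeff (F j) 1 = 1 := by rw [hF, h1, map_one]
    have hm : ∀ p : ℕ, p.Prime → ¬ p ∣ N → ∀ n : ℕ, ¬ p ∣ n →
        ModularFormClass.qCoeff (F j) (p * n) =
          ModularFormClass.qCoeff (F j) p * ModularFormClass.qCoeff (F j) n := by
      intro p hp hpN n hn
      rw [hF, hF, hF, hmul p hp hpN n hn, map_mul]
    obtain ⟨K, B, hK, h⟩ := rankin_primes_weak (F j) hf1 hm
    refine ⟨K, B, hK, fun s hs hs2 S hS => ?_⟩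
    have := h s hs hs2 S hS
    simpa only [hF] using this
  choose K B hK hKB using hR
  refine density_of_bound a N r σ hint hall (∑ j, K j) (∑ j, B j)
    (Finset.sum_nonneg fun j _ => hK j) (fun s hs hs2 S hS => ?_) hη
  have e : ∑ p ∈ S, (∑ j, ‖σ j (a p)‖ ^ 2) * (p : ℝ) ^ (-s) =
      ∑ j, ∑ p ∈ S, ‖σ j (a p)‖ ^ 2 * (p : ℝ) ^ (-s) := by
    rw [Finset.sum_comm]
    refine Finset.sum_congr rfl fun p _ => ?_
    rw [Finset.sum_mul]
  rw [e, Finset.sum_mul, ← Finset.sum_add_distrib]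
  exact Finset.sum_le_sum fun j _ => hKB j s hs hs2 S hS

/-- **DENS (H2)** in the shape of the frozen statement S48: `a` satisfies the Hecke relation with
some sequence `e`, the `a p` (`p ∤ N`) are algebraic integers, and finitely many conjugate forms
carry all their conjugates. -/
theorem dens_of_heckeRelation {N : ℕ} [NeZero N] (a : ℕ → ℂ) (e : ℕ → ℂ) (h1 : a 1 = 1)
    (hT : ∀ p : ℕ, p.Prime → ¬ p ∣ N → ∀ n : ℕ,
      a (p * n) + e p * (if p ∣ n then a (n / p) else 0) = a p * a n)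
    (hint : ∀ p : ℕ, p.Prime → ¬ p ∣ N → IsIntegral ℤ (a p))
    (hconj : ∃ (r : ℕ) (F : Fin r → CuspForm (Gamma1 N) 1) (σ : Fin r → ℂ →+* ℂ),
      (∀ j n, ModularFormClass.qCoeff (F j) n = σ j (a n)) ∧
      ∀ t : ℂ →+* ℂ, ∃ j, ∀ p : ℕ, p.Prime → ¬ p ∣ N → t (a p) = σ j (a p))
    {η : ℝ} (hη : 0 < η) :
    ∃ (Y : Finset ℂ) (C : ℝ), (∀ y ∈ Y, IsIntegral ℤ y) ∧ ∀ s : ℝ, 1 < s → s ≤ 2 →
      ∀ T : Finset ℕ, (∀ p ∈ T, p.Prime ∧ ¬ p ∣ N ∧ a p ∉ Y) →
        ∑ p ∈ T, (p : ℝ) ^ (-s) ≤ η * Real.log (1 / (s - 1)) + C := by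
  obtain ⟨r, F, σ, hF, hall⟩ := hconj
  refine dens_of_conjugates a h1 (mul_of_heckeRelation a e N hT) hint r F σ hF
    (fun p hp hpN t => ?_) hη
  obtain ⟨j, hj⟩ := hall t
  exact ⟨j, hj p hp hpN⟩

end Fermat.Agent.DS
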