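/-
DS (S48, Deligne–Serre), step DENS (H2), unconditional form: for `f` as in the frozen statement
S48 and every `η > 0` there is a finite set `Y` of algebraic integers such that the primes
`p ∤ N` with `a_p(f) ∉ Y` have upper Dirichlet density at most `η` (finite-sum form).

`DS/Density.lean` (abstract lemma + Rankin) plugged into `DS/Rat/Main.lean` (integrality of the
`a_p`, finitely many conjugate eigenforms).
-/
import Mathlib
import Fermat.Agent.DS.Density
import Fermat.Agent.DS.Rat.Main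

set_option autoImplicit false

namespace Fermat.Agent.DS

open CongruenceSubgroup ModularFormClass

/-- **DENS (H2) for the frozen statement S48.** -/
theorem dens_of_S48 {N : ℕ} [NeZero N] (ε : DirichletCharacter ℂ N) (f : CuspForm (Gamma1 N) 1)
    (hf₁ : qCoeff f 1 = 1)
    (hT : ∀ p : ℕ, p.Prime → ¬ p ∣ N → ∀ n : ℕ,
        qCoeff f (p * n) + ε (p : ZMod N) * (if p ∣ n then qCoeff f (n / p) else 0) =
          qCoeff f p * qCoeff f n)
    {η : ℝ} (hη : 0 < η) :
    ∃ (Y : Finset ℂ) (C : ℝ), (∀ y ∈ Y, IsIntegral ℤ y) ∧ ∀ s : ℝ, 1 < s → s ≤ 2 →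
      ∀ T : Finset ℕ, (∀ p ∈ T, p.Prime ∧ ¬ p ∣ N ∧ qCoeff f p ∉ Y) →
        ∑ p ∈ T, (p : ℝ) ^ (-s) ≤ η * Real.log (1 / (s - 1)) + C := by
  obtain ⟨r, s, F, hF, -, hall⟩ := Rat.exists_conj_forms ε f ⟨hf₁, hT⟩
  refine dens_of_heckeRelation (fun n => qCoeff f n) (fun p => ε (p : ZMod N)) hf₁ hT
    (fun p hp hpN => Rat.isIntegral_qCoeff_prime ε f hf₁ hT hp hpN)
    ⟨r, F, s, hF, fun t => ?_⟩ hη
  obtain ⟨j, hj, -⟩ := hall t
  exact ⟨j, hj⟩

end Fermat.Agent.DS
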