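/-
DS (S48, Deligne–Serre), tool E3 in `v`-linear form: the Eisenstein-type series

  `G_v(z) = ∑_{(c,d) ∈ ℤ²} v(c mod N) (c z + d)^(-k)`      (`v : ZMod N → ℂ` arbitrary, `k ≥ 3`)

* `Gfun v k` : the function; `mdiff_Gfun`, `isBoundedAtImInfty_Gfun_slash`;
* `Gfun_slash` : for `γ ∈ Γ₀(N)`, `G_v ∣[k] γ = G_{v(· γ₁₁)}`;
* `hasSum_Gfun`, `qExpansion_Gfun_coeff` : the `q`-expansion
    `G_v = v(0) ∑_d d^(-k) + (-2πi)^k/(k-1)! ∑_{n ≥ 1} (∑_{c e = n} (v(c) + (-1)^k v(-c)) e^(k-1)) qⁿ`;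
* `G v : ModularForm (Gamma1 N) 3` with `coe_G`, `G_slash` (E3b), `qExpansion_G_coeff` (E3c).
-/
import Mathlib
import Fermat.Agent.DS.EisChar

set_option autoImplicit false

namespace Fermat.Agent.DS.EisV

open EisensteinSeries UpperHalfPlane Matrix ModularForm CongruenceSubgroup Filter Complex
open Fermat.Agent.Lib.Analysis.EisensteinChar
open scoped MatrixGroups Manifold Topology Real Nat

variable {N : ℕ}

/-- The weight `(c, d) ↦ v(c)`. -/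
noncomputable def vWeight (v : ZMod N → ℂ) (x : Fin 2 → ℤ) : ℂ := v ((x 0 : ℤ) : ZMod N)

/-- A positive bound for `v`. -/
noncomputable def vBound [NeZero N] (v : ZMod N → ℂ) : ℝ := 1 + ∑ a : ZMod N, ‖v a‖

theorem vBound_pos [NeZero N] (v : ZMod N → ℂ) : 0 < vBound v := by
  unfold vBound
  have : 0 ≤ ∑ a : ZMod N, ‖v a‖ := Finset.sum_nonneg fun _ _ => norm_nonneg _
  linarith

theorem norm_le_vBound [NeZero N] (v : ZMod N → ℂ) (a : ZMod N) : ‖v a‖ ≤ vBound v := by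
  unfold vBound
  have : ‖v a‖ ≤ ∑ a : ZMod N, ‖v a‖ :=
    Finset.single_le_sum (f := fun a => ‖v a‖) (fun _ _ => norm_nonneg _) (Finset.mem_univ a)
  linarith

/-- The series `G_v` of weight `k`. -/
noncomputable def Gfun (v : ZMod N → ℂ) (k : ℕ) : ℍ → ℂ := wEis (vWeight v) k

/-- The normalised weight, of norm at most one. -/
noncomputable def vNorm [NeZero N] (v : ZMod N → ℂ) : ZMod N → ℂ :=
  fun a => ((vBound v : ℝ) : ℂ)⁻¹ * v a

theorem norm_vWeight_vNorm_le [NeZero N] (v : ZMod N → ℂ) (x : Fin 2 → ℤ) :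
    ‖vWeight (vNorm v) x‖ ≤ 1 := by
  unfold vWeight vNorm
  rw [norm_mul, norm_inv, Complex.norm_real, Real.norm_of_nonneg (vBound_pos v).le,
    inv_mul_le_iff₀ (vBound_pos v), mul_one]
  exact norm_le_vBound v _

theorem Gfun_eq_smul [NeZero N] (v : ZMod N → ℂ) (k : ℕ) :
    Gfun v k = ((vBound v : ℝ) : ℂ) • Gfun (vNorm v) k := by
  funext z
  have hne : ((vBound v : ℝ) : ℂ) ≠ 0 := by exact_mod_cast (vBound_pos v).ne'
  simp only [Gfun, wEis, Pi.smul_apply, smul_eq_mul, vWeight, vNorm]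
  rw [← tsum_mul_left]
  refine tsum_congr fun x => ?_
  rw [← mul_assoc, ← mul_assoc, mul_inv_cancel₀ hne, one_mul]

theorem summable_Gterm [NeZero N] (v : ZMod N → ℂ) {k : ℕ} (hk : 3 ≤ k) (z : ℍ) :
    Summable fun x : Fin 2 → ℤ => vWeight v x * eisSummand k x z := by
  have hk' : (3 : ℤ) ≤ (k : ℤ) := by exact_mod_cast hk
  have hne : ((vBound v : ℝ) : ℂ) ≠ 0 := by exact_mod_cast (vBound_pos v).ne'
  have h := (summable_term (norm_vWeight_vNorm_le v) hk' z).mul_left ((vBound v : ℝ) : ℂ)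
  refine h.congr fun x => ?_
  simp only [vWeight, vNorm]
  rw [← mul_assoc, ← mul_assoc, mul_inv_cancel₀ hne, one_mul]

theorem mdiff_Gfun [NeZero N] (v : ZMod N → ℂ) {k : ℕ} (hk : 3 ≤ k) : MDiff (Gfun v k) := by
  have hk' : (3 : ℤ) ≤ (k : ℤ) := by exact_mod_cast hk
  rw [Gfun_eq_smul]
  exact (wEis_mdifferentiable (norm_vWeight_vNorm_le v) hk').const_smul _

/-- **Transformation law under `Γ₀(N)`** (E3b). -/
theorem Gfun_slash (v : ZMod N → ℂ) (k : ℕ) (γ : SL(2, ℤ)) (hγ : γ ∈ Gamma0 N) :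
    Gfun v k ∣[(k : ℤ)] γ = Gfun (fun c => v (c * ((γ 1 1 : ℤ) : ZMod N))) k := by
  unfold Gfun
  rw [wEis_slash]
  congr 1
  funext x
  have hc : ((γ 1 0 : ℤ) : ZMod N) = 0 := Gamma0_mem.mp hγ
  simp only [vWeight]
  rw [Matrix.SpecialLinearGroup.coe_inv, Matrix.adjugate_fin_two]
  have h1 : (x ᵥ* !![(γ : Matrix (Fin 2) (Fin 2) ℤ) 1 1, -(γ : Matrix (Fin 2) (Fin 2) ℤ) 0 1;
      -(γ : Matrix (Fin 2) (Fin 2) ℤ) 1 0, (γ : Matrix (Fin 2) (Fin 2) ℤ) 0 0]) 0 =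
      x 0 * γ 1 1 - x 1 * γ 1 0 := by
    simp [Matrix.vecMul, dotProduct, Fin.sum_univ_two]
    ring
  rw [h1]
  push_cast
  rw [hc, mul_zero, sub_zero]

theorem Gfun_slash_Gamma1 (v : ZMod N → ℂ) (k : ℕ) (γ : SL(2, ℤ)) (hγ : γ ∈ Gamma1 N) :
    Gfun v k ∣[(k : ℤ)] γ = Gfun v k := by
  rw [Gfun_slash v k γ (Gamma1_in_Gamma0 N hγ)]
  have h11 : ((γ 1 1 : ℤ) : ZMod N) = 1 := (Gamma1_mem N γ).mp hγ |>.2.1
  simp [h11]

theorem isBoundedAtImInfty_Gfun_slash [NeZero N] (v : ZMod N → ℂ) {k : ℕ} (hk : 3 ≤ k)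
    (γ : SL(2, ℤ)) : IsBoundedAtImInfty (Gfun v k ∣[(k : ℤ)] γ) := by
  have hk' : (3 : ℤ) ≤ (k : ℤ) := by exact_mod_cast hk
  rw [Gfun_eq_smul, ModularForm.SL_smul_slash]
  exact (wEis_slash_isBoundedAtImInfty (norm_vWeight_vNorm_le v) hk' γ).const_smul_left _

/-! ### The `q`-expansion -/

/-- The twisted divisor sum `∑_{c e = n} (v(c) + (-1)^k v(-c)) e^(k-1)`. -/
noncomputable def sigmaV (v : ZMod N → ℂ) (k : ℕ) (n : ℕ) : ℂ :=
  ∑ x ∈ n.divisorsAntidiagonal,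
    (v ((x.1 : ℕ) : ZMod N) + (-1) ^ k * v (-((x.1 : ℕ) : ZMod N))) * (x.2 : ℂ) ^ (k - 1)

theorem sigmaV_zero (v : ZMod N → ℂ) (k : ℕ) : sigmaV v k 0 = 0 := by
  simp [sigmaV]

theorem summable_w_prod (w : ℕ → ℂ) {M : ℝ} (hw : ∀ n, ‖w n‖ ≤ M) (k : ℕ) {r : ℂ}
    (hr : ‖r‖ < 1) :
    Summable fun c : ℕ+ × ℕ+ => w (c.1 : ℕ) * ((c.2 : ℕ) : ℂ) ^ k * r ^ (c.1 * c.2 : ℕ) := by
  refine Summable.of_norm_bounded ((summable_prod_mul_pow (𝕜 := ℂ) k hr).norm.mul_left M)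
    fun c => ?_
  rw [mul_assoc, norm_mul]
  exact mul_le_mul_of_nonneg_right (hw _) (norm_nonneg _)

theorem tsum_w_prod (w : ℕ → ℂ) {M : ℝ} (hw : ∀ n, ‖w n‖ ≤ M) (k : ℕ) {r : ℂ} (hr : ‖r‖ < 1) :
    ∑' c : ℕ+, ∑' n : ℕ+, w (c : ℕ) * ((n : ℕ) : ℂ) ^ k * r ^ (c * n : ℕ) =
      ∑' e : ℕ+, (∑ x ∈ (e : ℕ).divisorsAntidiagonal, w x.1 * (x.2 : ℂ) ^ k) * r ^ (e : ℕ) := by
  have hs := summable_w_prod w hw k hr
  rw [← hs.tsum_prod (f := fun c : ℕ+ × ℕ+ => w (c.1 : ℕ) * ((c.2 : ℕ) : ℂ) ^ k *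
    r ^ (c.1 * c.2 : ℕ))]
  rw [← sigmaAntidiagonalEquivProd.tsum_eq]
  have hs' : Summable (fun c : (Σ n : ℕ+, (n : ℕ).divisorsAntidiagonal) =>
      w ((sigmaAntidiagonalEquivProd c).1 : ℕ) *
        (((sigmaAntidiagonalEquivProd c).2 : ℕ) : ℂ) ^ k *
        r ^ ((sigmaAntidiagonalEquivProd c).1 * (sigmaAntidiagonalEquivProd c).2 : ℕ)) :=
    (sigmaAntidiagonalEquivProd.summable_iff).mpr hs
  refine (Summable.tsum_sigma hs').trans ?_
  refine tsum_congr fun e => ?_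
  rw [tsum_fintype, Finset.sum_mul, Finset.univ_eq_attach]
  rw [← Finset.sum_attach (e : ℕ).divisorsAntidiagonal]
  refine Finset.sum_congr rfl fun x _ => ?_
  have hx := Nat.mem_divisorsAntidiagonal.mp x.2
  simp only [sigmaAntidiagonalEquivProd, divisorsAntidiagonalFactors,
    Equiv.coe_fn_mk, PNat.mk_coe]
  rw [hx.1]

/-- The `q`-expansion of `G_v` as a function of `z`. -/
theorem Gfun_eq [NeZero N] (v : ZMod N → ℂ) {k : ℕ} (hk : 3 ≤ k) (z : ℍ) :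
    Gfun v k z = v 0 * (∑' d : ℤ, ((d : ℂ) ^ k)⁻¹) + ((-2 * π * Complex.I) ^ k / (k - 1)!) *
      ∑' e : ℕ+, sigmaV v k e * cexp (2 * π * Complex.I * z) ^ (e : ℕ) := by
  have hsum : Summable fun x : ℤ × ℤ => v ((x.1 : ℤ) : ZMod N) * eisSummand k ![x.1, x.2] z := by
    refine (finTwoArrowEquiv ℤ).summable_iff.mp <|
      (summable_Gterm v hk z).congr (fun x ↦ ?_)
    simp [vWeight, show ![x 0, x 1] = x from List.ofFn_inj.mp rfl]
  have h1 : Gfun v k z =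
      ∑' x : ℤ × ℤ, v ((x.1 : ℤ) : ZMod N) * eisSummand k ![x.1, x.2] z := by
    unfold Gfun wEis
    rw [← (finTwoArrowEquiv ℤ).symm.tsum_eq]
    refine tsum_congr fun x => ?_
    simp [vWeight]
  rw [h1, Summable.tsum_prod hsum]
  set g : ℤ → ℂ := fun c => ∑' d : ℤ, v ((c : ℤ) : ZMod N) * eisSummand k ![c, d] z with hg
  have hgsum : Summable g := hsum.prod
  have hmain : ∑' c : ℤ, g c = g 0 + (∑' c : ℕ+, g (c : ℕ)) + ∑' c : ℕ+, g (-(c : ℕ)) :=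
    tsum_int_eq_zero_add_tsum_pnat hgsum
  show ∑' c : ℤ, g c = _
  rw [hmain]
  have h0 : g 0 = v 0 * (∑' d : ℤ, ((d : ℂ) ^ k)⁻¹) := by
    simp only [hg]
    rw [tsum_mul_left, Int.cast_zero]
    congr 1
    refine tsum_congr fun d => ?_
    simp [eisSummand]
  rw [h0, add_assoc]
  congr 1
  have hi1 : Function.Injective (fun c : ℕ+ => ((c : ℕ) : ℤ)) :=
    Nat.cast_injective.comp PNat.coe_injective
  have hi2 : Function.Injective (fun c : ℕ+ => -((c : ℕ) : ℤ)) := neg_injective.comp hi1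
  have hs1 : Summable fun c : ℕ+ => g (c : ℕ) := hgsum.comp_injective hi1
  have hs2 : Summable fun c : ℕ+ => g (-(c : ℕ)) := hgsum.comp_injective hi2
  rw [← hs1.tsum_add hs2]
  have H (b : ℕ+) := qExpansion_identity_pnat (k := k - 1) (by omega)
    ⟨b * z, by simpa using z.2⟩
  simp_rw [show k - 1 + 1 = k by omega, one_div] at H
  have hrow : ∀ c : ℕ+, (∑' d : ℤ, eisSummand k ![((c : ℕ) : ℤ), d] z) =
      ((-2 * π * Complex.I) ^ k / (k - 1)!) * ∑' n : ℕ+, ((n : ℕ) : ℂ) ^ (k - 1) *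
        cexp (2 * π * Complex.I * z) ^ (c * n : ℕ) := by
    intro c
    have h6 : (∑' d : ℤ, eisSummand k ![((c : ℕ) : ℤ), d] z) =
        ∑' d : ℤ, ((((c : ℕ) : ℂ) * (z : ℂ) + d) ^ (k : ℕ))⁻¹ := by
      refine tsum_congr fun d => ?_
      simp [eisSummand]
    rw [h6]
    have H' := H c
    rw [H']
    congr 1
    refine tsum_congr fun n => ?_
    have hE : cexp (2 * π * Complex.I * (((c : ℕ) : ℂ) * (z : ℂ))) ^ (n : ℕ) =
        cexp (2 * π * Complex.I * z) ^ (c * n : ℕ) := by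
      rw [← Complex.exp_nat_mul, ← Complex.exp_nat_mul]
      congr 1
      push_cast
      ring
    rw [hE]
  have hrowneg : ∀ c : ℕ+, (∑' d : ℤ, eisSummand k ![-((c : ℕ) : ℤ), d] z) =
      (-1) ^ k * ∑' d : ℤ, eisSummand k ![((c : ℕ) : ℤ), d] z := by
    intro c
    rw [← tsum_comp_neg, ← tsum_mul_left]
    refine tsum_congr fun d => ?_
    simp only [eisSummand, Matrix.cons_val_zero, Matrix.cons_val_one, Int.cast_neg]
    rw [show (-(((c : ℕ) : ℤ) : ℂ) * (z : ℂ) + -(d : ℂ)) =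
      (-1) * ((((c : ℕ) : ℤ) : ℂ) * z + d) by ring, mul_zpow]
    congr 1
    rw [_root_.zpow_neg, zpow_natCast, ← inv_pow]
    norm_num
  set w : ℕ → ℂ := fun c => v ((c : ℕ) : ZMod N) + (-1) ^ k * v (-((c : ℕ) : ZMod N)) with hw
  have h5 : ∀ c : ℕ+, g (c : ℕ) + g (-(c : ℕ)) =
      ((-2 * π * Complex.I) ^ k / (k - 1)!) * ∑' n : ℕ+, w (c : ℕ) * ((n : ℕ) : ℂ) ^ (k - 1) *
        cexp (2 * π * Complex.I * z) ^ (c * n : ℕ) := by
    intro c
    simp only [hg]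
    rw [tsum_mul_left, tsum_mul_left, hrowneg c, hrow c]
    have e1 : ∀ n : ℕ+, w (c : ℕ) * ((n : ℕ) : ℂ) ^ (k - 1) *
        cexp (2 * π * Complex.I * z) ^ (c * n : ℕ) = w (c : ℕ) * (((n : ℕ) : ℂ) ^ (k - 1) *
        cexp (2 * π * Complex.I * z) ^ (c * n : ℕ)) := fun n => mul_assoc _ _ _
    rw [tsum_congr e1, tsum_mul_left]
    simp only [hw]
    push_cast
    ring
  rw [tsum_congr h5, tsum_mul_left]
  congr 1
  have hr : ‖cexp (2 * π * Complex.I * z)‖ < 1 := norm_exp_two_pi_I_lt_one z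
  have hwb : ∀ n, ‖w n‖ ≤ 2 * vBound v := by
    intro n
    simp only [hw]
    refine (norm_add_le _ _).trans ?_
    rw [norm_mul, norm_pow, norm_neg, norm_one, one_pow, one_mul]
    have := norm_le_vBound v ((n : ℕ) : ZMod N)
    have := norm_le_vBound v (-((n : ℕ) : ZMod N))
    linarith
  rw [tsum_w_prod w hwb (k - 1) hr]
  rfl

theorem norm_sigmaV_le [NeZero N] (v : ZMod N → ℂ) {k : ℕ} (hk : 1 ≤ k) (n : ℕ) :
    ‖sigmaV v k n‖ ≤ 2 * vBound v * (n : ℝ) ^ k := by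
  unfold sigmaV
  refine (norm_sum_le _ _).trans ?_
  have h1 : ∀ x ∈ n.divisorsAntidiagonal,
      ‖(v ((x.1 : ℕ) : ZMod N) + (-1) ^ k * v (-((x.1 : ℕ) : ZMod N))) *
        ((x.2 : ℕ) : ℂ) ^ (k - 1)‖ ≤ 2 * vBound v * (n : ℝ) ^ (k - 1) := by
    intro x hx
    have hx' := Nat.mem_divisorsAntidiagonal.mp hx
    have hle : x.2 ≤ n := Nat.le_of_dvd (Nat.pos_of_ne_zero hx'.2) ⟨x.1, by rw [← hx'.1, mul_comm]⟩
    rw [norm_mul, norm_pow, Complex.norm_natCast]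
    have hb : ‖v ((x.1 : ℕ) : ZMod N) + (-1) ^ k * v (-((x.1 : ℕ) : ZMod N))‖ ≤ 2 * vBound v := by
      refine (norm_add_le _ _).trans ?_
      rw [norm_mul, norm_pow, norm_neg, norm_one, one_pow, one_mul]
      have := norm_le_vBound v ((x.1 : ℕ) : ZMod N)
      have := norm_le_vBound v (-((x.1 : ℕ) : ZMod N))
      linarith
    refine mul_le_mul hb ?_ (by positivity) (by have := vBound_pos v; positivity)
    exact pow_le_pow_left₀ (Nat.cast_nonneg _) (by exact_mod_cast hle) _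
  refine (Finset.sum_le_sum h1).trans ?_
  rw [Finset.sum_const, nsmul_eq_mul, ← Nat.map_div_right_divisors, Finset.card_map]
  have h2 : (n.divisors.card : ℝ) ≤ n := by exact_mod_cast Nat.card_divisors_le_self n
  have hpos := vBound_pos v
  calc (n.divisors.card : ℝ) * (2 * vBound v * (n : ℝ) ^ (k - 1))
      ≤ (n : ℝ) * (2 * vBound v * (n : ℝ) ^ (k - 1)) :=
        mul_le_mul_of_nonneg_right h2 (by positivity)
    _ = 2 * vBound v * ((n : ℝ) * (n : ℝ) ^ (k - 1)) := by ring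
    _ = 2 * vBound v * (n : ℝ) ^ k := by rw [← pow_succ', Nat.sub_add_cancel hk]

theorem summable_sigmaV [NeZero N] (v : ZMod N → ℂ) {k : ℕ} (hk : 1 ≤ k) {r : ℂ}
    (hr : ‖r‖ < 1) : Summable fun n : ℕ => sigmaV v k n * r ^ n := by
  refine Summable.of_norm_bounded
    ((summable_norm_pow_mul_geometric_of_norm_lt_one (R := ℂ) k hr).mul_left (2 * vBound v))
    fun n => ?_
  simp only [norm_mul, norm_pow, Complex.norm_natCast]
  rw [← mul_assoc]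
  exact mul_le_mul_of_nonneg_right (norm_sigmaV_le v hk n) (by positivity)

/-- The `q`-expansion coefficients of `G_v`. -/
noncomputable def coeffV (v : ZMod N → ℂ) (k : ℕ) (n : ℕ) : ℂ :=
  if n = 0 then v 0 * (∑' d : ℤ, ((d : ℂ) ^ k)⁻¹)
  else ((-2 * π * Complex.I) ^ k / (k - 1)!) * sigmaV v k n

/-- **The `q`-expansion of `G_v`.** -/
theorem hasSum_Gfun [NeZero N] (v : ZMod N → ℂ) {k : ℕ} (hk : 3 ≤ k) (z : ℍ) :
    HasSum (fun n : ℕ => coeffV v k n * Function.Periodic.qParam 1 z ^ n) (Gfun v k z) := by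
  have hq : Function.Periodic.qParam 1 (z : ℂ) = cexp (2 * π * Complex.I * z) := by
    simp [Function.Periodic.qParam]
  rw [hq]
  have hr : ‖cexp (2 * π * Complex.I * z)‖ < 1 := norm_exp_two_pi_I_lt_one z
  have hs := summable_sigmaV v (show 1 ≤ k by omega) hr
  have h1 := tsum_zero_pnat_eq_tsum_nat hs
  rw [sigmaV_zero, zero_mul, zero_add] at h1
  rw [Gfun_eq v hk z, h1]
  have hA : HasSum (fun n : ℕ => if n = 0 then v 0 * (∑' d : ℤ, ((d : ℂ) ^ k)⁻¹) else 0)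
      (v 0 * (∑' d : ℤ, ((d : ℂ) ^ k)⁻¹)) := hasSum_ite_eq 0 _
  have hB := (hs.hasSum).mul_left ((-2 * π * Complex.I) ^ k / (k - 1)!)
  refine (hA.add hB).congr_fun fun n => ?_
  by_cases hn : n = 0
  · subst hn
    simp [coeffV, sigmaV_zero]
  · simp [coeffV, hn, mul_assoc]

theorem Gfun_vadd_one [NeZero N] (v : ZMod N → ℂ) {k : ℕ} (hk : 3 ≤ k) (z : ℍ) :
    Gfun v k ((1 : ℝ) +ᵥ z) = Gfun v k z := by
  have h1 := hasSum_Gfun v hk ((1 : ℝ) +ᵥ z)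
  have h2 := hasSum_Gfun v hk z
  have hq : Function.Periodic.qParam 1 (((1 : ℝ) +ᵥ z : ℍ) : ℂ) =
      Function.Periodic.qParam 1 (z : ℂ) := by
    rw [UpperHalfPlane.coe_vadd]
    simp only [Function.Periodic.qParam, Complex.ofReal_one, div_one]
    rw [mul_add, Complex.exp_add, mul_one, Complex.exp_two_pi_mul_I, one_mul]
  rw [hq] at h1
  exact h1.unique h2

open Fermat.Agent.S23 in
theorem qan_Gfun [NeZero N] (v : ZMod N → ℂ) {k : ℕ} (hk : 3 ≤ k) : QAn (Gfun v k) where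
  per := EisChar.periodic_of_vadd_one (Gfun_vadd_one v hk)
  hol := mdiff_Gfun v hk
  bdd := by
    have := isBoundedAtImInfty_Gfun_slash v hk 1
    simpa using this

theorem qExpansion_Gfun_coeff [NeZero N] (v : ZMod N → ℂ) {k : ℕ} (hk : 3 ≤ k) (n : ℕ) :
    (qExpansion 1 (Gfun v k)).coeff n = coeffV v k n :=
  EisChar.coeff_eq_of_hasSum (qan_Gfun v hk).analytic (hasSum_Gfun v hk) n

/-- For odd `k` the sum `∑_{d ∈ ℤ} d^(-k)` vanishes. -/
theorem tsum_int_inv_pow_odd {k : ℕ} (hk : Odd k) : (∑' d : ℤ, ((d : ℂ) ^ k)⁻¹) = 0 := by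
  have h1 : (∑' d : ℤ, ((d : ℂ) ^ k)⁻¹) = -(∑' d : ℤ, ((d : ℂ) ^ k)⁻¹) := by
    conv_lhs => rw [← tsum_comp_neg]
    rw [← tsum_neg]
    refine tsum_congr fun d => ?_
    rw [Int.cast_neg, hk.neg_pow, neg_inv]
  have h2 : (2 : ℂ) * (∑' d : ℤ, ((d : ℂ) ^ k)⁻¹) = 0 := by linear_combination h1
  simpa using h2

/-- The `q`-expansion coefficients of `G_v` for odd weight, in divisor-sum form. -/
theorem qExpansion_Gfun_coeff_odd [NeZero N] (v : ZMod N → ℂ) {k : ℕ} (hk : 3 ≤ k) (hodd : Odd k)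
    (n : ℕ) :
    (qExpansion 1 (Gfun v k)).coeff n = ((-2 * π * Complex.I) ^ k / (k - 1)!) *
      ∑ r ∈ n.divisors, (r : ℂ) ^ (k - 1) *
        (v ((n / r : ℕ) : ZMod N) - v (-((n / r : ℕ) : ZMod N))) := by
  rw [qExpansion_Gfun_coeff v hk n]
  unfold coeffV
  by_cases hn : n = 0
  · subst hn
    simp [tsum_int_inv_pow_odd hodd]
  · rw [if_neg hn]
    congr 1
    unfold sigmaV
    rw [Nat.sum_divisorsAntidiagonal' (f := fun i j => (v ((i : ℕ) : ZMod N) +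
      (-1) ^ k * v (-((i : ℕ) : ZMod N))) * (j : ℂ) ^ (k - 1))]
    refine Finset.sum_congr rfl fun r _ => ?_
    rw [hodd.neg_one_pow]
    ring

/-! ### The modular form of weight `3` on `Γ₁(N)` -/

/-- **E3a**: `G_v` as a modular form of weight `3` on `Γ₁(N)`. -/
noncomputable def G [NeZero N] (v : ZMod N → ℂ) : ModularForm (Gamma1 N) 3 where
  toFun := Gfun v 3
  slash_action_eq' γ hγ := by
    obtain ⟨γ₀, hγ₀, rfl⟩ := hγ
    exact Gfun_slash_Gamma1 v 3 γ₀ hγ₀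
  holo' := mdiff_Gfun v le_rfl
  bdd_at_cusps' hc := by
    have hle : ((Gamma1 N : Subgroup SL(2, ℤ)) : Subgroup (GL (Fin 2) ℝ)) ≤ 𝒮ℒ := by
      rintro _ ⟨γ, -, rfl⟩
      exact ⟨γ, rfl⟩
    exact (OnePoint.isBoundedAt_iff_forall_SL2Z (hc.mono hle)).mpr fun γ _ =>
      isBoundedAtImInfty_Gfun_slash v le_rfl γ

theorem coe_G [NeZero N] (v : ZMod N → ℂ) : ⇑(G v) = Gfun v 3 := rfl

/-- **E3b**: the `Γ₀(N)`-action permutes the `G_v`. -/
theorem G_slash [NeZero N] (v : ZMod N → ℂ) (γ : SL(2, ℤ)) (hγ : γ ∈ Gamma0 N) :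
    ⇑(G v) ∣[(3 : ℤ)] γ = ⇑(G (fun c => v (c * ((γ 1 1 : ℤ) : ZMod N)))) := by
  rw [coe_G, coe_G]
  exact Gfun_slash v 3 γ hγ

/-- **E3c**: the `q`-expansion of `G_v`. -/
theorem qExpansion_G_coeff [NeZero N] (v : ZMod N → ℂ) (n : ℕ) :
    (qExpansion 1 (G v)).coeff n = ((-2 * π * Complex.I) ^ 3 / 2) *
      ∑ r ∈ n.divisors, (r : ℂ) ^ 2 *
        (v ((n / r : ℕ) : ZMod N) - v (-((n / r : ℕ) : ZMod N))) := by
  rw [coe_G, qExpansion_Gfun_coeff_odd v le_rfl (by decide) n]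
  norm_num [Nat.factorial]

end Fermat.Agent.DS.EisV
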