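/-
DS (S48, Deligne–Serre), layer L2: the group-theoretic bound of Deligne–Serre §7,
by Burnside's trace argument (no classification of subgroups of `GL₂(𝔽_ℓ)`).

Let `G ⊆ GL₂(K)` be a finite subgroup, `K` any field, such that every `G`-stable line has a
`G`-stable complement (`LineSemisimple`).  Let `H` be a subset such that at most `1/8` of the
elements of `G` lie outside `H`, and such that the pairs `(tr h, det h)`, `h ∈ G ∩ H`, lie in a
finite set `P`.  Then `|G| ≤ 2 |P|⁴ + 3 |P|`  (`card_le_of_few_charpolys`).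

* abelian case: two commuting elements with the same trace `t` and determinant satisfy
  `h' = h` or `h' = t - h`;
* non-abelian case: `G` contains a basis `1, g, h, k` of `M₂(K)`, and `x ↦ (tr (x bᵢ))ᵢ` is
  injective.
-/
import Mathlib

set_option autoImplicit false

namespace Fermat.Agent.DS.GroupBound

open Matrix

variable {K : Type*} [Field K]

/-- `G` stabilises the line spanned by `v`. -/
def StabLine (G : Subgroup (GL (Fin 2) K)) (v : Fin 2 → K) : Prop :=
  ∀ g ∈ G, ∃ c : K, (g : Matrix (Fin 2) (Fin 2) K) *ᵥ v = c • v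

/-- Semisimplicity of the tautological representation of `G ⊆ GL₂(K)`, in the only form
needed: every `G`-stable line has a `G`-stable complementary line. -/
def LineSemisimple (G : Subgroup (GL (Fin 2) K)) : Prop :=
  ∀ v : Fin 2 → K, v ≠ 0 → StabLine G v →
    ∃ w : Fin 2 → K, (¬ ∃ c : K, w = c • v) ∧ StabLine G w

/-! ### Linear algebra of `2 × 2` matrices -/

/-- Cayley–Hamilton for `2 × 2` matrices. -/
theorem mul_self_eq (A : Matrix (Fin 2) (Fin 2) K) :
    A * A = A.trace • A - A.det • (1 : Matrix (Fin 2) (Fin 2) K) := by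
  ext i j
  fin_cases i <;> fin_cases j <;>
    simp [Matrix.mul_apply, Fin.sum_univ_two, Matrix.trace_fin_two, Matrix.det_fin_two] <;> ring

/-- The kernel of a nonzero `2 × 2` matrix is at most a line. -/
theorem exists_smul_of_mulVec_eq_zero {X : Matrix (Fin 2) (Fin 2) K} (hX : X ≠ 0)
    {v w : Fin 2 → K} (hv : v ≠ 0) (hXv : X *ᵥ v = 0) (hXw : X *ᵥ w = 0) :
    ∃ μ : K, w = μ • v := by
  obtain ⟨i, hi⟩ : ∃ i, X i 0 ≠ 0 ∨ X i 1 ≠ 0 := by
    by_contra h
    simp only [not_exists, not_or, not_not] at h
    apply hX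
    ext i j
    fin_cases j
    · exact (h i).1
    · exact (h i).2
  have hv' : X i 0 * v 0 + X i 1 * v 1 = 0 := by
    have := congrFun hXv i
    simpa [Matrix.mulVec, dotProduct, Fin.sum_univ_two] using this
  have hw' : X i 0 * w 0 + X i 1 * w 1 = 0 := by
    have := congrFun hXw i
    simpa [Matrix.mulVec, dotProduct, Fin.sum_univ_two] using this
  rcases hi with hi | hi
  · have hv1 : v 1 ≠ 0 := by
      intro h1
      apply hv
      have h0 : v 0 = 0 := by
        rw [h1, mul_zero, add_zero] at hv'
        exact (mul_eq_zero.mp hv').resolve_left hi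
      ext k
      fin_cases k
      · exact h0
      · exact h1
    refine ⟨w 1 / v 1, ?_⟩
    have e1 : v 0 = - (X i 1 * v 1) / X i 0 := by
      field_simp
      linear_combination hv'
    have e2 : w 0 = - (X i 1 * w 1) / X i 0 := by
      field_simp
      linear_combination hw'
    ext k
    fin_cases k
    · show w 0 = w 1 / v 1 * v 0
      rw [e1, e2]
      field_simp
    · show w 1 = w 1 / v 1 * v 1
      field_simp
  · have hv0 : v 0 ≠ 0 := by
      intro h0
      apply hv
      have h1 : v 1 = 0 := by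
        rw [h0, mul_zero, zero_add] at hv'
        exact (mul_eq_zero.mp hv').resolve_left hi
      ext k
      fin_cases k
      · exact h0
      · exact h1
    refine ⟨w 0 / v 0, ?_⟩
    have e1 : v 1 = - (X i 0 * v 0) / X i 1 := by
      field_simp
      linear_combination hv'
    have e2 : w 1 = - (X i 0 * w 0) / X i 1 := by
      field_simp
      linear_combination hw'
    ext k
    fin_cases k
    · show w 0 = w 0 / v 0 * v 0
      field_simp
    · show w 1 = w 0 / v 0 * v 1
      rw [e1, e2]
      field_simp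

/-- A `2 × 2` matrix killing two non-proportional vectors vanishes. -/
theorem eq_zero_of_mulVec_eq_zero {X : Matrix (Fin 2) (Fin 2) K} {v w : Fin 2 → K}
    (hv : v ≠ 0) (hvw : ¬ ∃ c : K, w = c • v) (hXv : X *ᵥ v = 0) (hXw : X *ᵥ w = 0) :
    X = 0 := by
  by_contra hX
  exact hvw (exists_smul_of_mulVec_eq_zero hX hv hXv hXw)

/-- The trace in an eigenbasis. -/
theorem trace_eq_of_eigen {A : Matrix (Fin 2) (Fin 2) K} {v w : Fin 2 → K} {a a' : K}
    (hv : v ≠ 0) (hvw : ¬ ∃ c : K, w = c • v) (hAv : A *ᵥ v = a • v) (hAw : A *ᵥ w = a' • w) :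
    A.trace = a + a' := by
  have hD : v 0 * w 1 - v 1 * w 0 ≠ 0 := by
    intro hD
    apply hvw
    by_cases h0 : v 0 = 0
    · have h1 : v 1 ≠ 0 := by
        intro h1
        apply hv
        ext k
        fin_cases k
        · exact h0
        · exact h1
      refine ⟨w 1 / v 1, ?_⟩
      have hw0 : w 0 = 0 := by
        rw [h0, zero_mul, zero_sub, neg_eq_zero] at hD
        exact (mul_eq_zero.mp hD).resolve_left h1
      ext k
      fin_cases k
      · show w 0 = w 1 / v 1 * v 0
        rw [hw0, h0, mul_zero]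
      · show w 1 = w 1 / v 1 * v 1
        field_simp
    · refine ⟨w 0 / v 0, ?_⟩
      ext k
      fin_cases k
      · show w 0 = w 0 / v 0 * v 0
        field_simp
      · show w 1 = w 0 / v 0 * v 1
        field_simp
        linear_combination hD
  have e1 : A 0 0 * v 0 + A 0 1 * v 1 = a * v 0 := by
    have := congrFun hAv 0
    simpa [Matrix.mulVec, dotProduct, Fin.sum_univ_two] using this
  have e2 : A 1 0 * v 0 + A 1 1 * v 1 = a * v 1 := by
    have := congrFun hAv 1
    simpa [Matrix.mulVec, dotProduct, Fin.sum_univ_two] using this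
  have e3 : A 0 0 * w 0 + A 0 1 * w 1 = a' * w 0 := by
    have := congrFun hAw 0
    simpa [Matrix.mulVec, dotProduct, Fin.sum_univ_two] using this
  have e4 : A 1 0 * w 0 + A 1 1 * w 1 = a' * w 1 := by
    have := congrFun hAw 1
    simpa [Matrix.mulVec, dotProduct, Fin.sum_univ_two] using this
  rw [Matrix.trace_fin_two]
  have key : (A 0 0 + A 1 1 - (a + a')) * (v 0 * w 1 - v 1 * w 0) = 0 := by
    linear_combination w 1 * e1 - v 1 * e3 + v 0 * e4 - w 0 * e2
  have := (mul_eq_zero.mp key).resolve_right hD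
  linear_combination this

/-- Non-commuting matrices together with `1` are linearly independent (coefficient form). -/
theorem coeff_eq_zero_of_not_commute {A B : Matrix (Fin 2) (Fin 2) K} (hAB : A * B ≠ B * A)
    {α β γ : K} (h : α • (1 : Matrix (Fin 2) (Fin 2) K) + β • A + γ • B = 0) :
    α = 0 ∧ β = 0 ∧ γ = 0 := by
  have hγ : γ = 0 := by
    by_contra hγ
    apply hAB
    have hB : B = (-(α / γ)) • (1 : Matrix (Fin 2) (Fin 2) K) + (-(β / γ)) • A := by
      have h2 : γ • B = -(α • (1 : Matrix (Fin 2) (Fin 2) K) + β • A) := by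
        rw [eq_neg_iff_add_eq_zero, add_comm]; exact h
      have h3 : B = γ⁻¹ • (γ • B) := by rw [smul_smul, inv_mul_cancel₀ hγ, one_smul]
      rw [h3, h2]
      simp only [smul_neg, smul_add, smul_smul, neg_smul]
      rw [neg_add]
      congr 2 <;> field_simp
    rw [hB]
    simp [Matrix.mul_add, Matrix.add_mul]
  have hβ : β = 0 := by
    by_contra hβ
    apply hAB
    have hA : A = (-(α / β)) • (1 : Matrix (Fin 2) (Fin 2) K) := by
      rw [hγ, zero_smul, add_zero] at h
      have h2 : β • A = -(α • (1 : Matrix (Fin 2) (Fin 2) K)) := by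
        rw [eq_neg_iff_add_eq_zero, add_comm]; exact h
      have h3 : A = β⁻¹ • (β • A) := by rw [smul_smul, inv_mul_cancel₀ hβ, one_smul]
      rw [h3, h2]
      simp only [smul_neg, smul_smul, neg_smul]
      congr 2; field_simp
    rw [hA]
    simp
  refine ⟨?_, hβ, hγ⟩
  rw [hγ, hβ, zero_smul, zero_smul, add_zero, add_zero] at h
  by_contra hα
  have : (1 : Matrix (Fin 2) (Fin 2) K) = 0 := by
    have h3 : (1 : Matrix (Fin 2) (Fin 2) K) = α⁻¹ • (α • (1 : Matrix (Fin 2) (Fin 2) K)) := by
      rw [smul_smul, inv_mul_cancel₀ hα, one_smul]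
    rw [h3, h, smul_zero]
  exact one_ne_zero this


/-! ### Subgroups of `GL₂(K)` -/

section group

variable {G : Subgroup (GL (Fin 2) K)}

local notation "M2" => Matrix (Fin 2) (Fin 2) K

/-- A line-semisimple group with a stable line is commutative. -/
theorem commute_of_stabLine (hss : LineSemisimple G) {v : Fin 2 → K} (hv : v ≠ 0)
    (hG : StabLine G v) : ∀ g ∈ G, ∀ h ∈ G, g * h = h * g := by
  obtain ⟨w, hvw, hGw⟩ := hss v hv hG
  intro g hg h hh
  obtain ⟨c, hc⟩ := hG g hg
  obtain ⟨c', hc'⟩ := hGw g hg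
  obtain ⟨e, he⟩ := hG h hh
  obtain ⟨e', he'⟩ := hGw h hh
  have key : ((g : M2) * (h : M2) - (h : M2) * (g : M2)) = 0 := by
    apply eq_zero_of_mulVec_eq_zero hv hvw
    · rw [Matrix.sub_mulVec, ← Matrix.mulVec_mulVec, ← Matrix.mulVec_mulVec, he, hc,
        Matrix.mulVec_smul, Matrix.mulVec_smul, hc, he, smul_smul, smul_smul, mul_comm e c,
        sub_self]
    · rw [Matrix.sub_mulVec, ← Matrix.mulVec_mulVec, ← Matrix.mulVec_mulVec, he', hc',
        Matrix.mulVec_smul, Matrix.mulVec_smul, hc', he', smul_smul, smul_smul, mul_comm e' c',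
        sub_self]
  apply Units.ext
  rw [Units.val_mul, Units.val_mul]
  exact sub_eq_zero.mp key

/-- A nonzero matrix has a nonzero column. -/
theorem exists_col_ne_zero {Y : M2} (hY : Y ≠ 0) : ∃ j : Fin 2, Y *ᵥ (Pi.single j 1) ≠ 0 := by
  by_contra hcon
  simp only [not_exists, not_not] at hcon
  apply hY
  ext i j
  have := congrFun (hcon j) i
  simpa using this

/-- **Abelian case.** In a commutative line-semisimple subgroup, two elements with the same
trace and determinant are equal or conjugate under `x ↦ t - x`. -/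
theorem eq_or_eq_of_commute (hss : LineSemisimple G)
    (hcomm : ∀ g ∈ G, ∀ h ∈ G, g * h = h * g)
    {g h : GL (Fin 2) K} (hg : g ∈ G) (hh : h ∈ G)
    (htr : (h : M2).trace = (g : M2).trace) (hdet : (h : M2).det = (g : M2).det) :
    (h : M2) = (g : M2) ∨ (h : M2) = (g : M2).trace • (1 : M2) - (g : M2) := by
  by_cases hX : (h : M2) - (g : M2) = 0
  · left; exact sub_eq_zero.mp hX
  by_cases hY : (h : M2) + (g : M2) - (g : M2).trace • (1 : M2) = 0
  · right
    rw [sub_eq_zero] at hY
    rw [eq_sub_iff_add_eq]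
    exact hY
  exfalso
  have hAB : (g : M2) * (h : M2) = (h : M2) * (g : M2) := by
    have := congrArg (fun u : GL (Fin 2) K => (u : M2)) (hcomm g hg h hh)
    simpa using this
  -- `X * Y = 0`
  have hXY : ((h : M2) - (g : M2)) * ((h : M2) + (g : M2) - (g : M2).trace • (1 : M2)) = 0 := by
    have h1 := mul_self_eq (g : M2)
    have h2 := mul_self_eq (h : M2)
    rw [htr, hdet] at h2
    have e : ((h : M2) - (g : M2)) * ((h : M2) + (g : M2) - (g : M2).trace • (1 : M2)) =
        (h : M2) * (h : M2) + (h : M2) * (g : M2) - (g : M2).trace • (h : M2)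
          - (g : M2) * (h : M2) - (g : M2) * (g : M2) + (g : M2).trace • (g : M2) := by
      simp only [Matrix.sub_mul, Matrix.mul_sub, Matrix.mul_add, Matrix.mul_smul, Matrix.mul_one]
      module
    rw [e, h1, h2, hAB]
    module
  -- a nonzero vector in the kernel of `X = h - g`
  obtain ⟨j, hj⟩ := exists_col_ne_zero hY
  set v := ((h : M2) + (g : M2) - (g : M2).trace • (1 : M2)) *ᵥ (Pi.single j 1) with hv
  have hXv : ((h : M2) - (g : M2)) *ᵥ v = 0 := by
    rw [hv, Matrix.mulVec_mulVec, hXY, Matrix.zero_mulVec]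
  -- it spans a stable line
  have hstab : StabLine G v := by
    intro k hk
    have hkA : (k : M2) * (g : M2) = (g : M2) * (k : M2) := by
      have := congrArg (fun u : GL (Fin 2) K => (u : M2)) (hcomm k hk g hg)
      simpa using this
    have hkB : (k : M2) * (h : M2) = (h : M2) * (k : M2) := by
      have := congrArg (fun u : GL (Fin 2) K => (u : M2)) (hcomm k hk h hh)
      simpa using this
    have : ((h : M2) - (g : M2)) *ᵥ ((k : M2) *ᵥ v) = 0 := by
      rw [Matrix.mulVec_mulVec, Matrix.sub_mul, ← hkA, ← hkB, ← Matrix.mul_sub,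
        ← Matrix.mulVec_mulVec, hXv, Matrix.mulVec_zero]
    exact exists_smul_of_mulVec_eq_zero hX hj hXv this
  obtain ⟨w, hvw, hGw⟩ := hss v hj hstab
  obtain ⟨a, ha⟩ := hstab g hg
  obtain ⟨a', ha'⟩ := hGw g hg
  obtain ⟨b, hb⟩ := hstab h hh
  obtain ⟨b', hb'⟩ := hGw h hh
  have tA : (g : M2).trace = a + a' := trace_eq_of_eigen hj hvw ha ha'
  have tB : (h : M2).trace = b + b' := trace_eq_of_eigen hj hvw hb hb'
  have hba : b = a := by
    have : (b - a) • v = 0 := by
      rw [sub_smul, ← hb, ← ha, ← Matrix.sub_mulVec]; exact hXv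
    rcases smul_eq_zero.mp this with h0 | h0
    · exact sub_eq_zero.mp h0
    · exact absurd h0 hj
  have hb'a' : b' = a' := by
    have : b + b' = a + a' := by rw [← tA, ← tB]; exact htr
    rw [hba] at this; exact add_left_cancel this
  apply hX
  apply eq_zero_of_mulVec_eq_zero hj hvw hXv
  rw [Matrix.sub_mulVec, hb', ha', hb'a', sub_self]

/-- **Non-abelian case.** A non-commutative line-semisimple subgroup contains `k` such that
`1, g, h, k` are linearly independent, for any non-commuting `g, h ∈ G`. -/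
theorem exists_indep_of_not_commute (hss : LineSemisimple G) {g h : GL (Fin 2) K}
    (hg : g ∈ G) (hh : h ∈ G) (hgh : g * h ≠ h * g) :
    ∃ k ∈ G, ∀ α β γ δ : K,
      α • (1 : M2) + β • (g : M2) + γ • (h : M2) + δ • (k : M2) = 0 →
        α = 0 ∧ β = 0 ∧ γ = 0 ∧ δ = 0 := by
  have hAB : (g : M2) * (h : M2) ≠ (h : M2) * (g : M2) := by
    intro hc
    apply hgh
    apply Units.ext
    rw [Units.val_mul, Units.val_mul]
    exact hc
  by_contra hcon
  -- every element of `G` lies in the span of `1, g, h`
  have hspan : ∀ k ∈ G, ∃ α β γ : K, (k : M2) = α • (1 : M2) + β • (g : M2) + γ • (h : M2) := by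
    intro k hk
    by_contra hk'
    apply hcon
    refine ⟨k, hk, ?_⟩
    intro α β γ δ hrel
    have hδ : δ = 0 := by
      by_contra hδ
      apply hk'
      refine ⟨-(α / δ), -(β / δ), -(γ / δ), ?_⟩
      have h2 : δ • (k : M2) = -(α • (1 : M2) + β • (g : M2) + γ • (h : M2)) := by
        rw [eq_neg_iff_add_eq_zero, add_comm]; exact hrel
      have h3 : (k : M2) = δ⁻¹ • (δ • (k : M2)) := by
        rw [smul_smul, inv_mul_cancel₀ hδ, one_smul]
      rw [h3, h2]
      simp only [smul_neg, smul_add, smul_smul, neg_smul, neg_add]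
      congr 3 <;> field_simp
    rw [hδ, zero_smul, add_zero] at hrel
    obtain ⟨h1, h2, h3⟩ := coeff_eq_zero_of_not_commute hAB hrel
    exact ⟨h1, h2, h3, hδ⟩
  -- in particular `g * h`
  obtain ⟨a, b, c, habc⟩ := hspan (g * h) (G.mul_mem hg hh)
  rw [Units.val_mul] at habc
  have hprod : ((g : M2) - c • (1 : M2)) * ((h : M2) - b • (1 : M2)) =
      (a + b * c) • (1 : M2) := by
    simp only [Matrix.sub_mul, Matrix.mul_sub, Matrix.mul_smul, Matrix.smul_mul, Matrix.mul_one,
      Matrix.one_mul]
    rw [habc]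
    module
  have he : a + b * c = 0 := by
    by_contra he
    apply hAB
    have h1 : ((g : M2) - c • (1 : M2)) * ((a + b * c)⁻¹ • ((h : M2) - b • (1 : M2))) = 1 := by
      rw [Matrix.mul_smul, hprod, smul_smul, inv_mul_cancel₀ he, one_smul]
    have h2 := mul_eq_one_comm.mp h1
    have h3 : ((h : M2) - b • (1 : M2)) * ((g : M2) - c • (1 : M2)) = (a + b * c) • (1 : M2) := by
      rw [Matrix.smul_mul] at h2
      have := congrArg (fun M : M2 => (a + b * c) • M) h2
      simp only [smul_smul, mul_inv_cancel₀ he, one_smul] at this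
      exact this
    have h4 := hprod.trans h3.symm
    simp only [Matrix.sub_mul, Matrix.mul_sub, Matrix.mul_smul, Matrix.smul_mul, Matrix.mul_one,
      Matrix.one_mul] at h4
    have h5 : (g : M2) * (h : M2) - (h : M2) * (g : M2) = 0 := by
      have h6 := sub_eq_zero.mpr h4
      rw [← h6]
      module
    exact sub_eq_zero.mp h5
  rw [he, zero_smul] at hprod
  have hX : (g : M2) - c • (1 : M2) ≠ 0 := by
    intro hX
    apply hAB
    rw [sub_eq_zero.mp hX]
    simp
  have hY : (h : M2) - b • (1 : M2) ≠ 0 := by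
    intro hY
    apply hAB
    rw [sub_eq_zero.mp hY]
    simp
  obtain ⟨j, hj⟩ := exists_col_ne_zero hY
  set v := ((h : M2) - b • (1 : M2)) *ᵥ (Pi.single j 1) with hv
  have hXv : ((g : M2) - c • (1 : M2)) *ᵥ v = 0 := by
    rw [hv, Matrix.mulVec_mulVec, hprod, Matrix.zero_mulVec]
  have hXYv : ((g : M2) - c • (1 : M2)) *ᵥ (((h : M2) - b • (1 : M2)) *ᵥ v) = 0 := by
    rw [Matrix.mulVec_mulVec, hprod, Matrix.zero_mulVec]
  obtain ⟨μ, hμ⟩ := exists_smul_of_mulVec_eq_zero hX hj hXv hXYv
  have hAv : (g : M2) *ᵥ v = c • v := by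
    have := hXv
    rw [Matrix.sub_mulVec, Matrix.smul_mulVec, Matrix.one_mulVec, sub_eq_zero] at this
    exact this
  have hBv : (h : M2) *ᵥ v = (μ + b) • v := by
    rw [Matrix.sub_mulVec, Matrix.smul_mulVec, Matrix.one_mulVec, sub_eq_iff_eq_add] at hμ
    rw [hμ, add_smul]
  have hstab : StabLine G v := by
    intro k hk
    obtain ⟨α, β, γ, hk'⟩ := hspan k hk
    refine ⟨α + β * c + γ * (μ + b), ?_⟩
    rw [hk', Matrix.add_mulVec, Matrix.add_mulVec, Matrix.smul_mulVec, Matrix.smul_mulVec,
      Matrix.smul_mulVec, Matrix.one_mulVec, hAv, hBv]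
    module
  exact hgh (commute_of_stabLine hss hj hstab g hg h hh)

end group


/-! ### Counting -/

section counting

local notation "M2" => Matrix (Fin 2) (Fin 2) K

/-- The trace form separates points: a matrix is determined by its traces against a basis. -/
theorem eq_of_trace_mul_eq {b : Fin 4 → M2} (hb : LinearIndependent K b) {X Y : M2}
    (h : ∀ i, (X * b i).trace = (Y * b i).trace) : X = Y := by
  have hspan : Submodule.span K (Set.range b) = ⊤ := by
    apply hb.span_eq_top_of_card_eq_finrank'
    simp [Module.finrank_matrix]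
  have hlin : (Matrix.traceLinearMap (Fin 2) K K).comp (LinearMap.mulLeft K (X - Y)) = 0 := by
    apply LinearMap.ext_on hspan
    rintro _ ⟨i, rfl⟩
    simp [Matrix.sub_mul, h i]
  have hXY : X - Y = 0 := by
    ext i j
    have := LinearMap.congr_fun hlin
      (Matrix.of (fun a b : Fin 2 => if a = j ∧ b = i then (1 : K) else 0))
    simp only [LinearMap.coe_comp, Function.comp_apply, LinearMap.mulLeft_apply,
      Matrix.traceLinearMap_apply, LinearMap.zero_apply] at this
    rw [Matrix.trace_fin_two] at this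
    simp only [Matrix.mul_apply, Fin.sum_univ_two, Matrix.of_apply] at this
    fin_cases i <;> fin_cases j <;> simpa using this
  exact sub_eq_zero.mp hXY

/-- **Deligne–Serre §7, by Burnside's trace argument.**  Let `G ⊆ GL₂(K)` be a finite
line-semisimple subgroup, `H` a subset such that at most `1/8` of `G` lies outside `H`, and
`P` a finite set containing all pairs `(tr h, det h)`, `h ∈ G ∩ H`.
Then `|G| ≤ 2 |P|⁴ + 3 |P|`. -/
theorem card_le_of_few_charpolys (G : Subgroup (GL (Fin 2) K)) [Finite G]
    (hss : LineSemisimple G) (H : Set (GL (Fin 2) K)) (P : Finset (K × K))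
    (hHP : ∀ h ∈ G, h ∈ H → ((h : M2).trace, (h : M2).det) ∈ P)
    (hdens : 8 * ((G : Set (GL (Fin 2) K)) \ H).ncard ≤ Nat.card G) :
    Nat.card G ≤ 2 * P.card ^ 4 + 3 * P.card := by
  classical
  have hfin : (G : Set (GL (Fin 2) K)).Finite := Set.toFinite _
  set 𝒢 : Finset (GL (Fin 2) K) := hfin.toFinset with h𝒢
  have hmem : ∀ x, x ∈ 𝒢 ↔ x ∈ G := fun x => by simp [h𝒢]
  have hcardG : Nat.card G = 𝒢.card := by
    rw [← Set.ncard_coe_finset 𝒢, h𝒢, Set.Finite.coe_toFinset]
    exact Nat.card_coe_set_eq _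
  set 𝒩 : Finset (GL (Fin 2) K) := 𝒢.filter (fun x => x ∉ H) with h𝒩
  have hcardN : ((G : Set (GL (Fin 2) K)) \ H).ncard = 𝒩.card := by
    rw [← Set.ncard_coe_finset 𝒩]
    congr 1
    ext x
    simp [h𝒩, hmem]
  rw [hcardG, hcardN] at hdens
  rw [hcardG]
  by_cases hcomm : ∀ g ∈ G, ∀ h ∈ G, g * h = h * g
  · -- the abelian case
    set 𝒮 := 𝒢.filter (fun x => x ∈ H) with h𝒮
    have hsplit : 𝒮.card + 𝒩.card = 𝒢.card := by
      rw [h𝒮, h𝒩]
      exact Finset.card_filter_add_card_filter_not (fun x => x ∈ H)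
    let f : GL (Fin 2) K → K × K := fun x => ((x : M2).trace, (x : M2).det)
    have hS : 𝒮.card ≤ 2 * (𝒮.image f).card := by
      apply Finset.card_le_mul_card_image
      intro a ha
      obtain ⟨g, hgS, rfl⟩ := Finset.mem_image.mp ha
      have hgG : g ∈ G := by
        rw [h𝒮, Finset.mem_filter] at hgS
        exact (hmem g).mp hgS.1
      have hsub : ((𝒮.filter (fun x => f x = f g)).image
          (fun x : GL (Fin 2) K => (x : M2))) ⊆
          {(g : M2), (g : M2).trace • (1 : M2) - (g : M2)} := by
        intro y hy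
        obtain ⟨x, hx, rfl⟩ := Finset.mem_image.mp hy
        rw [Finset.mem_filter] at hx
        obtain ⟨hxS, hfx⟩ := hx
        have hxG : x ∈ G := by
          rw [h𝒮, Finset.mem_filter] at hxS
          exact (hmem x).mp hxS.1
        have htr : (x : M2).trace = (g : M2).trace := congrArg Prod.fst hfx
        have hdet : (x : M2).det = (g : M2).det := congrArg Prod.snd hfx
        rcases eq_or_eq_of_commute hss hcomm hgG hxG htr hdet with h1 | h1
        · rw [h1]; exact Finset.mem_insert_self _ _
        · rw [h1]; exact Finset.mem_insert_of_mem (Finset.mem_singleton_self _)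
      calc (𝒮.filter (fun x => f x = f g)).card
          = ((𝒮.filter (fun x => f x = f g)).image
              (fun x : GL (Fin 2) K => (x : M2))).card :=
            (Finset.card_image_of_injective _ Units.val_injective).symm
        _ ≤ ({(g : M2), (g : M2).trace • (1 : M2) - (g : M2)} : Finset M2).card :=
            Finset.card_le_card hsub
        _ ≤ 2 := Finset.card_le_two
    have hS2 : (𝒮.image f).card ≤ P.card := by
      apply Finset.card_le_card
      intro a ha
      obtain ⟨g, hgS, rfl⟩ := Finset.mem_image.mp ha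
      rw [h𝒮, Finset.mem_filter] at hgS
      exact hHP g ((hmem g).mp hgS.1) hgS.2
    have hpow : 0 ≤ P.card ^ 4 := Nat.zero_le _
    generalize P.card ^ 4 = q at *
    omega
  · -- the non-abelian case
    simp only [not_forall] at hcomm
    obtain ⟨g, hg, h, hh, hgh⟩ := hcomm
    obtain ⟨k, hk, hind⟩ := exists_indep_of_not_commute hss hg hh hgh
    let bG : Fin 4 → GL (Fin 2) K := ![1, g, h, k]
    have hbG : ∀ i, bG i ∈ G := by
      intro i
      fin_cases i
      · exact G.one_mem
      · exact hg
      · exact hh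
      · exact hk
    have hli : LinearIndependent K (fun i => ((bG i : GL (Fin 2) K) : M2)) := by
      rw [Fintype.linearIndependent_iff]
      intro c hc
      rw [Fin.sum_univ_four] at hc
      have h4 := hind (c 0) (c 1) (c 2) (c 3) (by simpa [bG] using hc)
      intro i
      fin_cases i
      · exact h4.1
      · exact h4.2.1
      · exact h4.2.2.1
      · exact h4.2.2.2
    set 𝒢₀ := 𝒢.filter (fun x => ∀ i, x * bG i ∈ H) with h𝒢₀
    set T := P.image Prod.fst with hT
    have h0 : 𝒢₀.card ≤ P.card ^ 4 := by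
      have hTcard : T.card ≤ P.card := Finset.card_image_le
      have h1 : 𝒢₀.card ≤ (Fintype.piFinset (fun _ : Fin 4 => T)).card := by
        apply Finset.card_le_card_of_injOn
          (fun (x : GL (Fin 2) K) (i : Fin 4) =>
            ((x : M2) * ((bG i : GL (Fin 2) K) : M2)).trace)
        · intro x hx
          rw [Finset.mem_coe, h𝒢₀, Finset.mem_filter] at hx
          rw [Finset.mem_coe, Fintype.mem_piFinset]
          intro i
          rw [hT, Finset.mem_image]
          refine ⟨_, hHP (x * bG i) (G.mul_mem ((hmem x).mp hx.1) (hbG i)) (hx.2 i), ?_⟩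
          simp
        · intro x _ y _ hxy
          apply Units.ext
          apply eq_of_trace_mul_eq hli
          intro i
          exact congrFun hxy i
      calc 𝒢₀.card ≤ (Fintype.piFinset (fun _ : Fin 4 => T)).card := h1
        _ = T.card ^ 4 := by simp [Fintype.card_piFinset]
        _ ≤ P.card ^ 4 := Nat.pow_le_pow_left hTcard 4
    have h1 : (𝒢 \ 𝒢₀).card ≤ 4 * 𝒩.card := by
      have hsub : 𝒢 \ 𝒢₀ ⊆
          Finset.univ.biUnion (fun i : Fin 4 => 𝒩.image (fun y => y * (bG i)⁻¹)) := by
        intro x hx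
        rw [Finset.mem_sdiff, h𝒢₀, Finset.mem_filter] at hx
        obtain ⟨hxG, hx2⟩ := hx
        have hex : ∃ i, x * bG i ∉ H := by
          by_contra hc
          simp only [not_exists, not_not] at hc
          exact hx2 ⟨hxG, hc⟩
        obtain ⟨i, hi⟩ := hex
        rw [Finset.mem_biUnion]
        refine ⟨i, Finset.mem_univ _, ?_⟩
        rw [Finset.mem_image]
        refine ⟨x * bG i, ?_, by group⟩
        rw [h𝒩, Finset.mem_filter]
        exact ⟨(hmem _).mpr (G.mul_mem ((hmem x).mp hxG) (hbG i)), hi⟩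
      calc (𝒢 \ 𝒢₀).card
          ≤ (Finset.univ.biUnion (fun i : Fin 4 => 𝒩.image (fun y => y * (bG i)⁻¹))).card :=
            Finset.card_le_card hsub
        _ ≤ ∑ i : Fin 4, (𝒩.image (fun y => y * (bG i)⁻¹)).card := Finset.card_biUnion_le
        _ ≤ ∑ _i : Fin 4, 𝒩.card := Finset.sum_le_sum (fun i _ => Finset.card_image_le)
        _ = 4 * 𝒩.card := by simp
    have h2 : (𝒢 \ 𝒢₀).card + 𝒢₀.card = 𝒢.card :=
      Finset.card_sdiff_add_card_eq_card (Finset.filter_subset _ _)
    generalize P.card ^ 4 = q at *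
    omega

end counting

end Fermat.Agent.DS.GroupBound
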