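import Mathlib
import Fermat.Prelude.Def_GaloisRep_Residual
import Fermat.Agent.DS.GroupBound
import Fermat.Agent.DS.ChebHom

/-!
# DS glue: the uniform bound for the images of the residual representations

`card_range_le`: a line-semisimple `r : Gal(ℚ̄/ℚ) →* GL₂(k)` of finite level whose Frobenius
traces/determinants are the reductions of `(a p, e p)`, where the pairs `(a p, e p)` lie in a
finite set `P` off a set of primes of upper density `≤ 1/16`, has image of order at most
`2 (2|P|)⁴ + 3 (2|P|)`.  (Symmetric Chebotarev + the Burnside-type bound of `GroupBound`.)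
-/

set_option autoImplicit false

namespace Fermat.Agent.DS.GlueBound

open Fermat.Agent.DS

local notation "Qbar" => AlgebraicClosure ℚ
local notation "Γℚ" => (AlgebraicClosure ℚ ≃ₐ[ℚ] AlgebraicClosure ℚ)
local notation "Zbar" => integralClosure ℤ ℂ

/-- A homomorphism of finite level has finite image. -/
theorem finite_range {M : Type} [Group M] (ρ : Γℚ →* M)
    (hρ : GaloisFactorsThroughFiniteLevel ρ) : Finite ρ.range := by
  obtain ⟨K, hKf, hKg, ψ, hψ, hsurj⟩ := ChebHom.exists_factor_galois ρ hρ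
  have hfin : Finite (K ≃ₐ[ℚ] K) := inferInstance
  have hsub : (ρ.range : Set M) ⊆ Set.range ψ := by
    rintro m ⟨σ, rfl⟩
    exact ⟨_, hψ σ⟩
  exact ((Set.finite_range ψ).subset hsub).to_subtype

/-- If `x * log (1/(s-1)) ≤ C` for all `s` close to `1`, then `x ≤ 0`. -/
theorem nonpos_of_mul_log_le (x C δ : ℝ) (hδ : 0 < δ)
    (h : ∀ s : ℝ, 1 < s → s < 1 + δ → s ≤ 2 → x * Real.log (1 / (s - 1)) ≤ C) : x ≤ 0 := by
  by_contra hx
  push_neg at hx
  set u : ℝ := min (δ / 2) (min 1 (Real.exp (-(C / x + 1)))) with hu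
  have hu0 : 0 < u := lt_min (by linarith) (lt_min one_pos (Real.exp_pos _))
  have hu1 : u ≤ δ / 2 := min_le_left _ _
  have hu2 : u ≤ 1 := (min_le_right _ _).trans (min_le_left _ _)
  have hu3 : u ≤ Real.exp (-(C / x + 1)) := (min_le_right _ _).trans (min_le_right _ _)
  have h1 := h (1 + u) (by linarith) (by linarith) (by linarith)
  have h2 : Real.log u ≤ -(C / x + 1) := by
    have := Real.log_le_log hu0 hu3
    rwa [Real.log_exp] at this
  have h3 : Real.log (1 / (1 + u - 1)) = -Real.log u := by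
    rw [add_sub_cancel_left, one_div, Real.log_inv]
  rw [h3] at h1
  have h4 : C / x + 1 ≤ -Real.log u := by linarith
  have h5 : x * (C / x + 1) ≤ x * -Real.log u := mul_le_mul_of_nonneg_left h4 hx.le
  have h6 : x * (C / x + 1) = C + x := by field_simp
  linarith

/-- Trace of the inverse of an invertible `2 × 2` matrix. -/
theorem trace_inv_eq {k : Type*} [Field k] (g : GL (Fin 2) k) :
    Matrix.trace (g⁻¹ : GL (Fin 2) k).1 = Matrix.trace g.1 / Matrix.det g.1 := by
  have hdet : Matrix.det g.1 ≠ 0 := by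
    have := g.isUnit.map (Matrix.detMonoidHom (n := Fin 2) (R := k))
    exact this.ne_zero
  have h1 : ((g⁻¹ : GL (Fin 2) k) : Matrix (Fin 2) (Fin 2) k) = (g.1)⁻¹ := Matrix.coe_units_inv g
  show Matrix.trace ((g⁻¹ : GL (Fin 2) k) : Matrix (Fin 2) (Fin 2) k) = _
  rw [h1, Matrix.inv_def, Matrix.trace_smul, Ring.inverse_eq_inv', Matrix.adjugate_fin_two,
    Matrix.trace_fin_two, Matrix.trace_fin_two]
  simp only [Matrix.of_apply, Matrix.cons_val', Matrix.cons_val_zero, Matrix.cons_val_one,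
    smul_eq_mul]
  field_simp
  ring

/-- Determinant of the inverse. -/
theorem det_inv_eq {k : Type*} [Field k] (g : GL (Fin 2) k) :
    Matrix.det (g⁻¹ : GL (Fin 2) k).1 = 1 / Matrix.det g.1 := by
  have hdet : Matrix.det g.1 ≠ 0 := by
    have := g.isUnit.map (Matrix.detMonoidHom (n := Fin 2) (R := k))
    exact this.ne_zero
  have h1 : Matrix.det (g⁻¹ : GL (Fin 2) k).1 * Matrix.det g.1 = 1 := by
    rw [← Matrix.det_mul]
    have : (g⁻¹ : GL (Fin 2) k).1 * g.1 = 1 := by
      rw [← Units.val_mul, inv_mul_cancel, Units.val_one]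
    rw [this, Matrix.det_one]
  field_simp
  exact h1

/-- **The uniform bound.** -/
theorem card_range_le (hK : ChebHom.ChebSymK) {N : ℕ} (hN : N ≠ 0) (a e : ℕ → ℂ)
    (P : Finset (Zbar × Zbar)) (C : ℝ)
    (hDens : ∀ s : ℝ, 1 < s → s ≤ 2 → ∀ T : Finset ℕ,
      (∀ p ∈ T, p.Prime ∧ ¬ p ∣ N ∧ ∀ y ∈ P, ¬ ((y.1 : ℂ) = a p ∧ (y.2 : ℂ) = e p)) →
      ∑ p ∈ T, (p : ℝ) ^ (-s) ≤ (1 / 16) * Real.log (1 / (s - 1)) + C)
    (l : ℕ) {k : Type} [Field k] (φ : Zbar →+* k) (r : Γℚ →* GL (Fin 2) k)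
    (hr : GaloisFactorsThroughFiniteLevel r) (hss : GroupBound.LineSemisimple r.range)
    (hFrob : ∀ p : ℕ, p.Prime → ¬ p ∣ N → p ≠ l → ∀ A : ValuationSubring Qbar,
      A.LiesOverPrime p → ∀ σ : Γℚ, A.IsFrobeniusAt σ p → ∃ t d : Zbar, (t : ℂ) = a p ∧
        (d : ℂ) = e p ∧ Matrix.trace (r σ).1 = φ t ∧ Matrix.det (r σ).1 = φ d) :
    Nat.card r.range ≤ 2 * (2 * P.card) ^ 4 + 3 * (2 * P.card) := by
  classical
  have hfin : Finite r.range := finite_range r hr
  set Pk : Finset (k × k) := P.image (fun y => (φ y.1, φ y.2)) ∪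
    P.image (fun y => (φ y.1 / φ y.2, 1 / φ y.2)) with hPk
  set H : Set (GL (Fin 2) k) := {h | (Matrix.trace h.1, Matrix.det h.1) ∈ Pk} with hH
  set S : Set (GL (Fin 2) k) := Hᶜ with hS
  have hconj : ∀ g h : GL (Fin 2) k, g ∈ S → h ∈ r.range → h * g * h⁻¹ ∈ S := by
    intro g h hg _
    rw [hS, Set.mem_compl_iff, hH, Set.mem_setOf_eq] at hg ⊢
    have h1 : (h * g * h⁻¹ : GL (Fin 2) k).1 = h.1 * g.1 * (h⁻¹ : GL (Fin 2) k).1 := by
      simp [Units.val_mul]
    rw [h1, Matrix.trace_units_conj, Matrix.det_units_conj]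
    exact hg
  have hinv : ∀ g ∈ S, g⁻¹ ∈ S := by
    intro g hg
    rw [hS, Set.mem_compl_iff, hH, Set.mem_setOf_eq] at hg ⊢
    intro hmem
    apply hg
    have hdet : Matrix.det g.1 ≠ 0 := by
      have := g.isUnit.map (Matrix.detMonoidHom (n := Fin 2) (R := k))
      exact this.ne_zero
    rw [trace_inv_eq, det_inv_eq, hPk, Finset.mem_union, Finset.mem_image, Finset.mem_image]
      at hmem
    rw [hPk, Finset.mem_union, Finset.mem_image, Finset.mem_image]
    rcases hmem with ⟨y, hy, hyeq⟩ | ⟨y, hy, hyeq⟩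
    · right
      refine ⟨y, hy, ?_⟩
      have h1 := congrArg Prod.fst hyeq
      have h2 := congrArg Prod.snd hyeq
      simp only at h1 h2
      rw [h1, h2]
      apply Prod.ext
      · simp only
        field_simp
      · simp only
        field_simp
    · left
      refine ⟨y, hy, ?_⟩
      have h1 := congrArg Prod.fst hyeq
      have h2 := congrArg Prod.snd hyeq
      simp only at h1 h2
      have hy2 : φ y.2 ≠ 0 := by
        intro h0
        rw [h0, div_zero] at h2
        have : (1 : k) / Matrix.det g.1 ≠ 0 := one_div_ne_zero hdet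
        exact this h2.symm
      have h3 : Matrix.det g.1 = φ y.2 := by
        have : (1 : k) / Matrix.det g.1 = 1 / φ y.2 := h2.symm
        field_simp at this
        exact this.symm
      have h4 : Matrix.trace g.1 = φ y.1 := by
        rw [h3] at h1
        field_simp at h1
        exact h1.symm
      rw [h3, h4]
  obtain ⟨δ, hδ, HT⟩ := ChebHom.cheb_sym_hom hK r hr S hconj hinv (N.primeFactors ∪ {l})
    (1 / 32) (by norm_num)
  set x : ℝ := ((S ∩ (r.range : Set (GL (Fin 2) k))).ncard : ℝ) / Nat.card r.range with hx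
  have hxle : x - 1 / 32 - 1 / 16 ≤ 0 := by
    apply nonpos_of_mul_log_le _ C δ hδ
    intro s hs1 hs2 hs3
    obtain ⟨T, hT, hle⟩ := HT s hs1 hs2
    have hd := hDens s hs1 hs3 T (fun p hp => by
      obtain ⟨hpp, hpb, A, σ, hA, hσ, hmem⟩ := hT p hp
      rw [Finset.mem_union, Finset.mem_singleton, not_or] at hpb
      have hpN : ¬ p ∣ N := fun hd => hpb.1 (Nat.mem_primeFactors.mpr ⟨hpp, hd, hN⟩)
      refine ⟨hpp, hpN, fun y hy hyeq => ?_⟩
      obtain ⟨t, d, ht, hd, htr, hdet⟩ := hFrob p hpp hpN hpb.2 A hA σ hσ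
      have e1 : y.1 = t := Subtype.ext (hyeq.1.trans ht.symm)
      have e2 : y.2 = d := Subtype.ext (hyeq.2.trans hd.symm)
      rw [hS, Set.mem_compl_iff, hH, Set.mem_setOf_eq] at hmem
      apply hmem
      rw [hPk, Finset.mem_union, Finset.mem_image]
      left
      exact ⟨y, hy, by rw [htr, hdet, e1, e2]⟩)
    have : (x - 1 / 32 - 1 / 16) * Real.log (1 / (s - 1)) =
        (x - 1 / 32) * Real.log (1 / (s - 1)) - 1 / 16 * Real.log (1 / (s - 1)) := by ring
    rw [this]
    linarith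
  have hcard : 0 < Nat.card r.range := Nat.card_pos
  have hcardR : (0 : ℝ) < Nat.card r.range := by exact_mod_cast hcard
  have hdiff : ((r.range : Set (GL (Fin 2) k)) \ H) = S ∩ (r.range : Set (GL (Fin 2) k)) := by
    rw [hS, Set.diff_eq, Set.inter_comm]
  have hdens : 8 * ((r.range : Set (GL (Fin 2) k)) \ H).ncard ≤ Nat.card r.range := by
    rw [hdiff]
    have h1 : x ≤ 3 / 32 := by linarith
    rw [hx, div_le_iff₀ hcardR] at h1
    have h2 : (8 : ℝ) * ((S ∩ (r.range : Set (GL (Fin 2) k))).ncard : ℝ) ≤ Nat.card r.range := by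
      nlinarith
    exact_mod_cast h2
  have hmain := GroupBound.card_le_of_few_charpolys r.range hss H Pk (fun h _ hh => hh) hdens
  have hPkcard : Pk.card ≤ 2 * P.card := by
    rw [hPk]
    refine (Finset.card_union_le _ _).trans ?_
    have h1 := Finset.card_image_le (s := P) (f := fun y : Zbar × Zbar => (φ y.1, φ y.2))
    have h2 := Finset.card_image_le (s := P)
      (f := fun y : Zbar × Zbar => (φ y.1 / φ y.2, 1 / φ y.2))
    omega
  calc Nat.card r.range ≤ 2 * Pk.card ^ 4 + 3 * Pk.card := hmain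
    _ ≤ 2 * (2 * P.card) ^ 4 + 3 * (2 * P.card) := by
      have := Nat.pow_le_pow_left hPkcard 4
      omega

end Fermat.Agent.DS.GlueBound
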