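import Mathlib

/-!
# DS glue: residue fields of `integralClosure ℤ ℂ`

* `exists_residue_field`: for every prime `l` a field `k` of characteristic `l` with a surjective
  ring homomorphism `integralClosure ℤ ℂ →+* k`.
* `exists_bad_primes_injOn`: a finite set of algebraic integers is mapped injectively by every
  ring homomorphism to a field of characteristic `l`, for all primes `l` outside a finite set.
-/

set_option autoImplicit false

namespace Fermat.Agent.DS.GlueZbar

local notation "Zbar" => integralClosure ℤ ℂ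

/-- A nonzero algebraic integer divides a nonzero rational integer. -/
theorem exists_int_multiple (x : Zbar) (hx : x ≠ 0) :
    ∃ n : ℤ, n ≠ 0 ∧ ∃ w : Zbar, x * w = (n : Zbar) := by
  have hint : IsIntegral ℤ x := integralClosure.isIntegral x
  have hp0 : minpoly ℤ x ≠ 0 := minpoly.ne_zero hint
  obtain ⟨q, hq, hndvd⟩ := Polynomial.exists_eq_pow_rootMultiplicity_mul_and_not_dvd
    (minpoly ℤ x) hp0 0
  rw [Polynomial.C_0, sub_zero] at hq hndvd
  have hq0 : q.coeff 0 ≠ 0 := fun h => hndvd (Polynomial.X_dvd_iff.mpr h)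
  have h1 : Polynomial.aeval x (minpoly ℤ x) = 0 := minpoly.aeval ℤ x
  rw [hq, map_mul, map_pow, Polynomial.aeval_X] at h1
  have hqx : Polynomial.aeval x q = 0 := by
    rcases mul_eq_zero.mp h1 with h | h
    · exact absurd (eq_zero_of_pow_eq_zero h) hx
    · exact h
  refine ⟨q.coeff 0, hq0, -(Polynomial.aeval x q.divX), ?_⟩
  have h2 : q.divX * Polynomial.X + Polynomial.C (q.coeff 0) = q := Polynomial.divX_mul_X_add _
  rw [← h2] at hqx
  simp only [map_add, map_mul, Polynomial.aeval_X, Polynomial.aeval_C] at hqx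
  have h3 : (algebraMap ℤ Zbar) (q.coeff 0) = ((q.coeff 0 : ℤ) : Zbar) := rfl
  rw [h3] at hqx
  linear_combination -hqx

/-- A prime number is not a unit among the algebraic integers. -/
theorem natCast_prime_not_isUnit (l : ℕ) (hl : l.Prime) : ¬ IsUnit (l : Zbar) := by
  intro hu
  obtain ⟨y, hy⟩ := hu.exists_right_inv
  -- `y = 1/l` is a rational algebraic integer
  have hyint : IsIntegral ℤ (y : ℂ) := y.2
  have hl0 : (l : ℂ) ≠ 0 := by exact_mod_cast hl.ne_zero
  have hyval : (y : ℂ) = ((1 / l : ℚ) : ℂ) := by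
    have h := congrArg (Subtype.val) hy
    push_cast at h
    push_cast
    field_simp
    linear_combination h
  rw [hyval] at hyint
  have hq : IsIntegral ℤ ((1 / l : ℚ)) := by
    have : IsIntegral ℤ (algebraMap ℚ ℂ (1 / l : ℚ)) := by simpa using hyint
    exact (isIntegral_algebraMap_iff (algebraMap ℚ ℂ).injective).mp this
  obtain ⟨z, hz⟩ := IsIntegrallyClosed.isIntegral_iff.mp hq
  have hz' : (z : ℚ) * l = 1 := by
    have : (algebraMap ℤ ℚ z) = (z : ℚ) := rfl
    rw [← this, hz]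
    have : (l : ℚ) ≠ 0 := by exact_mod_cast hl.ne_zero
    field_simp
  have hz'' : z * (l : ℤ) = 1 := by exact_mod_cast hz'
  have hdvd : (l : ℤ) ∣ 1 := ⟨z, by linarith⟩
  have : (l : ℤ) = 1 ∨ (l : ℤ) = -1 := Int.isUnit_iff.mp (isUnit_of_dvd_one hdvd)
  rcases this with h | h
  · exact hl.one_lt.ne' (by exact_mod_cast h)
  · have : (0 : ℤ) ≤ l := Int.natCast_nonneg l
    omega

/-- A field of characteristic `l` receiving a surjection from the algebraic integers. -/
theorem exists_residue_field (l : ℕ) (hl : l.Prime) :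
    ∃ (k : Type) (_ : Field k) (_ : CharP k l) (φ : Zbar →+* k), Function.Surjective φ := by
  have hne : Ideal.span {(l : Zbar)} ≠ ⊤ := by
    rw [Ne, Ideal.span_singleton_eq_top]
    exact natCast_prime_not_isUnit l hl
  obtain ⟨P, hP, hle⟩ := Ideal.exists_le_maximal _ hne
  let _ : Field (Zbar ⧸ P) := Ideal.Quotient.field P
  have hmem : (l : Zbar) ∈ P := hle (Ideal.mem_span_singleton_self _)
  have h0 : ((l : ℕ) : Zbar ⧸ P) = 0 := by
    have : (Ideal.Quotient.mk P) (l : Zbar) = 0 := Ideal.Quotient.eq_zero_iff_mem.mpr hmem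
    simpa using this
  have hchar : CharP (Zbar ⧸ P) l := by
    obtain ⟨c, hc⟩ := CharP.exists (Zbar ⧸ P)
    have hdvd : c ∣ l := (CharP.cast_eq_zero_iff (Zbar ⧸ P) c l).mp h0
    rcases (Nat.dvd_prime hl).mp hdvd with h1 | h1
    · subst h1
      have h1' := CharP.cast_eq_zero (Zbar ⧸ P) 1
      rw [Nat.cast_one] at h1'
      exact absurd h1' one_ne_zero
    · rw [← h1]
      exact hc
  exact ⟨Zbar ⧸ P, inferInstance, hchar, Ideal.Quotient.mk P, Ideal.Quotient.mk_surjective⟩

/-- A finite set of algebraic integers is mapped injectively into every field of characteristic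
`l`, for all primes `l` outside a finite set. -/
theorem exists_bad_primes_injOn (Z : Finset Zbar) :
    ∃ B : Finset ℕ, ∀ l : ℕ, l.Prime → l ∉ B → ∀ (k : Type) [Field k] [CharP k l]
      (φ : Zbar →+* k), Set.InjOn φ (Z : Set Zbar) := by
  classical
  have hex : ∀ x : Zbar, ∃ n : ℤ, n ≠ 0 ∧ (x ≠ 0 → ∃ w : Zbar, x * w = (n : Zbar)) := by
    intro x
    by_cases hx : x = 0
    · exact ⟨1, one_ne_zero, fun h => absurd hx h⟩
    · obtain ⟨n, hn, hw⟩ := exists_int_multiple x hx
      exact ⟨n, hn, fun _ => hw⟩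
  choose n hn hw using hex
  refine ⟨(∏ p ∈ Z ×ˢ Z, (n (p.1 - p.2)).natAbs).primeFactors, ?_⟩
  intro l hl hlB k _ _ φ x hx y hy hxy
  by_contra hne
  have hd : x - y ≠ 0 := sub_ne_zero.mpr hne
  obtain ⟨w, hw'⟩ := hw (x - y) hd
  have h1 : φ ((n (x - y) : ℤ) : Zbar) = 0 := by
    rw [← hw', map_mul, map_sub, hxy, sub_self, zero_mul]
  have h2 : ((n (x - y) : ℤ) : k) = 0 := by simpa using h1
  have h3 : (l : ℤ) ∣ n (x - y) := (CharP.intCast_eq_zero_iff k l _).mp h2
  have h4 : l ∣ (n (x - y)).natAbs := Int.natCast_dvd.mp h3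
  have h5 : (n (x - y)).natAbs ∣ ∏ p ∈ Z ×ˢ Z, (n (p.1 - p.2)).natAbs :=
    Finset.dvd_prod_of_mem (fun p : Zbar × Zbar => (n (p.1 - p.2)).natAbs)
      (Finset.mem_product.mpr ⟨hx, hy⟩ : (x, y) ∈ Z ×ˢ Z)
  have h6 : (∏ p ∈ Z ×ˢ Z, (n (p.1 - p.2)).natAbs) ≠ 0 := by
    rw [Finset.prod_ne_zero_iff]
    intro p _
    exact Int.natAbs_ne_zero.mpr (hn _)
  exact hlB (Nat.mem_primeFactors.mpr ⟨hl, h4.trans h5, h6⟩)

/-- Two algebraic integers that become equal in fields of infinitely many characteristics are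
equal. -/
theorem eq_of_infinite_primes (x y : Zbar) (S : Set ℕ) (hS : S.Infinite)
    (h : ∀ l ∈ S, l.Prime ∧ ∃ (k : Type) (_ : Field k) (_ : CharP k l) (φ : Zbar →+* k),
      φ x = φ y) : x = y := by
  classical
  obtain ⟨B, hB⟩ := exists_bad_primes_injOn {x, y}
  obtain ⟨l, hlS, hlB⟩ := hS.exists_notMem_finset B
  obtain ⟨hl, k, _, _, φ, hφ⟩ := h l hlS
  exact hB l hl hlB k φ (by simp) (by simp) hφ

end Fermat.Agent.DS.GlueZbar
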