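import Mathlib
import Fermat.Prelude.Def_GaloisRep_Residual
import Fermat.Agent.DS.GlueZbar

/-!
# DS glue: the pigeonhole step

If for infinitely many primes `l` the pair `(t, d)` of algebraic integers reduces, in some field
of characteristic `l`, to (sum, product) of two `m`-th roots of unity, then `(t, d)` is
(sum, product) of two `m`-th roots of unity.
-/

set_option autoImplicit false

namespace Fermat.Agent.DS.GluePigeon

open Fermat.Agent.DS

local notation "Zbar" => integralClosure ℤ ℂ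

/-- The pigeonhole step. -/
theorem exists_roots_of_infinite (t d : Zbar) {m : ℕ} (hm : 0 < m) (S : Set ℕ) (hS : S.Infinite)
    (h : ∀ l ∈ S, l.Prime ∧ ∃ (k : Type) (_ : Field k) (_ : CharP k l) (φ : Zbar →+* k)
      (ζ ζ' : Zbar), ζ ^ m = 1 ∧ ζ' ^ m = 1 ∧ φ t = φ (ζ + ζ') ∧ φ d = φ (ζ * ζ')) :
    ∃ ζ ζ' : Zbar, ζ ^ m = 1 ∧ ζ' ^ m = 1 ∧ t = ζ + ζ' ∧ d = ζ * ζ' := by
  classical
  set R : Finset Zbar := Polynomial.nthRootsFinset m (1 : Zbar) with hR
  have hmemR : ∀ x : Zbar, x ∈ R ↔ x ^ m = 1 := fun x => Polynomial.mem_nthRootsFinset hm 1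
  -- choose the pair of roots for each `l`
  have hex : ∀ l : S, ∃ y : ↥(R ×ˢ R), ∃ (k : Type) (_ : Field k) (_ : CharP k l.1)
      (φ : Zbar →+* k), φ t = φ (y.1.1 + y.1.2) ∧ φ d = φ (y.1.1 * y.1.2) := by
    rintro ⟨l, hl⟩
    obtain ⟨_, k, hk1, hk2, φ, ζ, ζ', hζ, hζ', h1, h2⟩ := h l hl
    exact ⟨⟨(ζ, ζ'), Finset.mem_product.mpr ⟨(hmemR ζ).mpr hζ, (hmemR ζ').mpr hζ'⟩⟩,
      k, hk1, hk2, φ, h1, h2⟩
  choose F hF using hex
  have hinf : Infinite S := hS.to_subtype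
  obtain ⟨y, hy⟩ := Finite.exists_infinite_fiber F
  have hy1 : y.1.1 ^ m = 1 := (hmemR _).mp (Finset.mem_product.mp y.2).1
  have hy2 : y.1.2 ^ m = 1 := (hmemR _).mp (Finset.mem_product.mp y.2).2
  -- the set of primes with this pair
  set S' : Set ℕ := Subtype.val '' (F ⁻¹' {y}) with hS'
  have hS'inf : S'.Infinite := by
    rw [hS']
    exact (Set.infinite_coe_iff.mp hy).image (Subtype.val_injective.injOn)
  refine ⟨y.1.1, y.1.2, hy1, hy2, ?_, ?_⟩
  · apply GlueZbar.eq_of_infinite_primes t (y.1.1 + y.1.2) S' hS'inf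
    rintro l ⟨⟨l', hl'⟩, hmem, rfl⟩
    obtain ⟨k, hk1, hk2, φ, h1, h2⟩ := hF ⟨l', hl'⟩
    have hFy : F ⟨l', hl'⟩ = y := hmem
    rw [hFy] at h1 h2
    exact ⟨(h l' hl').1, k, hk1, hk2, φ, h1⟩
  · apply GlueZbar.eq_of_infinite_primes d (y.1.1 * y.1.2) S' hS'inf
    rintro l ⟨⟨l', hl'⟩, hmem, rfl⟩
    obtain ⟨k, hk1, hk2, φ, h1, h2⟩ := hF ⟨l', hl'⟩
    have hFy : F ⟨l', hl'⟩ = y := hmem
    rw [hFy] at h1 h2
    exact ⟨(h l' hl').1, k, hk1, hk2, φ, h2⟩

/-- The set of primes outside a finite set and above a bound is infinite. -/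
theorem infinite_good_primes (B : Finset ℕ) (A : ℕ) :
    {l : ℕ | l.Prime ∧ l ∉ B ∧ A < l}.Infinite := by
  have h1 : {l : ℕ | l.Prime}.Infinite := Nat.infinite_setOf_prime
  have h2 : ((B : Set ℕ) ∪ (Finset.range (A + 1) : Set ℕ)).Finite :=
    (Finset.finite_toSet B).union (Finset.finite_toSet _)
  refine (h1.diff h2).mono ?_
  rintro l ⟨hl, hnot⟩
  rw [Set.mem_union, not_or] at hnot
  refine ⟨hl, hnot.1, ?_⟩
  have := hnot.2
  simp only [Finset.coe_range, Set.mem_Iio, not_lt] at this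
  omega

end Fermat.Agent.DS.GluePigeon
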