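import Mathlib
import Fermat.Prelude.Def_GaloisRep_Residual
import Fermat.Prelude.Def_Deformations_MatrixRepresentation
import Fermat.Agent.Lib.FrobeniusExists
import Fermat.Agent.Frob.Main
import Fermat.Agent.DS.GroupBound
import Fermat.Agent.DS.ChebHom
import Fermat.Agent.DS.GlueZbar
import Fermat.Agent.DS.GlueBound
import Fermat.Agent.DS.GluePigeon

/-!
# DS glue: from the residual family to the complex representation

`exists_rep`: sequences `a e : ℕ → ℂ`, a family of mod-`l` representations with Frobenius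
traces/determinants the reductions of `(a p, e p)` (`ResidualFamily`), and the density bound
(`DensityBound`) produce a complex representation of finite level, unramified outside `N`, with
`trace (Frob_p) = a p`, `det (Frob_p) = e p` for all `p ∤ N`.  Irreducibility is delegated to the
hypothesis `hIrr` (proved in `DS/Irr`).

The purely algebraic inputs are taken as hypotheses (`SemisimplifyStmt`, `TraceTwoStmt`,
`RootsStmt`, `TracePowStmt`, `LiftStmt`, `ChebHom.ChebSymK`): they are theorems of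
`DS/GlueAlg`, `DS/Lift`, `DS/Cheb`.
-/

set_option autoImplicit false

namespace Fermat.Agent.DS.Glue

open Fermat.Agent.DS

local notation "Qbar" => AlgebraicClosure ℚ
local notation "Γℚ" => (AlgebraicClosure ℚ ≃ₐ[ℚ] AlgebraicClosure ℚ)
local notation "Zbar" => integralClosure ℤ ℂ

/-- (H1) the residual family. -/
def ResidualFamily (N : ℕ) (a e : ℕ → ℂ) : Prop :=
  ∃ B0 : Finset ℕ, ∀ l : ℕ, l.Prime → l ∉ B0 → ∀ (k : Type) [Field k] [CharP k l]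
    (φ : Zbar →+* k), ∃ r : Γℚ →* GL (Fin 2) k, GaloisFactorsThroughFiniteLevel r ∧
      ∀ p : ℕ, p.Prime → ¬ p ∣ N → p ≠ l → ∀ A : ValuationSubring Qbar, A.LiesOverPrime p →
        (∀ σ ∈ A.inertiaSubgroupIn ℚ, r σ = 1) ∧
        ∀ σ : Γℚ, A.IsFrobeniusAt σ p → ∃ t d : Zbar, (t : ℂ) = a p ∧ (d : ℂ) = e p ∧
          Matrix.trace (r σ).1 = φ t ∧ Matrix.det (r σ).1 = φ d

/-- (H2) the density bound: off a set of primes of upper density `≤ 1/16`, the pairs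
`(a p, e p)` lie in a finite set of pairs of algebraic integers. -/
def DensityBound (N : ℕ) (a e : ℕ → ℂ) : Prop :=
  ∃ (P : Finset (Zbar × Zbar)) (C : ℝ), ∀ s : ℝ, 1 < s → s ≤ 2 → ∀ T : Finset ℕ,
    (∀ p ∈ T, p.Prime ∧ ¬ p ∣ N ∧ ∀ y ∈ P, ¬ ((y.1 : ℂ) = a p ∧ (y.2 : ℂ) = e p)) →
    ∑ p ∈ T, (p : ℝ) ^ (-s) ≤ (1 / 16) * Real.log (1 / (s - 1)) + C

/-- Semisimplification of two-dimensional representations. -/
def SemisimplifyStmt : Prop :=
  ∀ (k : Type) [Field k] (r : Γℚ →* GL (Fin 2) k), ∃ r' : Γℚ →* GL (Fin 2) k,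
    (∀ g, Matrix.trace (r' g).1 = Matrix.trace (r g).1 ∧
      Matrix.det (r' g).1 = Matrix.det (r g).1) ∧
    (∀ g, r g = 1 → r' g = 1) ∧ GroupBound.LineSemisimple r'.range

/-- A complex matrix of finite order with trace `2` is the identity. -/
def TraceTwoStmt : Prop :=
  ∀ (g : GL (Fin 2) ℂ) (m : ℕ), 0 < m → g ^ m = 1 → Matrix.trace g.1 = 2 → g = 1

/-- Trace and determinant of a matrix of finite order prime to the characteristic are the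
reductions of (sum, product) of two roots of unity. -/
def RootsStmt : Prop :=
  ∀ (k : Type) [Field k] (φ : Zbar →+* k) (m : ℕ), (m : k) ≠ 0 → ∀ g : GL (Fin 2) k,
    g ^ m = 1 → ∃ ζ ζ' : Zbar, ζ ^ m = 1 ∧ ζ' ^ m = 1 ∧ Matrix.trace g.1 = φ (ζ + ζ') ∧
      Matrix.det g.1 = φ (ζ * ζ')

/-- Traces of powers are determined by trace and determinant. -/
def TracePowStmt : Prop :=
  ∀ (g h : Matrix (Fin 2) (Fin 2) ℂ), g.trace = h.trace → g.det = h.det →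
    ∀ j : ℕ, (g ^ j).trace = (h ^ j).trace

/-- Lifting a representation of a finite group of order prime to `l` to characteristic `0`. -/
def LiftStmt : Prop :=
  ∀ (k : Type) [Field k] (φ : Zbar →+* k), Function.Surjective φ →
    ∀ (G : Type) [Group G] [Finite G] (r : G →* GL (Fin 2) k), (Nat.card G : k) ≠ 0 →
      ∃ ρ : G →* GL (Fin 2) ℂ, ∀ g : G, ∃ t d : Zbar, (t : ℂ) = Matrix.trace (ρ g).1 ∧
        (d : ℂ) = Matrix.det (ρ g).1 ∧ φ t = Matrix.trace (r g).1 ∧ φ d = Matrix.det (r g).1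

/-- The bounded residual family: output of Chebotarev + density + the group bound. -/
def BoundedFamily (N : ℕ) (a e : ℕ → ℂ) (B0 : Finset ℕ) (Ab : ℕ) : Prop :=
  ∀ l : ℕ, l.Prime → l ∉ B0 → ∀ (k : Type) [Field k] [CharP k l]
    (φ : Zbar →+* k), ∃ r : Γℚ →* GL (Fin 2) k, GaloisFactorsThroughFiniteLevel r ∧
      Finite r.range ∧ Nat.card r.range ≤ Ab ∧
      ∀ p : ℕ, p.Prime → ¬ p ∣ N → p ≠ l → ∀ A : ValuationSubring Qbar, A.LiesOverPrime p →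
        (∀ σ ∈ A.inertiaSubgroupIn ℚ, r σ = 1) ∧
        ∀ σ : Γℚ, A.IsFrobeniusAt σ p → ∃ t d : Zbar, (t : ℂ) = a p ∧ (d : ℂ) = e p ∧
          Matrix.trace (r σ).1 = φ t ∧ Matrix.det (r σ).1 = φ d

/-- Step A: the residual family can be taken line-semisimple with uniformly bounded image. -/
theorem exists_boundedFamily (hK : ChebHom.ChebSymK) (hSS : SemisimplifyStmt) {N : ℕ}
    (hN : N ≠ 0) (a e : ℕ → ℂ) (hRes : ResidualFamily N a e) (hDens : DensityBound N a e) :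
    ∃ (B0 : Finset ℕ) (Ab : ℕ), BoundedFamily N a e B0 Ab := by
  obtain ⟨B0, hB0⟩ := hRes
  obtain ⟨P, C, hPC⟩ := hDens
  refine ⟨B0, 2 * (2 * P.card) ^ 4 + 3 * (2 * P.card), ?_⟩
  intro l hl hlB k _ _ φ
  obtain ⟨r, hr, hrp⟩ := hB0 l hl hlB k φ
  obtain ⟨r', htd, hker, hss⟩ := hSS k r
  have hr' : GaloisFactorsThroughFiniteLevel r' := by
    obtain ⟨L, hL, hfix⟩ := hr
    exact ⟨L, hL, fun σ hσ => hker σ (hfix σ hσ)⟩
  have hFrob' : ∀ p : ℕ, p.Prime → ¬ p ∣ N → p ≠ l → ∀ A : ValuationSubring Qbar,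
      A.LiesOverPrime p → ∀ σ : Γℚ, A.IsFrobeniusAt σ p → ∃ t d : Zbar, (t : ℂ) = a p ∧
        (d : ℂ) = e p ∧ Matrix.trace (r' σ).1 = φ t ∧ Matrix.det (r' σ).1 = φ d := by
    intro p hp hpN hpl A hA σ hσ
    obtain ⟨t, d, ht, hd, h1, h2⟩ := (hrp p hp hpN hpl A hA).2 σ hσ
    exact ⟨t, d, ht, hd, by rw [(htd σ).1, h1], by rw [(htd σ).2, h2]⟩
  refine ⟨r', hr', GlueBound.finite_range r' hr', ?_, ?_⟩
  · exact GlueBound.card_range_le hK hN a e P C hPC l φ r' hr' hss hFrob'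
  · intro p hp hpN hpl A hA
    exact ⟨fun σ hσ => hker σ ((hrp p hp hpN hpl A hA).1 σ hσ), hFrob' p hp hpN hpl A hA⟩

/-- Elements of a subgroup of order at most `Ab` are killed by `Ab !`. -/
theorem pow_factorial_eq_one {G : Type*} [Group G] (H : Subgroup G) [Finite H] {Ab : ℕ}
    (hcard : Nat.card H ≤ Ab) {g : G} (hg : g ∈ H) : g ^ Ab.factorial = 1 := by
  have h1 : (⟨g, hg⟩ : H) ^ Nat.card H = 1 := pow_card_eq_one'
  have h2 : Nat.card H ∣ Ab.factorial := Nat.dvd_factorial Nat.card_pos hcard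
  obtain ⟨c, hc⟩ := h2
  have h3 : (⟨g, hg⟩ : H) ^ Ab.factorial = 1 := by
    rw [hc, pow_mul, h1, one_pow]
  have h4 := congrArg (Subtype.val) h3
  simpa using h4

/-- Step B: for a prime `p ∤ N` carrying a Frobenius pair, `(a p, e p)` is (sum, product) of two
roots of unity of order dividing `Ab !`. -/
theorem exists_roots_pair (hRoots : RootsStmt) {N : ℕ} (a e : ℕ → ℂ) {B0 : Finset ℕ} {Ab : ℕ}
    (hfam : BoundedFamily N a e B0 Ab) {p : ℕ} (hp : p.Prime) (hpN : ¬ p ∣ N)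
    (A : ValuationSubring Qbar) (hA : A.LiesOverPrime p) (σ : Γℚ) (hσ : A.IsFrobeniusAt σ p) :
    ∃ ζ ζ' : Zbar, ζ ^ Ab.factorial = 1 ∧ ζ' ^ Ab.factorial = 1 ∧
      a p = ((ζ + ζ' : Zbar) : ℂ) ∧ e p = ((ζ * ζ' : Zbar) : ℂ) := by
  classical
  set m : ℕ := Ab.factorial with hm
  have hmpos : 0 < m := Nat.factorial_pos Ab
  set S : Set ℕ := {l : ℕ | l.Prime ∧ l ∉ (B0 ∪ {p}) ∧ Ab < l} with hS
  have hSinf : S.Infinite := GluePigeon.infinite_good_primes (B0 ∪ {p}) Ab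
  -- the data at one prime
  have hdata : ∀ l ∈ S, ∃ (k : Type) (_ : Field k) (_ : CharP k l) (φ : Zbar →+* k)
      (t d ζ ζ' : Zbar), (t : ℂ) = a p ∧ (d : ℂ) = e p ∧ ζ ^ m = 1 ∧ ζ' ^ m = 1 ∧
        φ t = φ (ζ + ζ') ∧ φ d = φ (ζ * ζ') := by
    rintro l ⟨hl, hlB, hlA⟩
    rw [Finset.mem_union, Finset.mem_singleton, not_or] at hlB
    obtain ⟨k, hk1, hk2, φ, -⟩ := GlueZbar.exists_residue_field l hl
    obtain ⟨r, hr, hfin, hcard, hrp⟩ := hfam l hl hlB.1 k φ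
    obtain ⟨t, d, ht, hd, h1, h2⟩ := (hrp p hp hpN (fun h => hlB.2 h.symm) A hA).2 σ hσ
    have hmk : (m : k) ≠ 0 := by
      intro h0
      have hdvd : l ∣ m := (CharP.cast_eq_zero_iff k l m).mp h0
      have := (hl.dvd_factorial).mp hdvd
      omega
    have hpow : (r σ) ^ m = 1 := pow_factorial_eq_one r.range hcard ⟨σ, rfl⟩
    obtain ⟨ζ, ζ', hζ, hζ', h3, h4⟩ := hRoots k φ m hmk (r σ) hpow
    exact ⟨k, hk1, hk2, φ, t, d, ζ, ζ', ht, hd, hζ, hζ', by rw [← h1, h3], by rw [← h2, h4]⟩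
  -- fix `t`, `d`
  obtain ⟨l0, hl0⟩ := hSinf.nonempty
  obtain ⟨_, _, _, _, t, d, _, _, ht, hd, -⟩ := hdata l0 hl0
  obtain ⟨ζ, ζ', hζ, hζ', h1, h2⟩ := GluePigeon.exists_roots_of_infinite t d hmpos S hSinf
    (fun l hl => by
      obtain ⟨k, hk1, hk2, φ, t', d', ζ, ζ', ht', hd', hζ, hζ', h1, h2⟩ := hdata l hl
      have e1 : t' = t := Subtype.ext (ht'.trans ht.symm)
      have e2 : d' = d := Subtype.ext (hd'.trans hd.symm)
      rw [e1] at h1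
      rw [e2] at h2
      exact ⟨hl.1, k, hk1, hk2, φ, ζ, ζ', hζ, hζ', h1, h2⟩)
  exact ⟨ζ, ζ', hζ, hζ', by rw [← ht, h1], by rw [← hd, h2]⟩

/-- The norm bound `‖a p‖ ≤ 2`. -/
theorem norm_le_two (hRoots : RootsStmt) {N : ℕ} (a e : ℕ → ℂ) {B0 : Finset ℕ} {Ab : ℕ}
    (hfam : BoundedFamily N a e B0 Ab) {p : ℕ} (hp : p.Prime) (hpN : ¬ p ∣ N) : ‖a p‖ ≤ 2 := by
  obtain ⟨A, σ, hA, hσ⟩ := Fermat.Agent.Lib.FrobeniusExists.exists_isFrobeniusAt hp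
  obtain ⟨ζ, ζ', hζ, hζ', h1, -⟩ := exists_roots_pair hRoots a e hfam hp hpN A hA σ hσ
  have hm : Ab.factorial ≠ 0 := (Nat.factorial_pos Ab).ne'
  have n1 : ‖(ζ : ℂ)‖ = 1 := by
    have : (ζ : ℂ) ^ Ab.factorial = 1 := by
      have := congrArg (Subtype.val) hζ
      simpa using this
    exact Complex.norm_eq_one_of_pow_eq_one this hm
  have n2 : ‖(ζ' : ℂ)‖ = 1 := by
    have : (ζ' : ℂ) ^ Ab.factorial = 1 := by
      have := congrArg (Subtype.val) hζ'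
      simpa using this
    exact Complex.norm_eq_one_of_pow_eq_one this hm
  rw [h1]
  have : ((ζ + ζ' : Zbar) : ℂ) = (ζ : ℂ) + (ζ' : ℂ) := rfl
  rw [this]
  calc ‖(ζ : ℂ) + (ζ' : ℂ)‖ ≤ ‖(ζ : ℂ)‖ + ‖(ζ' : ℂ)‖ := norm_add_le _ _
    _ = 2 := by rw [n1, n2]; norm_num

/-- The finite set of all sums and products of two `m`-th roots of unity. -/
noncomputable def rootSet (m : ℕ) : Finset Zbar :=
  open Classical in
  ((Polynomial.nthRootsFinset m (1 : Zbar)) ×ˢ (Polynomial.nthRootsFinset m (1 : Zbar))).image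
      (fun y => y.1 + y.2) ∪
    ((Polynomial.nthRootsFinset m (1 : Zbar)) ×ˢ (Polynomial.nthRootsFinset m (1 : Zbar))).image
      (fun y => y.1 * y.2)

theorem add_mem_rootSet {m : ℕ} (hm : 0 < m) {ζ ζ' : Zbar} (h : ζ ^ m = 1) (h' : ζ' ^ m = 1) :
    ζ + ζ' ∈ rootSet m := by
  classical
  rw [rootSet, Finset.mem_union]
  left
  rw [Finset.mem_image]
  exact ⟨(ζ, ζ'), Finset.mem_product.mpr ⟨(Polynomial.mem_nthRootsFinset hm 1).mpr h,
    (Polynomial.mem_nthRootsFinset hm 1).mpr h'⟩, rfl⟩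

theorem mul_mem_rootSet {m : ℕ} (hm : 0 < m) {ζ ζ' : Zbar} (h : ζ ^ m = 1) (h' : ζ' ^ m = 1) :
    ζ * ζ' ∈ rootSet m := by
  classical
  rw [rootSet, Finset.mem_union]
  right
  rw [Finset.mem_image]
  exact ⟨(ζ, ζ'), Finset.mem_product.mpr ⟨(Polynomial.mem_nthRootsFinset hm 1).mpr h,
    (Polynomial.mem_nthRootsFinset hm 1).mpr h'⟩, rfl⟩

/-- Properties of the complex representation built from the prime `l`. -/
def GoodAway (N : ℕ) (a e : ℕ → ℂ) (m : ℕ) (l : ℕ) (ρ : Γℚ →* GL (Fin 2) ℂ) : Prop :=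
  GaloisFactorsThroughFiniteLevel ρ ∧ (∀ σ, (ρ σ) ^ m = 1) ∧
    ∀ p : ℕ, p.Prime → ¬ p ∣ N → p ≠ l → ∀ A : ValuationSubring Qbar, A.LiesOverPrime p →
      (∀ σ ∈ A.inertiaSubgroupIn ℚ, ρ σ = 1) ∧
      ∀ σ : Γℚ, A.IsFrobeniusAt σ p → Matrix.trace (ρ σ).1 = a p ∧ Matrix.det (ρ σ).1 = e p

/-- Step C: the complex representation attached to a good prime `l`. -/
theorem exists_goodAway (hRoots : RootsStmt) (hLift : LiftStmt) {N : ℕ} (a e : ℕ → ℂ)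
    {B0 : Finset ℕ} {Ab : ℕ} (hfam : BoundedFamily N a e B0 Ab) {l : ℕ} (hl : l.Prime)
    (hlB : l ∉ B0) (hlA : Ab < l)
    (hinj : ∀ (k : Type) [Field k] [CharP k l] (φ : Zbar →+* k),
      Set.InjOn φ (rootSet Ab.factorial : Set Zbar)) :
    ∃ ρ : Γℚ →* GL (Fin 2) ℂ, GoodAway N a e Ab.factorial l ρ := by
  classical
  set m : ℕ := Ab.factorial with hm
  have hmpos : 0 < m := Nat.factorial_pos Ab
  obtain ⟨k, hk1, hk2, φ, hsurj⟩ := GlueZbar.exists_residue_field l hl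
  obtain ⟨r, hr, hfin, hcard, hrp⟩ := hfam l hl hlB k φ
  have hcardk : (Nat.card r.range : k) ≠ 0 := by
    intro h0
    have hdvd : l ∣ Nat.card r.range := (CharP.cast_eq_zero_iff k l _).mp h0
    have hpos : 0 < Nat.card r.range := Nat.card_pos
    have := Nat.le_of_dvd hpos hdvd
    omega
  obtain ⟨ρ₀, hρ₀⟩ := hLift k φ hsurj r.range r.range.subtype hcardk
  refine ⟨ρ₀.comp r.rangeRestrict, ?_, ?_, ?_⟩
  · obtain ⟨L, hL, hfix⟩ := hr
    refine ⟨L, hL, fun σ hσ => ?_⟩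
    have h1 : r.rangeRestrict σ = 1 := Subtype.ext (hfix σ hσ)
    rw [MonoidHom.comp_apply, h1, map_one]
  · intro σ
    have h1 : (r.rangeRestrict σ) ^ m = 1 := by
      apply Subtype.ext
      have := pow_factorial_eq_one r.range hcard (g := r σ) ⟨σ, rfl⟩
      simpa using this
    rw [MonoidHom.comp_apply, ← map_pow, h1, map_one]
  · intro p hp hpN hpl A hA
    refine ⟨fun σ hσ => ?_, fun σ hσ => ?_⟩
    · have h1 : r.rangeRestrict σ = 1 := Subtype.ext ((hrp p hp hpN hpl A hA).1 σ hσ)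
      rw [MonoidHom.comp_apply, h1, map_one]
    · -- the exact values
      obtain ⟨ζ₁, ζ₁', hζ₁, hζ₁', ha, he⟩ := exists_roots_pair hRoots a e hfam hp hpN A hA σ hσ
      obtain ⟨t, d, ht, hd, h1, h2⟩ := (hrp p hp hpN hpl A hA).2 σ hσ
      have et : t = ζ₁ + ζ₁' := Subtype.ext (ht.trans ha)
      have ed : d = ζ₁ * ζ₁' := Subtype.ext (hd.trans he)
      obtain ⟨t', d', ht', hd', h3, h4⟩ := hρ₀ (r.rangeRestrict σ)
      have hpow : ((ρ₀.comp r.rangeRestrict) σ) ^ m = 1 := by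
        have h1 : (r.rangeRestrict σ) ^ m = 1 := by
          apply Subtype.ext
          have := pow_factorial_eq_one r.range hcard (g := r σ) ⟨σ, rfl⟩
          simpa using this
        rw [MonoidHom.comp_apply, ← map_pow, h1, map_one]
      have hmC : (m : ℂ) ≠ 0 := by exact_mod_cast hmpos.ne'
      obtain ⟨ζ₂, ζ₂', hζ₂, hζ₂', h5, h6⟩ := hRoots ℂ (integralClosure ℤ ℂ).val.toRingHom m hmC
        ((ρ₀.comp r.rangeRestrict) σ) hpow
      have h5' : Matrix.trace ((ρ₀.comp r.rangeRestrict) σ).1 = ((ζ₂ + ζ₂' : Zbar) : ℂ) := h5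
      have h6' : Matrix.det ((ρ₀.comp r.rangeRestrict) σ).1 = ((ζ₂ * ζ₂' : Zbar) : ℂ) := h6
      have et' : t' = ζ₂ + ζ₂' := Subtype.ext (ht'.trans h5')
      have ed' : d' = ζ₂ * ζ₂' := Subtype.ext (hd'.trans h6')
      have hφt : φ t' = φ t := by
        rw [h3, ← h1]
        rfl
      have hφd : φ d' = φ d := by
        rw [h4, ← h2]
        rfl
      have hZt' : t' ∈ (rootSet m : Set Zbar) := by
        rw [et']; exact add_mem_rootSet hmpos hζ₂ hζ₂'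
      have hZt : t ∈ (rootSet m : Set Zbar) := by
        rw [et]; exact add_mem_rootSet hmpos hζ₁ hζ₁'
      have hZd' : d' ∈ (rootSet m : Set Zbar) := by
        rw [ed']; exact mul_mem_rootSet hmpos hζ₂ hζ₂'
      have hZd : d ∈ (rootSet m : Set Zbar) := by
        rw [ed]; exact mul_mem_rootSet hmpos hζ₁ hζ₁'
      have e1 : t' = t := hinj k φ hZt' hZt hφt
      have e2 : d' = d := hinj k φ hZd' hZd hφd
      exact ⟨by rw [← ht, ← e1, ht']; rfl, by rw [← hd, ← e2, hd']; rfl⟩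

/-- Step D: two representations good away from two different primes have the same traces and
determinants. -/
theorem trace_det_eq_of_goodAway (hTP : TracePowStmt) {N : ℕ} (hN : N ≠ 0) (a e : ℕ → ℂ) {m : ℕ}
    {l₁ l₂ : ℕ} {ρ₁ ρ₂ : Γℚ →* GL (Fin 2) ℂ} (h₁ : GoodAway N a e m l₁ ρ₁)
    (h₂ : GoodAway N a e m l₂ ρ₂) (σ : Γℚ) :
    Matrix.trace (ρ₁ σ).1 = Matrix.trace (ρ₂ σ).1 ∧ Matrix.det (ρ₁ σ).1 = Matrix.det (ρ₂ σ).1 := by
  classical
  obtain ⟨⟨L₁, hL₁, hfix₁⟩, -, hp₁⟩ := h₁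
  obtain ⟨⟨L₂, hL₂, hfix₂⟩, -, hp₂⟩ := h₂
  have : FiniteDimensional ℚ ↥(L₁ ⊔ L₂) := IntermediateField.finiteDimensional_sup L₁ L₂
  obtain ⟨ℓ, hℓ, hℓS, A, τ, k, j, hA, hτ, hσk, -⟩ :=
    Fermat.Agent.Frob.exists_frobenius_generating (L₁ ⊔ L₂) (N.primeFactors ∪ {l₁, l₂}) σ
  rw [Finset.mem_union, not_or, Finset.mem_insert, Finset.mem_singleton, not_or] at hℓS
  have hℓN : ¬ ℓ ∣ N := fun hd => hℓS.1 (Nat.mem_primeFactors.mpr ⟨hℓ, hd, hN⟩)
  have key : ∀ (ρ : Γℚ →* GL (Fin 2) ℂ) (L : IntermediateField ℚ Qbar), L ≤ L₁ ⊔ L₂ →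
      (∀ σ : Γℚ, (∀ x ∈ L, σ x = x) → ρ σ = 1) → ρ σ = (ρ τ) ^ k := by
    intro ρ L hLle hfix
    have h1 : ρ ((τ ^ k)⁻¹ * σ) = 1 := by
      apply hfix
      intro x hx
      have h2 : σ x = (τ ^ k) x := hσk x (hLle hx)
      show (τ ^ k)⁻¹ (σ x) = x
      rw [h2]
      exact (τ ^ k).symm_apply_apply x
    rw [map_mul, map_inv, map_pow, inv_mul_eq_one] at h1
    exact h1.symm
  have e₁ := key ρ₁ L₁ le_sup_left hfix₁
  have e₂ := key ρ₂ L₂ le_sup_right hfix₂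
  obtain ⟨t₁, d₁⟩ := (hp₁ ℓ hℓ hℓN hℓS.2.1 A hA).2 τ hτ
  obtain ⟨t₂, d₂⟩ := (hp₂ ℓ hℓ hℓN hℓS.2.2 A hA).2 τ hτ
  have hv : ∀ g : GL (Fin 2) ℂ, ((g ^ k : GL (Fin 2) ℂ)).1 = g.1 ^ k := fun g =>
    Units.val_pow_eq_pow_val g k
  rw [e₁, e₂, hv, hv]
  refine ⟨hTP _ _ (t₁.trans t₂.symm) (d₁.trans d₂.symm) k, ?_⟩
  rw [Matrix.det_pow, Matrix.det_pow, d₁, d₂]

/-- **The glue theorem.** -/
theorem exists_rep (hK : ChebHom.ChebSymK) (hSS : SemisimplifyStmt) (hT2 : TraceTwoStmt)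
    (hRoots : RootsStmt) (hTP : TracePowStmt) (hLift : LiftStmt) {N : ℕ} (hN : N ≠ 0)
    (a e : ℕ → ℂ) (hRes : ResidualFamily N a e) (hDens : DensityBound N a e)
    (hIrr : (∀ p : ℕ, p.Prime → ¬ p ∣ N → ‖a p‖ ≤ 2) → ∀ ρ : Γℚ →* GL (Fin 2) ℂ,
      GaloisFactorsThroughFiniteLevel ρ →
      (∀ p : ℕ, p.Prime → ¬ p ∣ N → ∀ A : ValuationSubring Qbar, A.LiesOverPrime p →
        ∀ σ : Γℚ, A.IsFrobeniusAt σ p → Matrix.trace (ρ σ).1 = a p) →
      (Deformation.matrixRepresentation ρ).IsIrreducible) :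
    ∃ ρ : Γℚ →* GL (Fin 2) ℂ, GaloisFactorsThroughFiniteLevel ρ ∧
      (Deformation.matrixRepresentation ρ).IsIrreducible ∧
      ∀ p : ℕ, p.Prime → ¬ p ∣ N →
        ∀ A : ValuationSubring Qbar, A.LiesOverPrime p →
          (∀ σ ∈ A.inertiaSubgroupIn ℚ, ρ σ = 1) ∧
          ∀ σ : Γℚ, A.IsFrobeniusAt σ p →
            Matrix.trace (ρ σ).1 = a p ∧ Matrix.det (ρ σ).1 = e p := by
  classical
  obtain ⟨B0, Ab, hfam⟩ := exists_boundedFamily hK hSS hN a e hRes hDens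
  set m : ℕ := Ab.factorial with hm
  have hmpos : 0 < m := Nat.factorial_pos Ab
  obtain ⟨B1, hB1⟩ := GlueZbar.exists_bad_primes_injOn (rootSet m)
  -- two good primes
  have hinf := GluePigeon.infinite_good_primes (B0 ∪ B1) Ab
  obtain ⟨l₁, ⟨hl₁, hl₁B, hl₁A⟩⟩ := hinf.nonempty
  obtain ⟨l₂, ⟨hl₂, hl₂B, hl₂A⟩, hne⟩ := hinf.exists_notMem_finset {l₁}
  rw [Finset.mem_singleton] at hne
  rw [Finset.mem_union, not_or] at hl₁B hl₂B
  obtain ⟨ρ₁, hρ₁⟩ := exists_goodAway hRoots hLift a e hfam hl₁ hl₁B.1 hl₁A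
    (fun k _ _ φ => hB1 l₁ hl₁ hl₁B.2 k φ)
  obtain ⟨ρ₂, hρ₂⟩ := exists_goodAway hRoots hLift a e hfam hl₂ hl₂B.1 hl₂A
    (fun k _ _ φ => hB1 l₂ hl₂ hl₂B.2 k φ)
  have hcmp := trace_det_eq_of_goodAway hTP hN a e hρ₁ hρ₂
  have hker : ∀ σ : Γℚ, ρ₂ σ = 1 → ρ₁ σ = 1 := by
    intro σ h2
    apply hT2 (ρ₁ σ) m hmpos (hρ₁.2.1 σ)
    rw [(hcmp σ).1, h2]
    simp [Matrix.trace_one]
  have hmain : ∀ p : ℕ, p.Prime → ¬ p ∣ N →
      ∀ A : ValuationSubring Qbar, A.LiesOverPrime p →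
        (∀ σ ∈ A.inertiaSubgroupIn ℚ, ρ₁ σ = 1) ∧
        ∀ σ : Γℚ, A.IsFrobeniusAt σ p →
          Matrix.trace (ρ₁ σ).1 = a p ∧ Matrix.det (ρ₁ σ).1 = e p := by
    intro p hp hpN A hA
    by_cases hpl : p = l₁
    · have hpl₂ : p ≠ l₂ := fun h => hne (h.symm.trans hpl)
      obtain ⟨hin, hfr⟩ := hρ₂.2.2 p hp hpN hpl₂ A hA
      refine ⟨fun σ hσ => hker σ (hin σ hσ), fun σ hσ => ?_⟩
      obtain ⟨h1, h2⟩ := hfr σ hσ
      exact ⟨by rw [(hcmp σ).1, h1], by rw [(hcmp σ).2, h2]⟩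
    · exact hρ₁.2.2 p hp hpN hpl A hA
  refine ⟨ρ₁, hρ₁.1, ?_, hmain⟩
  exact hIrr (fun p hp hpN => norm_le_two hRoots a e hfam hp hpN) ρ₁ hρ₁.1
    (fun p hp hpN A hA σ hσ => ((hmain p hp hpN A hA).2 σ hσ).1)

end Fermat.Agent.DS.Glue
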