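/-
DS (S48, Deligne–Serre), layer GLUE-ALG: pure algebra of `2 × 2` matrices used by the glue.

* `trace_pow_eq_of_trace_det_eq`: the traces of the powers are determined by trace and
  determinant (Cayley–Hamilton recursion);
* `eq_one_of_trace_eq_two`: an element of finite order of `GL₂(ℂ)` with trace `2` is `1`;
* `exists_rootsOfUnity_trace_det`: an element of `GL₂(k)` of order dividing `m` has trace and
  determinant of the form `φ (ζ + ζ')`, `φ (ζ * ζ')` with `ζ, ζ'` `m`-th roots of unity among the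
  algebraic integers of `ℂ`, for every ring homomorphism `φ : integralClosure ℤ ℂ →+* k`;
* `exists_semisimplification`: a homomorphism `Γ → GL₂(k)` has a "semisimplification" with the
  same traces and determinants, whose kernel contains the kernel of the original one, and whose
  image is `GroupBound.LineSemisimple`.
-/
import Mathlib
import Fermat.Agent.DS.GroupBound

set_option autoImplicit false

namespace Fermat.Agent.DS.GlueAlg

open Matrix Polynomial

/-! ### Eigenvectors of `2 × 2` matrices -/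

/-- An eigenvalue of a `2 × 2` matrix is a root of `X² - tr X + det`. -/
theorem sq_sub_trace_mul_add_det_eq_zero {k : Type*} [Field k] (M : Matrix (Fin 2) (Fin 2) k)
    {c : k} {v : Fin 2 → k} (hv : v ≠ 0) (h : M *ᵥ v = c • v) :
    c ^ 2 - M.trace * c + M.det = 0 := by
  have h0 : (M - c • (1 : Matrix (Fin 2) (Fin 2) k)) *ᵥ v = 0 := by
    rw [Matrix.sub_mulVec, Matrix.smul_mulVec, Matrix.one_mulVec, h, sub_self]
  have hdet : (M - c • (1 : Matrix (Fin 2) (Fin 2) k)).det = 0 :=
    Matrix.exists_mulVec_eq_zero_iff.mp ⟨v, hv, h0⟩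
  rw [Matrix.det_fin_two] at hdet
  simp only [Matrix.sub_apply, Matrix.smul_apply, Matrix.one_apply_eq, smul_eq_mul, mul_one,
    Matrix.one_apply_ne (show (0 : Fin 2) ≠ 1 by decide),
    Matrix.one_apply_ne (show (1 : Fin 2) ≠ 0 by decide), mul_zero, sub_zero] at hdet
  rw [Matrix.trace_fin_two, Matrix.det_fin_two]
  linear_combination hdet

/-- A root of `X² - tr X + det` is an eigenvalue. -/
theorem exists_eigenvector {k : Type*} [Field k] (M : Matrix (Fin 2) (Fin 2) k) (c : k)
    (hc : c ^ 2 - M.trace * c + M.det = 0) : ∃ v : Fin 2 → k, v ≠ 0 ∧ M *ᵥ v = c • v := by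
  have hdet : (M - c • (1 : Matrix (Fin 2) (Fin 2) k)).det = 0 := by
    rw [Matrix.det_fin_two]
    simp only [Matrix.sub_apply, Matrix.smul_apply, Matrix.one_apply_eq, smul_eq_mul, mul_one,
      Matrix.one_apply_ne (show (0 : Fin 2) ≠ 1 by decide),
      Matrix.one_apply_ne (show (1 : Fin 2) ≠ 0 by decide), mul_zero, sub_zero]
    rw [Matrix.trace_fin_two, Matrix.det_fin_two] at hc
    linear_combination hc
  obtain ⟨v, hv, hMv⟩ := Matrix.exists_mulVec_eq_zero_iff.mpr hdet
  refine ⟨v, hv, ?_⟩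
  rw [Matrix.sub_mulVec, Matrix.smul_mulVec, Matrix.one_mulVec, sub_eq_zero] at hMv
  exact hMv

/-- Powers act on an eigenvector by powers of the eigenvalue. -/
theorem pow_mulVec_eq {k : Type*} [Field k] (M : Matrix (Fin 2) (Fin 2) k) (c : k)
    (v : Fin 2 → k) (h : M *ᵥ v = c • v) (j : ℕ) : (M ^ j) *ᵥ v = c ^ j • v := by
  induction j with
  | zero => simp
  | succ j ih =>
    rw [pow_succ, ← Matrix.mulVec_mulVec, h, Matrix.mulVec_smul, ih, smul_smul, pow_succ, mul_comm]

/-- An eigenvalue of a matrix of order dividing `m` is an `m`-th root of unity. -/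
theorem pow_eq_one_of_eigen {k : Type*} [Field k] (M : Matrix (Fin 2) (Fin 2) k) {m : ℕ}
    (hM : M ^ m = 1) {c : k} {v : Fin 2 → k} (hv : v ≠ 0) (h : M *ᵥ v = c • v) : c ^ m = 1 := by
  have h1 := pow_mulVec_eq M c v h m
  rw [hM, Matrix.one_mulVec] at h1
  have h2 : (c ^ m - 1) • v = 0 := by rw [sub_smul, one_smul, ← h1, sub_self]
  rcases smul_eq_zero.mp h2 with h3 | h3
  · exact sub_eq_zero.mp h3
  · exact absurd h3 hv

/-! ### (d') traces of powers -/

/-- The recursion `tr (A^(j+2)) = tr A · tr (A^(j+1)) - det A · tr (A^j)`. -/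
theorem trace_pow_add_two {k : Type*} [Field k] (A : Matrix (Fin 2) (Fin 2) k) (j : ℕ) :
    (A ^ (j + 2)).trace = A.trace * (A ^ (j + 1)).trace - A.det * (A ^ j).trace := by
  have h2 : A ^ (j + 2) = A ^ j * (A * A) := by rw [pow_add, pow_two]
  rw [h2, GroupBound.mul_self_eq, mul_sub, Matrix.mul_smul, Matrix.mul_smul, mul_one, ← pow_succ,
    Matrix.trace_sub, Matrix.trace_smul, Matrix.trace_smul, smul_eq_mul, smul_eq_mul]

/-- **(d')** The traces of the powers of a `2 × 2` matrix are determined by its trace and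
determinant. -/
theorem trace_pow_eq_of_trace_det_eq {k : Type*} [Field k] (g h : Matrix (Fin 2) (Fin 2) k)
    (ht : g.trace = h.trace) (hd : g.det = h.det) (j : ℕ) : (g ^ j).trace = (h ^ j).trace := by
  induction j using Nat.strong_induction_on with
  | _ j ih =>
    match j, ih with
    | 0, _ => simp
    | 1, _ => simpa using ht
    | (j + 2), ih =>
      rw [trace_pow_add_two g j, trace_pow_add_two h j, ih (j + 1) (by omega), ih j (by omega),
        ht, hd]

/-! ### (b') finite order and trace `2` -/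

/-- **(b')** An element of finite order of `GL₂(ℂ)` with trace `2` is the identity. -/
theorem eq_one_of_trace_eq_two {g : GL (Fin 2) ℂ} {m : ℕ} (hm : 0 < m) (hg : g ^ m = 1)
    (ht : Matrix.trace g.1 = 2) : g = 1 := by
  set M : Matrix (Fin 2) (Fin 2) ℂ := g.1 with hM
  have hMm : M ^ m = 1 := by
    have := congrArg (fun x : GL (Fin 2) ℂ => (x : Matrix (Fin 2) (Fin 2) ℂ)) hg
    simpa using this
  -- a root `lam` of `X² - 2X + det`
  obtain ⟨w, hw⟩ := IsAlgClosed.exists_pow_nat_eq (1 - M.det) (n := 2) (by norm_num)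
  set lam : ℂ := 1 + w with hlam
  set mu : ℂ := 1 - w with hmu
  have hlam_root : lam ^ 2 - M.trace * lam + M.det = 0 := by
    rw [ht, hlam]; linear_combination hw
  have hmu_root : mu ^ 2 - M.trace * mu + M.det = 0 := by
    rw [ht, hmu]; linear_combination hw
  obtain ⟨v, hv, hMv⟩ := exists_eigenvector M lam hlam_root
  obtain ⟨v', hv', hMv'⟩ := exists_eigenvector M mu hmu_root
  have h1 : lam ^ m = 1 := pow_eq_one_of_eigen M hMm hv hMv
  have h2 : mu ^ m = 1 := pow_eq_one_of_eigen M hMm hv' hMv'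
  have n1 : ‖lam‖ = 1 := Complex.norm_eq_one_of_pow_eq_one h1 hm.ne'
  have n2 : ‖mu‖ = 1 := Complex.norm_eq_one_of_pow_eq_one h2 hm.ne'
  have r1 : lam.re ≤ 1 := n1 ▸ Complex.re_le_norm lam
  have r2 : mu.re ≤ 1 := n2 ▸ Complex.re_le_norm mu
  have hsum : lam.re + mu.re = 2 := by
    have : lam + mu = 2 := by rw [hlam, hmu]; ring
    have := congrArg Complex.re this
    simpa using this
  have hre : lam.re = 1 := by linarith
  have him : lam.im = 0 := by
    have h3 : ‖lam‖ ^ 2 = lam.re ^ 2 + lam.im ^ 2 := by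
      rw [Complex.sq_norm, Complex.normSq_apply]; ring
    rw [n1, hre] at h3
    have : lam.im ^ 2 = 0 := by linarith
    exact pow_eq_zero_iff (two_ne_zero) |>.mp this
  have hlam1 : lam = 1 := Complex.ext (by simpa using hre) (by simpa using him)
  have hdet : M.det = 1 := by
    have := hlam_root
    rw [hlam1, ht] at this
    linear_combination this
  -- nilpotent part
  set Nn : Matrix (Fin 2) (Fin 2) ℂ := M - 1 with hN
  have hNN : Nn * Nn = 0 := by
    have h4 := GroupBound.mul_self_eq M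
    rw [ht, hdet] at h4
    rw [hN, sub_mul, mul_sub, mul_sub, mul_one, one_mul, mul_one, h4]
    rw [two_smul, one_smul]
    abel
  have hpow : ∀ j : ℕ, M ^ j = 1 + (j : ℂ) • Nn := by
    intro j
    induction j with
    | zero => simp
    | succ j ih =>
      have hM1 : M = 1 + Nn := by rw [hN]; abel
      have hstep : (1 + (j : ℂ) • Nn) * (1 + Nn) = 1 + ((j + 1 : ℕ) : ℂ) • Nn := by
        have e : (1 + (j : ℂ) • Nn) * (1 + Nn) =
            1 + Nn + (j : ℂ) • Nn + (j : ℂ) • (Nn * Nn) := by
          simp only [add_mul, mul_add, one_mul, mul_one, smul_mul_assoc]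
          abel
        rw [e, hNN, smul_zero, add_zero]
        push_cast
        rw [add_smul, one_smul]
        abel
      calc M ^ (j + 1) = M ^ j * M := pow_succ M j
        _ = (1 + (j : ℂ) • Nn) * (1 + Nn) := by rw [ih]; congr 1
        _ = 1 + ((j + 1 : ℕ) : ℂ) • Nn := hstep
  have h5 := hpow m
  rw [hMm] at h5
  have h6 : (m : ℂ) • Nn = 0 := by
    have := h5.symm
    simpa using this
  have h7 : Nn = 0 := by
    rcases smul_eq_zero.mp h6 with h | h
    · exact absurd h (by exact_mod_cast hm.ne')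
    · exact h
  have h8 : M = 1 := by rw [hN] at h7; exact sub_eq_zero.mp h7
  exact Units.ext h8

/-! ### (c') roots of unity -/

/-- Every `m`-th root of unity of a field `k` is the image of an `m`-th root of unity of the
algebraic integers of `ℂ` under any ring homomorphism `integralClosure ℤ ℂ →+* k`. -/
theorem exists_zbar_root_of_pow_eq_one {k : Type*} [Field k] (φ : integralClosure ℤ ℂ →+* k)
    {m : ℕ} (hm : 0 < m) (c : k) (hc : c ^ m = 1) :
    ∃ ζ : integralClosure ℤ ℂ, ζ ^ m = 1 ∧ φ ζ = c := by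
  classical
  set S : Finset ℂ := Polynomial.nthRootsFinset m (1 : ℂ) with hS
  have hSmem : ∀ z ∈ S, z ^ m = 1 := fun z hz => (Polynomial.mem_nthRootsFinset hm 1).mp hz
  have hSint : ∀ z ∈ S, z ∈ integralClosure ℤ ℂ := by
    intro z hz
    have h1 : IsIntegral ℤ (z ^ m) := by rw [hSmem z hz]; exact isIntegral_one
    exact IsIntegral.of_pow hm h1
  -- the lifted polynomial
  let F : S → integralClosure ℤ ℂ := fun z => ⟨z.1, hSint z.1 z.2⟩
  let P : Polynomial (integralClosure ℤ ℂ) := ∏ z ∈ S.attach, (X - C (F z))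
  have hprim : IsPrimitiveRoot (Complex.exp (2 * Real.pi * Complex.I / m)) m :=
    Complex.isPrimitiveRoot_exp m hm.ne'
  have hPC : P.map (algebraMap (integralClosure ℤ ℂ) ℂ) = X ^ m - 1 := by
    rw [Polynomial.X_pow_sub_one_eq_prod hm hprim, ← hS, ← Finset.prod_attach S]
    simp only [P, Polynomial.map_prod, Polynomial.map_sub, Polynomial.map_X, Polynomial.map_C]
    rfl
  have hP : P = X ^ m - 1 := by
    apply Polynomial.map_injective (algebraMap (integralClosure ℤ ℂ) ℂ)
      (FaithfulSMul.algebraMap_injective _ _)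
    rw [hPC]
    simp
  have hPk : (P.map φ).eval c = 0 := by
    rw [hP]
    simp [hc]
  simp only [P, Polynomial.map_prod, Polynomial.map_sub, Polynomial.map_X, Polynomial.map_C,
    Polynomial.eval_prod, Polynomial.eval_sub, Polynomial.eval_X, Polynomial.eval_C] at hPk
  obtain ⟨z, _, hz⟩ := Finset.prod_eq_zero_iff.mp hPk
  refine ⟨F z, ?_, (sub_eq_zero.mp hz).symm⟩
  apply Subtype.ext
  simp only [F, SubmonoidClass.coe_pow, OneMemClass.coe_one]
  exact hSmem z.1 z.2

/-- **(c')** Trace and determinant of an element of `GL₂(k)` of order dividing `m` are of the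
form `φ (ζ + ζ')`, `φ (ζ ζ')` with `ζ, ζ'` `m`-th roots of unity in `integralClosure ℤ ℂ`. -/
theorem exists_rootsOfUnity_trace_det {k : Type*} [Field k] (φ : integralClosure ℤ ℂ →+* k)
    {m : ℕ} (hm : (m : k) ≠ 0) (g : GL (Fin 2) k) (hg : g ^ m = 1) :
    ∃ ζ ζ' : integralClosure ℤ ℂ, ζ ^ m = 1 ∧ ζ' ^ m = 1 ∧
      Matrix.trace g.1 = φ (ζ + ζ') ∧ Matrix.det g.1 = φ (ζ * ζ') := by
  classical
  have hm0 : 0 < m := by
    rcases Nat.eq_zero_or_pos m with h | h
    · rw [h] at hm; simp at hm
    · exact h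
  set M : Matrix (Fin 2) (Fin 2) k := g.1 with hM
  have hMm : M ^ m = 1 := by
    have := congrArg (fun x : GL (Fin 2) k => (x : Matrix (Fin 2) (Fin 2) k)) hg
    simpa using this
  -- a first eigenvalue, over the algebraic closure
  let K := AlgebraicClosure k
  let ι : k →+* K := algebraMap k K
  have hι : Function.Injective ι := (algebraMap k K).injective
  obtain ⟨c, hc⟩ : ∃ c : K, c ^ 2 - ι M.trace * c + ι M.det = 0 := by
    have hdeg : (X ^ 2 - C (ι M.trace) * X + C (ι M.det) : Polynomial K).degree = 2 := by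
      compute_degree!
    obtain ⟨u, hu⟩ := IsAlgClosed.exists_root
      (X ^ 2 - C (ι M.trace) * X + C (ι M.det) : Polynomial K) (by rw [hdeg]; norm_num)
    refine ⟨u, ?_⟩
    simpa [Polynomial.IsRoot] using hu
  set MK : Matrix (Fin 2) (Fin 2) K := M.map ι with hMK
  have hMKtr : MK.trace = ι M.trace := by
    rw [hMK, Matrix.trace_fin_two, Matrix.trace_fin_two]; simp
  have hMKdet : MK.det = ι M.det := by
    rw [hMK, Matrix.det_fin_two, Matrix.det_fin_two]; simp
  have hMKm : MK ^ m = 1 := by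
    rw [hMK, ← Matrix.map_pow, hMm]
    simp
  obtain ⟨v, hv, hMv⟩ := exists_eigenvector MK c (by rw [hMKtr, hMKdet]; exact hc)
  have hcm : c ^ m = 1 := pow_eq_one_of_eigen MK hMKm hv hMv
  obtain ⟨ζ, hζ, hζc⟩ := exists_zbar_root_of_pow_eq_one (ι.comp φ) hm0 c hcm
  -- back in `k`
  set c₀ : k := φ ζ with hc₀
  have hc₀root : c₀ ^ 2 - M.trace * c₀ + M.det = 0 := by
    apply hι
    rw [map_zero, map_add, map_sub, map_mul, map_pow]
    have : ι c₀ = c := hζc
    rw [this]
    exact hc
  have hc₀m : c₀ ^ m = 1 := by rw [hc₀, ← map_pow, hζ, map_one]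
  set c₁ : k := M.trace - c₀ with hc₁
  have hc₁root : c₁ ^ 2 - M.trace * c₁ + M.det = 0 := by
    rw [hc₁]; linear_combination hc₀root
  obtain ⟨v₁, hv₁, hMv₁⟩ := exists_eigenvector M c₁ hc₁root
  have hc₁m : c₁ ^ m = 1 := pow_eq_one_of_eigen M hMm hv₁ hMv₁
  obtain ⟨ζ', hζ', hζ'c⟩ := exists_zbar_root_of_pow_eq_one φ hm0 c₁ hc₁m
  refine ⟨ζ, ζ', hζ, hζ', ?_, ?_⟩
  · rw [map_add, hζ'c, ← hc₀, hc₁]; ring
  · rw [map_mul, hζ'c, ← hc₀, hc₁]; linear_combination hc₀root

/-! ### (a) semisimplification -/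

/-- The diagonal embedding `kˣ × kˣ → GL₂(k)`. -/
def diagGL (k : Type*) [Field k] : kˣ × kˣ →* GL (Fin 2) k where
  toFun p :=
    ⟨Matrix.diagonal ![(p.1 : k), (p.2 : k)],
      Matrix.diagonal ![((p.1⁻¹ : kˣ) : k), ((p.2⁻¹ : kˣ) : k)], by
        rw [Matrix.diagonal_mul_diagonal, ← Matrix.diagonal_one]
        congr 1
        funext i
        fin_cases i <;> simp, by
        rw [Matrix.diagonal_mul_diagonal, ← Matrix.diagonal_one]
        congr 1
        funext i
        fin_cases i <;> simp⟩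
  map_one' := by
    apply Units.ext
    show Matrix.diagonal ![((1 : kˣ × kˣ).1 : k), ((1 : kˣ × kˣ).2 : k)] = 1
    rw [← Matrix.diagonal_one]
    congr 1
    funext i
    fin_cases i <;> simp
  map_mul' p q := by
    apply Units.ext
    show Matrix.diagonal ![((p * q).1 : k), ((p * q).2 : k)] =
      Matrix.diagonal ![(p.1 : k), (p.2 : k)] * Matrix.diagonal ![(q.1 : k), (q.2 : k)]
    rw [Matrix.diagonal_mul_diagonal]
    congr 1
    funext i
    fin_cases i <;> simp

theorem diagGL_coe (k : Type*) [Field k] (p : kˣ × kˣ) :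
    ((diagGL k p : GL (Fin 2) k) : Matrix (Fin 2) (Fin 2) k) =
      Matrix.diagonal ![(p.1 : k), (p.2 : k)] := rfl

theorem diagonal_mulVec_e0 {k : Type*} [Field k] (a b : k) :
    (Matrix.diagonal ![a, b]) *ᵥ ![1, 0] = a • ![1, 0] := by
  funext i
  fin_cases i <;> simp [Matrix.mulVec, dotProduct, Matrix.diagonal]

theorem diagonal_mulVec_e1 {k : Type*} [Field k] (a b : k) :
    (Matrix.diagonal ![a, b]) *ᵥ ![0, 1] = b • ![0, 1] := by
  funext i
  fin_cases i <;> simp [Matrix.mulVec, dotProduct, Matrix.diagonal]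

/-- A group of diagonal matrices is line-semisimple. -/
theorem lineSemisimple_of_diagonal {k : Type*} [Field k] (G : Subgroup (GL (Fin 2) k))
    (hG : ∀ g ∈ G, ∃ a b : k, (g : Matrix (Fin 2) (Fin 2) k) = Matrix.diagonal ![a, b]) :
    GroupBound.LineSemisimple G := by
  intro v hv _
  have he0 : GroupBound.StabLine G ![1, 0] := by
    intro g hg
    obtain ⟨a, b, hab⟩ := hG g hg
    exact ⟨a, by rw [hab, diagonal_mulVec_e0]⟩
  have he1 : GroupBound.StabLine G ![0, 1] := by
    intro g hg
    obtain ⟨a, b, hab⟩ := hG g hg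
    exact ⟨b, by rw [hab, diagonal_mulVec_e1]⟩
  by_cases h : ∃ c : k, (![1, 0] : Fin 2 → k) = c • v
  · refine ⟨![0, 1], ?_, he1⟩
    rintro ⟨c', hc'⟩
    obtain ⟨c, hc⟩ := h
    have h0 : (1 : k) = c * v 0 := by simpa using congrFun hc 0
    have h1 : (0 : k) = c * v 1 := by simpa using congrFun hc 1
    have h1' : (1 : k) = c' * v 1 := by simpa using congrFun hc' 1
    have hc0 : c ≠ 0 := by
      rintro rfl
      simp at h0
    have hv1 : v 1 = 0 := by
      rcases mul_eq_zero.mp h1.symm with h | h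
      · exact absurd h hc0
      · exact h
    rw [hv1, mul_zero] at h1'
    exact one_ne_zero h1'
  · exact ⟨![1, 0], h, he0⟩

/-- **(a)** Semisimplification of a homomorphism `Γ → GL₂(k)`: same traces and determinants,
bigger kernel, line-semisimple image. -/
theorem exists_semisimplification {k : Type*} [Field k] {Γ : Type*} [Group Γ]
    (r : Γ →* GL (Fin 2) k) :
    ∃ r' : Γ →* GL (Fin 2) k,
      (∀ g, Matrix.trace (r' g).1 = Matrix.trace (r g).1 ∧
        Matrix.det (r' g).1 = Matrix.det (r g).1) ∧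
      (∀ g, r g = 1 → r' g = 1) ∧ GroupBound.LineSemisimple r'.range := by
  classical
  by_cases hex : ∃ v : Fin 2 → k, v ≠ 0 ∧ GroupBound.StabLine r.range v
  · obtain ⟨v, hv, hstab⟩ := hex
    have hχ : ∀ g : Γ, ∃ c : k,
        ((r g : GL (Fin 2) k) : Matrix (Fin 2) (Fin 2) k) *ᵥ v = c • v :=
      fun g => hstab (r g) ⟨g, rfl⟩
    choose χ hχv using hχ
    have huniq : ∀ {a b : k}, a • v = b • v → a = b := by
      intro a b hab
      have : (a - b) • v = 0 := by rw [sub_smul, hab, sub_self]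
      rcases smul_eq_zero.mp this with h | h
      · exact sub_eq_zero.mp h
      · exact absurd h hv
    have hχone : χ 1 = 1 := by
      apply huniq
      rw [← hχv 1, map_one, one_smul]
      simp
    have hχmul : ∀ g h, χ (g * h) = χ g * χ h := by
      intro g h
      apply huniq
      rw [← hχv (g * h), map_mul, Units.val_mul, ← Matrix.mulVec_mulVec, hχv h,
        Matrix.mulVec_smul, hχv g, smul_smul, mul_comm]
    have hχne : ∀ g, χ g ≠ 0 := by
      intro g h0
      have h1 : χ (g * g⁻¹) = χ g * χ g⁻¹ := hχmul g g⁻¹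
      rw [mul_inv_cancel, hχone, h0, zero_mul] at h1
      exact one_ne_zero h1
    let χ₁ : Γ →* kˣ :=
      { toFun := fun g => Units.mk0 (χ g) (hχne g)
        map_one' := Units.ext hχone
        map_mul' := fun g h => Units.ext (hχmul g h) }
    let δ : Γ →* kˣ := (Matrix.GeneralLinearGroup.det).comp r
    let χ₂ : Γ →* kˣ := δ / χ₁
    let r' : Γ →* GL (Fin 2) k := (diagGL k).comp (χ₁.prod χ₂)
    have hr' : ∀ g, ((r' g : GL (Fin 2) k) : Matrix (Fin 2) (Fin 2) k) =
        Matrix.diagonal ![χ g, (r g).1.det / χ g] := by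
      intro g
      show ((diagGL k (χ₁ g, χ₂ g) : GL (Fin 2) k) : Matrix (Fin 2) (Fin 2) k) = _
      rw [diagGL_coe]
      have e1 : ((χ₁ g : kˣ) : k) = χ g := rfl
      have e2 : ((χ₂ g : kˣ) : k) = (r g).1.det / χ g := by
        show ((δ g / χ₁ g : kˣ) : k) = _
        rw [Units.val_div_eq_div_val, e1]
        rfl
      rw [e1, e2]
    have hroot : ∀ g, χ g ^ 2 - (r g).1.trace * χ g + (r g).1.det = 0 :=
      fun g => sq_sub_trace_mul_add_det_eq_zero (r g).1 hv (hχv g)
    refine ⟨r', ?_, ?_, ?_⟩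
    · intro g
      have h0 := hχne g
      constructor
      · rw [hr', Matrix.trace_fin_two]
        simp only [Matrix.diagonal_apply_eq, Matrix.cons_val_zero, Matrix.cons_val_one]
        field_simp
        linear_combination hroot g
      · rw [hr', Matrix.det_diagonal, Fin.prod_univ_two]
        simp only [Matrix.cons_val_zero, Matrix.cons_val_one]
        field_simp
    · intro g hg
      have h1 : χ g = 1 := by
        apply huniq
        rw [← hχv g, hg, one_smul]
        simp
      apply Units.ext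
      rw [hr', hg, h1]
      simp only [Units.val_one, Matrix.det_one, div_one]
      rw [← Matrix.diagonal_one]
      congr 1
      funext i
      fin_cases i <;> simp
    · apply lineSemisimple_of_diagonal
      rintro x ⟨g, rfl⟩
      exact ⟨_, _, hr' g⟩
  · refine ⟨r, fun g => ⟨rfl, rfl⟩, fun g hg => hg, ?_⟩
    intro v hv hst
    exact absurd ⟨v, hv, hst⟩ hex

end Fermat.Agent.DS.GlueAlg
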