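import Mathlib
import Fermat.Prelude.Def_GaloisRep_Residual
import Fermat.Agent.DS.Hecke1.Comm

/-!
# DS: the interface hypothesis `HES`

`HES` is the one input of the Deligne–Serre theorem (S48) that is not proved in `DS/`:
**mod `l` Galois representations attached to Hecke eigen-characters of `S₂(Γ₁(M))`.**

For every level `M`, every prime `l ≥ 5` dividing `M` (the only case used by the Deligne–Serre
argument, where `M = N l`), every field `k` of characteristic `l` and every ring
homomorphism `θ` from the Hecke algebra `𝕋 = ℤ[T_p, ⟨d⟩ : p ∤ M] ⊂ End_ℂ S₂(Γ₁(M))` to `k`, there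
is a representation `r : Gal(ℚ̄/ℚ) → GL₂(k)` of finite level which is unramified at all primes
`p ∤ M l`, with `trace r(Frob_p) = θ(T_p)` and `det r(Frob_p) = p θ(⟨p⟩)` — provided the Hecke
polynomials `X² - θ(T_p) X + p θ(⟨p⟩)` split in `k` (automatic for algebraically closed `k`, and
for the `θ` of the Deligne–Serre argument, whose values are reductions of algebraic integers).
-/

set_option autoImplicit false

namespace Fermat.Agent.DS

open CongruenceSubgroup

/-- **`H_ES`**: mod `l` Galois representations for Hecke eigen-characters of `S₂(Γ₁(M))`. -/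
def HES : Prop :=
  ∀ (M : ℕ) [NeZero M] (l : ℕ), l.Prime → 5 ≤ l → l ∣ M → ∀ (k : Type) [Field k] [CharP k l]
    (θ : Hecke1.heckeAlgebra M 2 →+* k),
    (∀ (p : ℕ) (hp : p.Prime) (hpM : ¬ p ∣ M), p ≠ l →
      ∃ α β : k, α + β = θ (Hecke1.heckeAlgebra.T hp hpM) ∧
        α * β = (p : k) * θ (Hecke1.heckeAlgebra.D (Hecke1.punit hp hpM))) →
    ∃ r : (AlgebraicClosure ℚ ≃ₐ[ℚ] AlgebraicClosure ℚ) →* GL (Fin 2) k,
      GaloisFactorsThroughFiniteLevel r ∧
      ∀ (p : ℕ) (hp : p.Prime) (hpM : ¬ p ∣ M), p ≠ l →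
        ∀ A : ValuationSubring (AlgebraicClosure ℚ), A.LiesOverPrime p →
          (∀ σ ∈ A.inertiaSubgroupIn ℚ, r σ = 1) ∧
          ∀ σ : (AlgebraicClosure ℚ ≃ₐ[ℚ] AlgebraicClosure ℚ), A.IsFrobeniusAt σ p →
            Matrix.trace (r σ).1 = θ (Hecke1.heckeAlgebra.T hp hpM) ∧
            Matrix.det (r σ).1 = (p : k) * θ (Hecke1.heckeAlgebra.D (Hecke1.punit hp hpM))

end Fermat.Agent.DS
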