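import Mathlib
import Fermat.Prelude.Def_GaloisRep_Residual
import Fermat.Prelude.Def_Deformations_MatrixRepresentation
import Fermat.Agent.DS.ChebHom
import Fermat.Agent.DS.Rankin

/-!
# DS / IRR: irreducibility of the Deligne–Serre representation

A representation `ρ : Gal(ℚ̄/ℚ) → GL₂(ℂ)` of finite level whose Frobenius traces `a p` satisfy the
sharp Rankin bound `∑_{p ∈ T} |a p|² p^(-s) ≤ log (1/(s-1)) + B` is irreducible: otherwise
`a p = χ₁(σ_p) + χ₂(σ_p)` for two characters of finite order, `|a p|² = 2 + 2 Re (χ₁/χ₂)(σ_p)`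
has mean value `≥ 2` on the image, and the symmetric Chebotarev density theorem (set form,
applied to the level sets of `g ↦ |tr g|²`) contradicts the bound as `s → 1⁺`.
-/

set_option autoImplicit false

namespace Fermat.Agent.DS.Irr

local notation "Qbar" => AlgebraicClosure ℚ
local notation "Γℚ" => (AlgebraicClosure ℚ ≃ₐ[ℚ] AlgebraicClosure ℚ)

open Matrix

/-! ### Reducible two-dimensional representations have an invariant line -/

/-- A two-dimensional matrix representation without invariant line is irreducible. -/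
theorem isIrreducible_of_no_invariant_line {G : Type} [Group G] (ρ : G →* GL (Fin 2) ℂ)
    (h : ∀ v : Fin 2 → ℂ, v ≠ 0 →
      ¬ ∀ g : G, ∃ c : ℂ, ((ρ g : GL (Fin 2) ℂ) : Matrix (Fin 2) (Fin 2) ℂ) *ᵥ v = c • v) :
    (Deformation.matrixRepresentation ρ).IsIrreducible := by
  have hbt : (⊥ : Subrepresentation (Deformation.matrixRepresentation ρ)) ≠ ⊤ := by
    intro hEq
    have h1 := congrArg Subrepresentation.toSubmodule hEq
    have h2 : (⊥ : Submodule ℂ (Fin 2 → ℂ)) = ⊤ := h1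
    exact bot_ne_top h2
  refine { exists_pair_ne := ⟨⊥, ⊤, hbt⟩, eq_bot_or_eq_top := fun W => ?_ }
  by_contra hW
  push Not at hW
  obtain ⟨hWb, hWt⟩ := hW
  have hWb' : W.toSubmodule ≠ ⊥ := fun h0 =>
    hWb (Subrepresentation.toSubmodule_injective h0)
  have hWt' : W.toSubmodule ≠ ⊤ := fun h0 =>
    hWt (Subrepresentation.toSubmodule_injective h0)
  have hlt : Module.finrank ℂ W.toSubmodule < Module.finrank ℂ (Fin 2 → ℂ) :=
    Submodule.finrank_lt hWt'
  have h2 : Module.finrank ℂ (Fin 2 → ℂ) = 2 := by simp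
  have hle : Module.finrank ℂ W.toSubmodule ≤ 1 := by omega
  obtain ⟨v, hv⟩ := finrank_le_one_iff.mp hle
  have hv0 : (v : Fin 2 → ℂ) ≠ 0 := by
    intro h0
    apply hWb'
    rw [Submodule.eq_bot_iff]
    intro w hw
    obtain ⟨c, hc⟩ := hv ⟨w, hw⟩
    have h3 := congrArg Subtype.val hc
    simp only [Submodule.coe_smul, h0, smul_zero] at h3
    exact h3.symm
  apply h v hv0
  intro g
  have hmem : Deformation.matrixRepresentation ρ g v ∈ W.toSubmodule :=
    W.apply_mem_toSubmodule g v.2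
  obtain ⟨c, hc⟩ := hv ⟨_, hmem⟩
  refine ⟨c, ?_⟩
  have h3 := congrArg Subtype.val hc
  simp only [Submodule.coe_smul, Deformation.matrixRepresentation_apply,
    Matrix.mulVecLin_apply] at h3
  exact h3.symm

/-! ### The eigenvalue on an invariant line -/

/-- An eigenvalue is a root of the characteristic polynomial (`2 × 2` case, by hand). -/
theorem charpoly_eigen (g : Matrix (Fin 2) (Fin 2) ℂ) (v : Fin 2 → ℂ) (hv : v ≠ 0) (c : ℂ)
    (hc : g *ᵥ v = c • v) : c * c - g.trace * c + g.det = 0 := by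
  have e1 : g 0 0 * v 0 + g 0 1 * v 1 = c * v 0 := by
    have := congrFun hc 0
    simpa [Matrix.mulVec, dotProduct, Fin.sum_univ_two] using this
  have e2 : g 1 0 * v 0 + g 1 1 * v 1 = c * v 1 := by
    have := congrFun hc 1
    simpa [Matrix.mulVec, dotProduct, Fin.sum_univ_two] using this
  rw [Matrix.trace_fin_two, Matrix.det_fin_two]
  have hv' : v 0 ≠ 0 ∨ v 1 ≠ 0 := by
    by_contra hcon
    push Not at hcon
    apply hv
    funext i
    fin_cases i
    · exact hcon.1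
    · exact hcon.2
  rcases hv' with h0 | h1
  · apply mul_right_cancel₀ h0
    linear_combination (g 1 1 - c) * e1 - g 0 1 * e2
  · apply mul_right_cancel₀ h1
    linear_combination (g 0 0 - c) * e2 - g 1 0 * e1

/-- The squared absolute value of the trace. -/
noncomputable def tr2 (g : GL (Fin 2) ℂ) : ℝ :=
  ‖Matrix.trace (g : Matrix (Fin 2) (Fin 2) ℂ)‖ ^ 2

theorem tr2_nonneg (g : GL (Fin 2) ℂ) : 0 ≤ tr2 g := sq_nonneg _

theorem tr2_conj (g h : GL (Fin 2) ℂ) : tr2 (h * g * h⁻¹) = tr2 g := by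
  unfold tr2
  have : Matrix.trace ((h * g * h⁻¹ : GL (Fin 2) ℂ) : Matrix (Fin 2) (Fin 2) ℂ) =
      Matrix.trace (g : Matrix (Fin 2) (Fin 2) ℂ) := by
    rw [Units.val_mul, Units.val_mul, Matrix.trace_mul_cycle, ← Units.val_mul, inv_mul_cancel,
      Units.val_one, one_mul]
  rw [this]

/-- The subgroup `H` preserves the line spanned by `v ≠ 0`. -/
def Stab (H : Subgroup (GL (Fin 2) ℂ)) (v : Fin 2 → ℂ) : Prop :=
  v ≠ 0 ∧ ∀ g ∈ H, ∃ c : ℂ, ((g : GL (Fin 2) ℂ) : Matrix (Fin 2) (Fin 2) ℂ) *ᵥ v = c • v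

section Line

variable {H : Subgroup (GL (Fin 2) ℂ)} {v : Fin 2 → ℂ}

/-- The eigenvalue of `g ∈ H` on the invariant line. -/
noncomputable def lam (h : Stab H v) (g : H) : ℂ := Classical.choose (h.2 g.1 g.2)

theorem lam_spec (h : Stab H v) (g : H) :
    ((g : GL (Fin 2) ℂ) : Matrix (Fin 2) (Fin 2) ℂ) *ᵥ v = lam h g • v :=
  Classical.choose_spec (h.2 g.1 g.2)

theorem lam_unique (h : Stab H v) (g : H) (c : ℂ)
    (hc : ((g : GL (Fin 2) ℂ) : Matrix (Fin 2) (Fin 2) ℂ) *ᵥ v = c • v) : lam h g = c := by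
  have h1 := lam_spec h g
  rw [hc] at h1
  have h2 : (c - lam h g) • v = 0 := by rw [sub_smul, h1, sub_self]
  rcases smul_eq_zero.mp h2 with h3 | h3
  · exact (sub_eq_zero.mp h3).symm
  · exact absurd h3 h.1

/-- The character by which `H` acts on the invariant line. -/
noncomputable def lineChar (h : Stab H v) : H →* ℂ where
  toFun := lam h
  map_one' := lam_unique h 1 1 (by simp)
  map_mul' g g' := lam_unique h (g * g') _ (by
    rw [Subgroup.coe_mul, Units.val_mul, ← Matrix.mulVec_mulVec, lam_spec h g', Matrix.mulVec_smul,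
      lam_spec h g, smul_smul, mul_comm])

theorem lineChar_spec (h : Stab H v) (g : H) :
    ((g : GL (Fin 2) ℂ) : Matrix (Fin 2) (Fin 2) ℂ) *ᵥ v = lineChar h g • v := lam_spec h g

theorem lineChar_ne_zero (h : Stab H v) (g : H) : lineChar h g ≠ 0 := by
  intro h0
  have h1 : lineChar h (g⁻¹ * g) = 1 := by rw [inv_mul_cancel, map_one]
  rw [map_mul, h0, mul_zero] at h1
  exact zero_ne_one h1

theorem norm_lineChar [Finite H] (h : Stab H v) (g : H) : ‖lineChar h g‖ = 1 := by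
  have hn : Nat.card H ≠ 0 := Nat.card_pos.ne'
  apply Complex.norm_eq_one_of_pow_eq_one _ hn
  rw [← map_pow, pow_card_eq_one', map_one]

/-- The determinant character. -/
noncomputable def detChar (H : Subgroup (GL (Fin 2) ℂ)) : H →* ℂ :=
  (Units.coeHom ℂ).comp (Matrix.GeneralLinearGroup.det.comp H.subtype)

theorem detChar_apply (g : H) :
    detChar H g = Matrix.det ((g : GL (Fin 2) ℂ) : Matrix (Fin 2) (Fin 2) ℂ) := rfl

theorem detChar_ne_zero (g : H) : detChar H g ≠ 0 := by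
  intro h0
  have h1 : detChar H (g⁻¹ * g) = 1 := by rw [inv_mul_cancel, map_one]
  rw [map_mul, h0, mul_zero] at h1
  exact zero_ne_one h1

theorem norm_detChar [Finite H] (g : H) : ‖detChar H g‖ = 1 := by
  have hn : Nat.card H ≠ 0 := Nat.card_pos.ne'
  apply Complex.norm_eq_one_of_pow_eq_one _ hn
  rw [← map_pow, pow_card_eq_one', map_one]

/-- The character `χ₁ / χ₂ = χ₁² / det`. -/
noncomputable def ratioChar (h : Stab H v) : H →* ℂ :=
  lineChar h * lineChar h *
    (Units.coeHom ℂ).comp ((Matrix.GeneralLinearGroup.det.comp H.subtype)⁻¹)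

theorem ratioChar_apply (h : Stab H v) (g : H) :
    ratioChar h g = lineChar h g * lineChar h g * (detChar H g)⁻¹ := by
  simp [ratioChar, detChar]

theorem ratioChar_inv (h : Stab H v) (g : H) : ratioChar h g⁻¹ = (ratioChar h g)⁻¹ := by
  apply eq_inv_of_mul_eq_one_left
  rw [← map_mul, inv_mul_cancel, map_one]

theorem norm_ratioChar [Finite H] (h : Stab H v) (g : H) : ‖ratioChar h g‖ = 1 := by
  rw [ratioChar_apply, norm_mul, norm_mul, norm_inv, norm_lineChar, norm_detChar]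
  norm_num

theorem trace_eq (h : Stab H v) (g : H) :
    Matrix.trace ((g : GL (Fin 2) ℂ) : Matrix (Fin 2) (Fin 2) ℂ) =
      lineChar h g + detChar H g / lineChar h g := by
  have h1 := charpoly_eigen _ v h.1 _ (lineChar_spec h g)
  have h0 := lineChar_ne_zero h g
  rw [detChar_apply]
  field_simp
  linear_combination -h1

theorem tr2_eq [Finite H] (h : Stab H v) (g : H) :
    tr2 (g : GL (Fin 2) ℂ) = 2 + 2 * (ratioChar h g).re := by
  have h0 := lineChar_ne_zero h g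
  have hd0 := detChar_ne_zero (H := H) g
  have hn1 := norm_lineChar h g
  have hn2 := norm_detChar (H := H) g
  have hn3 : ‖detChar H g / lineChar h g‖ = 1 := by rw [norm_div, hn1, hn2, div_one]
  have hconj : lineChar h g * (starRingEnd ℂ) (detChar H g / lineChar h g) = ratioChar h g := by
    rw [← Complex.inv_eq_conj hn3, ratioChar_apply]
    field_simp
  unfold tr2
  rw [trace_eq h g, Complex.sq_norm, Complex.normSq_add, hconj, Complex.normSq_eq_norm_sq,
    Complex.normSq_eq_norm_sq, hn1, hn3]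
  ring

theorem tr2_inv [Finite H] (h : Stab H v) (g : H) :
    tr2 ((g : GL (Fin 2) ℂ)⁻¹) = tr2 (g : GL (Fin 2) ℂ) := by
  have h1 := tr2_eq h g⁻¹
  rw [Subgroup.coe_inv] at h1
  rw [h1, tr2_eq h g, ratioChar_inv, Complex.inv_eq_conj (norm_ratioChar h g), Complex.conj_re]

theorem tr2_le_four [Finite H] (h : Stab H v) (g : H) : tr2 (g : GL (Fin 2) ℂ) ≤ 4 := by
  rw [tr2_eq h g]
  have h1 : (ratioChar h g).re ≤ ‖ratioChar h g‖ := Complex.re_le_norm _
  rw [norm_ratioChar] at h1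
  linarith

/-- The mean value of `|tr|²` on a finite reducible group is at least `2`. -/
theorem sum_tr2_ge [Fintype H] (h : Stab H v) :
    2 * (Fintype.card H : ℝ) ≤ ∑ g : H, tr2 (g : GL (Fin 2) ℂ) := by
  classical
  have h1 : ∑ g : H, tr2 (g : GL (Fin 2) ℂ) =
      2 * (Fintype.card H : ℝ) + 2 * (∑ g : H, ratioChar h g).re := by
    rw [Complex.re_sum, Finset.mul_sum, ← Finset.card_univ, ← nsmul_eq_mul', ← Finset.sum_const,
      ← Finset.sum_add_distrib]
    refine Finset.sum_congr rfl fun g _ => ?_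
    rw [tr2_eq h g]
  have h2 : 0 ≤ (∑ g : H, ratioChar h g).re := by
    rw [sum_hom_units]
    split_ifs
    · simp
    · simp
  rw [h1]
  linarith

end Line

/-! ### Counting lemmas -/

/-- Fibrewise summation over the values of a function on a finite set. -/
theorem sum_mul_ncard_fiber {M : Type*} (H : Set M) [Fintype H] (F : M → ℝ) :
    ∑ t ∈ Finset.univ.image (fun g : H => F g),
      t * (({g : M | g ∈ H ∧ F g = t} ∩ H).ncard : ℝ) = ∑ g : H, F g := by
  classical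
  have hn : ∀ t : ℝ, ({g : M | g ∈ H ∧ F g = t} ∩ H).ncard =
      (Finset.univ.filter (fun g : H => F g = t)).card := by
    intro t
    have h1 : ({g : M | g ∈ H ∧ F g = t} ∩ H) =
        Subtype.val '' ((Finset.univ.filter (fun g : H => F g = t) : Finset H) : Set H) := by
      ext g
      simp only [Set.mem_inter_iff, Set.mem_ofPred_eq, Set.mem_image, Finset.coe_filter,
        Finset.mem_univ, true_and, Subtype.exists, exists_and_right, exists_eq_right]
      constructor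
      · rintro ⟨⟨h1, h2⟩, -⟩
        exact ⟨h1, h2⟩
      · rintro ⟨h1, h2⟩
        exact ⟨⟨h1, h2⟩, h1⟩
    rw [h1, Set.ncard_image_of_injective _ Subtype.val_injective, Set.ncard_coe_finset]
  rw [Finset.sum_comp (fun t : ℝ => t) (fun g : H => F g)]
  refine Finset.sum_congr rfl fun t _ => ?_
  rw [hn t, nsmul_eq_mul, mul_comm]

/-- A positive lower bound for finitely many positive numbers. -/
theorem exists_pos_le (V : Finset ℝ) (d : ℝ → ℝ) (hd : ∀ t ∈ V, 0 < d t) :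
    ∃ δ : ℝ, 0 < δ ∧ ∀ t ∈ V, δ ≤ d t := by
  classical
  induction V using Finset.induction_on with
  | empty => exact ⟨1, one_pos, fun t ht => absurd ht (Finset.notMem_empty t)⟩
  | insert x V _ ih =>
    obtain ⟨δ, hδ, h⟩ := ih fun t ht => hd t (Finset.mem_insert_of_mem ht)
    refine ⟨min δ (d x), lt_min hδ (hd x (Finset.mem_insert_self x V)), fun t ht => ?_⟩
    rcases Finset.mem_insert.mp ht with rfl | ht
    · exact min_le_right _ _
    · exact (min_le_left _ _).trans (h t ht)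

/-- A homomorphism of finite level has finite image. -/
theorem finite_range {M : Type} [Group M] (ρ : Γℚ →* M)
    (hρ : GaloisFactorsThroughFiniteLevel ρ) : Finite ρ.range := by
  obtain ⟨K, hKf, hKg, ψ, hψ, -⟩ := ChebHom.exists_factor_galois ρ hρ
  have hfin : Finite (K ≃ₐ[ℚ] K) := inferInstance
  have hsub : (ρ.range : Set M) ⊆ Set.range ψ := by
    rintro _ ⟨σ, rfl⟩
    exact ⟨_, hψ σ⟩
  exact Set.finite_coe_iff.mpr ((Set.finite_range ψ).subset hsub)

/-! ### The main argument -/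

/-- The image of a representation of finite level satisfying the sharp Rankin bound cannot
preserve a line. -/
theorem false_of_stab (hK : ChebHom.ChebSymK) {N : ℕ} (hN : N ≠ 0) (a : ℕ → ℂ)
    (ρ : Γℚ →* GL (Fin 2) ℂ) (hρ : GaloisFactorsThroughFiniteLevel ρ)
    (hFrob : ∀ p : ℕ, p.Prime → ¬ p ∣ N → ∀ A : ValuationSubring Qbar, A.LiesOverPrime p →
      ∀ σ : Γℚ, A.IsFrobeniusAt σ p →
        Matrix.trace ((ρ σ : GL (Fin 2) ℂ) : Matrix (Fin 2) (Fin 2) ℂ) = a p)
    (hR : ∃ B : ℝ, ∀ s : ℝ, 1 < s → s ≤ 2 → ∀ T : Finset ℕ, (∀ p ∈ T, p.Prime ∧ ¬ p ∣ N) →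
      (∀ p ∈ T, ‖a p‖ ≤ 2) →
      ∑ p ∈ T, ‖a p‖ ^ 2 * (p : ℝ) ^ (-s) ≤ Real.log (1 / (s - 1)) + B)
    (v : Fin 2 → ℂ) (hst : Stab ρ.range v) : False := by
  classical
  have : Finite ρ.range := finite_range ρ hρ
  have : Fintype ρ.range := Fintype.ofFinite _
  obtain ⟨B, hB⟩ := hR
  -- the level sets of `|tr|²`
  set V : Finset ℝ := Finset.univ.image (fun g : ρ.range => tr2 (g : GL (Fin 2) ℂ)) with hV
  set S : ℝ → Set (GL (Fin 2) ℂ) := fun t => {g | g ∈ (ρ.range : Set (GL (Fin 2) ℂ)) ∧ tr2 g = t}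
    with hS
  have hconj : ∀ t g h, g ∈ S t → h ∈ ρ.range → h * g * h⁻¹ ∈ S t := by
    intro t g h hg hh
    exact ⟨ρ.range.mul_mem (ρ.range.mul_mem hh hg.1) (ρ.range.inv_mem hh),
      (tr2_conj g h).trans hg.2⟩
  have hinv : ∀ t, ∀ g ∈ S t, g⁻¹ ∈ S t := by
    intro t g hg
    exact ⟨ρ.range.inv_mem hg.1, (tr2_inv hst ⟨g, hg.1⟩).trans hg.2⟩
  have hVnn : ∀ t ∈ V, 0 ≤ t := by
    intro t ht
    obtain ⟨g, -, rfl⟩ := Finset.mem_image.mp ht
    exact tr2_nonneg _
  have hVle : ∀ t ∈ V, t ≤ 4 := by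
    intro t ht
    obtain ⟨g, -, rfl⟩ := Finset.mem_image.mp ht
    exact tr2_le_four hst g
  set Sg : ℝ := ∑ t ∈ V, t with hSg
  have hSg0 : 0 ≤ Sg := Finset.sum_nonneg hVnn
  set ε : ℝ := 1 / (2 * (Sg + 1)) with hε
  have hεpos : 0 < ε := by positivity
  have hεSg : ε * Sg ≤ 1 / 2 := by
    rw [hε, div_mul_eq_mul_div, one_mul, div_le_iff₀ (by positivity)]
    linarith
  have hch := fun t => ChebHom.cheb_sym_hom hK ρ hρ (S t) (hconj t) (hinv t) N.primeFactors ε hεpos
  choose δ hδpos hδ using hch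
  obtain ⟨δ₀, hδ₀pos, hδ₀⟩ := exists_pos_le V δ (fun t _ => hδpos t)
  -- the choice of `s`
  set η : ℝ := min (δ₀ / 2) (min 1 (Real.exp (-(2 * |B| + 1)))) with hη
  have hηpos : 0 < η := lt_min (by positivity) (lt_min one_pos (Real.exp_pos _))
  have hη1 : η ≤ 1 := (min_le_right _ _).trans (min_le_left _ _)
  have hηe : η ≤ Real.exp (-(2 * |B| + 1)) := (min_le_right _ _).trans (min_le_right _ _)
  have hηδ : η < δ₀ := lt_of_le_of_lt (min_le_left _ _) (by linarith)
  set s : ℝ := 1 + η with hs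
  have hs1 : 1 < s := by linarith
  have hs2 : s ≤ 2 := by linarith
  set L : ℝ := Real.log (1 / (s - 1)) with hL
  have hLge : 2 * |B| + 1 ≤ L := by
    have h1 : s - 1 = η := by rw [hs]; ring
    rw [hL, h1, one_div, Real.log_inv]
    have h2 : Real.log η ≤ -(2 * |B| + 1) := by
      have := Real.log_le_log hηpos hηe
      rwa [Real.log_exp] at this
    linarith
  have hL0 : 0 ≤ L := by
    have := abs_nonneg B
    linarith
  -- the sets of primes
  have hex : ∀ t ∈ V, ∃ T : Finset ℕ,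
      (∀ p ∈ T, p.Prime ∧ p ∉ N.primeFactors ∧ ∃ (A : ValuationSubring Qbar) (σ : Γℚ),
        A.LiesOverPrime p ∧ A.IsFrobeniusAt σ p ∧ ρ σ ∈ S t) ∧
      ((((S t ∩ (ρ.range : Set (GL (Fin 2) ℂ))).ncard : ℝ) / Nat.card ρ.range - ε) * L ≤
        ∑ p ∈ T, (p : ℝ) ^ (-s)) := by
    intro t ht
    exact hδ t s hs1 (by linarith [hδ₀ t ht])
  choose! T hT using hex
  have hTp : ∀ t ∈ V, ∀ p ∈ T t, (p.Prime ∧ ¬ p ∣ N) ∧ ‖a p‖ ^ 2 = t := by
    intro t ht p hp
    obtain ⟨hpp, hpb, A, σ, hA, hσ, hmem⟩ := (hT t ht).1 p hp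
    have hpN : ¬ p ∣ N := fun hdvd => hpb (Nat.mem_primeFactors.mpr ⟨hpp, hdvd, hN⟩)
    refine ⟨⟨hpp, hpN⟩, ?_⟩
    have h1 := hFrob p hpp hpN A hA σ hσ
    have h2 : tr2 (ρ σ) = t := hmem.2
    rw [← h2, ← h1]
    rfl
  have hdisj : (V : Set ℝ).PairwiseDisjoint T := by
    intro t ht t' ht' hne
    rw [Function.onFun, Finset.disjoint_left]
    intro p hp hp'
    exact hne (((hTp t ht p hp).2).symm.trans (hTp t' ht' p hp').2)
  set U : Finset ℕ := V.biUnion T with hU
  have hUp : ∀ p ∈ U, p.Prime ∧ ¬ p ∣ N := by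
    intro p hp
    obtain ⟨t, ht, hpt⟩ := Finset.mem_biUnion.mp hp
    exact (hTp t ht p hpt).1
  have hU2 : ∀ p ∈ U, ‖a p‖ ≤ 2 := by
    intro p hp
    obtain ⟨t, ht, hpt⟩ := Finset.mem_biUnion.mp hp
    have h1 := (hTp t ht p hpt).2
    have h2 := hVle t ht
    have h3 : ‖a p‖ ^ 2 ≤ 2 ^ 2 := by rw [h1]; linarith
    exact abs_le_of_sq_le_sq' h3 (by norm_num) |>.2
  have hupper := hB s hs1 hs2 U hUp hU2
  -- the lower bound
  have hsum : ∑ p ∈ U, ‖a p‖ ^ 2 * (p : ℝ) ^ (-s) = ∑ t ∈ V, t * ∑ p ∈ T t, (p : ℝ) ^ (-s) := by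
    rw [hU, Finset.sum_biUnion hdisj]
    refine Finset.sum_congr rfl fun t ht => ?_
    rw [Finset.mul_sum]
    refine Finset.sum_congr rfl fun p hp => ?_
    rw [(hTp t ht p hp).2]
  have hcard : (0 : ℝ) < Nat.card ρ.range := by exact_mod_cast Nat.card_pos
  have hlow : ∑ t ∈ V, t * ((((S t ∩ (ρ.range : Set (GL (Fin 2) ℂ))).ncard : ℝ) /
      Nat.card ρ.range - ε) * L) ≤ ∑ t ∈ V, t * ∑ p ∈ T t, (p : ℝ) ^ (-s) :=
    Finset.sum_le_sum fun t ht => mul_le_mul_of_nonneg_left (hT t ht).2 (hVnn t ht)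
  have hfib : ∑ t ∈ V, t * ((S t ∩ (ρ.range : Set (GL (Fin 2) ℂ))).ncard : ℝ) =
      ∑ g : ρ.range, tr2 (g : GL (Fin 2) ℂ) :=
    sum_mul_ncard_fiber (ρ.range : Set (GL (Fin 2) ℂ)) tr2
  have hmean := sum_tr2_ge hst
  rw [← Nat.card_eq_fintype_card] at hmean
  have hrew : ∑ t ∈ V, t * ((((S t ∩ (ρ.range : Set (GL (Fin 2) ℂ))).ncard : ℝ) /
      Nat.card ρ.range - ε) * L) =
      ((∑ t ∈ V, t * ((S t ∩ (ρ.range : Set (GL (Fin 2) ℂ))).ncard : ℝ)) / Nat.card ρ.range -
        ε * Sg) * L := by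
    rw [hSg, Finset.mul_sum, Finset.sum_div, ← Finset.sum_sub_distrib, Finset.sum_mul]
    refine Finset.sum_congr rfl fun t _ => ?_
    ring
  have hge : (3 / 2 : ℝ) * L ≤ ∑ t ∈ V, t * ((((S t ∩ (ρ.range : Set (GL (Fin 2) ℂ))).ncard : ℝ) /
      Nat.card ρ.range - ε) * L) := by
    rw [hrew, hfib]
    refine mul_le_mul_of_nonneg_right ?_ hL0
    have h1 : (2 : ℝ) ≤ (∑ g : ρ.range, tr2 (g : GL (Fin 2) ℂ)) / Nat.card ρ.range := by
      rw [le_div_iff₀ hcard]
      exact hmean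
    linarith
  have hfinal : (3 / 2 : ℝ) * L ≤ L + B := by
    calc (3 / 2 : ℝ) * L ≤ _ := hge
      _ ≤ _ := hlow
      _ = _ := hsum.symm
      _ ≤ L + B := hupper
  have := le_abs_self B
  have := abs_nonneg B
  linarith

/-- **IRR.** A representation `ρ : Gal(ℚ̄/ℚ) → GL₂(ℂ)` of finite level, whose Frobenius traces
at the primes `p ∤ N` are `a p` and satisfy the sharp Rankin bound, is irreducible (given the
symmetric Chebotarev density theorem in the set form `ChebHom.ChebSymK`). -/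
theorem isIrreducible_of_rankin (hK : ChebHom.ChebSymK) {N : ℕ} (hN : N ≠ 0) (a : ℕ → ℂ)
    (ρ : Γℚ →* GL (Fin 2) ℂ) (hρ : GaloisFactorsThroughFiniteLevel ρ)
    (hFrob : ∀ p : ℕ, p.Prime → ¬ p ∣ N → ∀ A : ValuationSubring Qbar, A.LiesOverPrime p →
      ∀ σ : Γℚ, A.IsFrobeniusAt σ p →
        Matrix.trace ((ρ σ : GL (Fin 2) ℂ) : Matrix (Fin 2) (Fin 2) ℂ) = a p)
    (hR : ∃ B : ℝ, ∀ s : ℝ, 1 < s → s ≤ 2 → ∀ T : Finset ℕ, (∀ p ∈ T, p.Prime ∧ ¬ p ∣ N) →
      (∀ p ∈ T, ‖a p‖ ≤ 2) →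
      ∑ p ∈ T, ‖a p‖ ^ 2 * (p : ℝ) ^ (-s) ≤ Real.log (1 / (s - 1)) + B) :
    (Deformation.matrixRepresentation ρ).IsIrreducible := by
  refine isIrreducible_of_no_invariant_line ρ fun v hv hline => ?_
  refine false_of_stab hK hN a ρ hρ hFrob hR v ⟨hv, ?_⟩
  rintro _ ⟨σ, rfl⟩
  exact hline σ

open CongruenceSubgroup in
/-- **IRR for a weight one eigenform**: the form in which the proof of S48 consumes it. -/
theorem isIrreducible_of_cuspForm (hK : ChebHom.ChebSymK) {N : ℕ} [NeZero N]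
    (f : CuspForm (Gamma1 N) 1) (hf1 : ModularFormClass.qCoeff f 1 = 1)
    (hmul : ∀ p : ℕ, p.Prime → ¬ p ∣ N → ∀ n : ℕ, ¬ p ∣ n →
      ModularFormClass.qCoeff f (p * n) = ModularFormClass.qCoeff f p * ModularFormClass.qCoeff f n)
    (ρ : Γℚ →* GL (Fin 2) ℂ) (hρ : GaloisFactorsThroughFiniteLevel ρ)
    (hFrob : ∀ p : ℕ, p.Prime → ¬ p ∣ N → ∀ A : ValuationSubring Qbar, A.LiesOverPrime p →
      ∀ σ : Γℚ, A.IsFrobeniusAt σ p →
        Matrix.trace ((ρ σ : GL (Fin 2) ℂ) : Matrix (Fin 2) (Fin 2) ℂ) =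
          ModularFormClass.qCoeff f p) :
    (Deformation.matrixRepresentation ρ).IsIrreducible :=
  isIrreducible_of_rankin hK (NeZero.ne N) (fun n => ModularFormClass.qCoeff f n) ρ hρ hFrob
    (rankin_primes_sharp f hf1 hmul)

open CongruenceSubgroup in
/-- **IRR**, with the Hecke relation in the shape of the frozen statement S48. -/
theorem isIrreducible_of_eigenform (hK : ChebHom.ChebSymK) {N : ℕ} [NeZero N]
    (ε : DirichletCharacter ℂ N) (f : CuspForm (Gamma1 N) 1)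
    (hf₁ : ModularFormClass.qCoeff f 1 = 1)
    (hT : ∀ p : ℕ, p.Prime → ¬ p ∣ N → ∀ n : ℕ,
        ModularFormClass.qCoeff f (p * n) +
            ε (p : ZMod N) * (if p ∣ n then ModularFormClass.qCoeff f (n / p) else 0) =
          ModularFormClass.qCoeff f p * ModularFormClass.qCoeff f n)
    (ρ : Γℚ →* GL (Fin 2) ℂ) (hρ : GaloisFactorsThroughFiniteLevel ρ)
    (hFrob : ∀ p : ℕ, p.Prime → ¬ p ∣ N → ∀ A : ValuationSubring Qbar, A.LiesOverPrime p →
      ∀ σ : Γℚ, A.IsFrobeniusAt σ p →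
        Matrix.trace ((ρ σ : GL (Fin 2) ℂ) : Matrix (Fin 2) (Fin 2) ℂ) =
          ModularFormClass.qCoeff f p) :
    (Deformation.matrixRepresentation ρ).IsIrreducible :=
  isIrreducible_of_cuspForm hK f hf₁
    (mul_of_heckeRelation (fun n => ModularFormClass.qCoeff f n) (fun p => ε (p : ZMod N)) N hT)
    ρ hρ hFrob

end Fermat.Agent.DS.Irr
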