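import Mathlib
import Fermat.Prelude.Def_GaloisRep_Residual
import Fermat.Prelude.Def_Deformations_MatrixRepresentation
import Fermat.Agent.DS.Glue
import Fermat.Agent.DS.GlueAlg
import Fermat.Agent.DS.Lift.Main
import Fermat.Agent.DS.Irr

/-!
# DS: the Deligne–Serre theorem from the residual family and the density bound

`deligneSerre_of_family`: the conclusion of the frozen statement S48 for a weight one eigenform
`f` on `Γ₁(N)` with character `ε`, from

* `hK : ChebHom.ChebSymK` — the symmetric Chebotarev density theorem (`DS/Cheb`),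
* `hRes : Glue.ResidualFamily N a e` — the mod `l` representations (`DS/MainRes`, from `HES`),
* `hDens : Glue.DensityBound N a e` — the density statement (`DS/MainDens`),

where `a p = a_p(f)`, `e p = ε(p)`.
-/

set_option autoImplicit false

namespace Fermat.Agent.DS

open CongruenceSubgroup

local notation "Qbar" => AlgebraicClosure ℚ
local notation "Γℚ" => (AlgebraicClosure ℚ ≃ₐ[ℚ] AlgebraicClosure ℚ)

theorem semisimplifyStmt : Glue.SemisimplifyStmt :=
  fun _ _ r => GlueAlg.exists_semisimplification r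

theorem traceTwoStmt : Glue.TraceTwoStmt :=
  fun _ _ hm hg ht => GlueAlg.eq_one_of_trace_eq_two hm hg ht

theorem rootsStmt : Glue.RootsStmt :=
  fun _ _ φ _ hm g hg => GlueAlg.exists_rootsOfUnity_trace_det φ hm g hg

theorem tracePowStmt : Glue.TracePowStmt :=
  fun g h ht hd j => GlueAlg.trace_pow_eq_of_trace_det_eq g h ht hd j

theorem liftStmt : Glue.LiftStmt :=
  fun _ _ φ hφ _ _ _ r hG => Lift.exists_complex_lift φ hφ r hG

/-- **Deligne–Serre**, from the residual family and the density bound. -/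
theorem deligneSerre_of_family (hK : ChebHom.ChebSymK) {N : ℕ} [NeZero N]
    (ε : DirichletCharacter ℂ N) (f : CuspForm (Gamma1 N) 1)
    (hf₁ : ModularFormClass.qCoeff f 1 = 1)
    (hT : ∀ p : ℕ, p.Prime → ¬ p ∣ N → ∀ n : ℕ,
        ModularFormClass.qCoeff f (p * n) +
            ε (p : ZMod N) * (if p ∣ n then ModularFormClass.qCoeff f (n / p) else 0) =
          ModularFormClass.qCoeff f p * ModularFormClass.qCoeff f n)
    (hRes : Glue.ResidualFamily N (fun p => ModularFormClass.qCoeff f p)
      (fun p => ε (p : ZMod N)))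
    (hDens : Glue.DensityBound N (fun p => ModularFormClass.qCoeff f p)
      (fun p => ε (p : ZMod N))) :
    ∃ ρ : Γℚ →* GL (Fin 2) ℂ, GaloisFactorsThroughFiniteLevel ρ ∧
      (Deformation.matrixRepresentation ρ).IsIrreducible ∧
      ∀ p : ℕ, p.Prime → ¬ p ∣ N →
        ∀ A : ValuationSubring (AlgebraicClosure ℚ), A.LiesOverPrime p →
          (∀ σ ∈ A.inertiaSubgroupIn ℚ, ρ σ = 1) ∧
          ∀ σ : Γℚ, A.IsFrobeniusAt σ p →
            ((ρ σ : GL (Fin 2) ℂ) : Matrix (Fin 2) (Fin 2) ℂ).trace = ModularFormClass.qCoeff f p ∧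
            ((ρ σ : GL (Fin 2) ℂ) : Matrix (Fin 2) (Fin 2) ℂ).det = ε (p : ZMod N) :=
  Glue.exists_rep hK semisimplifyStmt traceTwoStmt rootsStmt tracePowStmt liftStmt (NeZero.ne N)
    (fun p => ModularFormClass.qCoeff f p) (fun p => ε (p : ZMod N)) hRes hDens
    (fun _ ρ hρ hFrob => Irr.isIrreducible_of_eigenform hK ε f hf₁ hT ρ hρ hFrob)

end Fermat.Agent.DS
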