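import Mathlib
import Fermat.Agent.DS.Glue
import Fermat.Agent.DS.DensityRat

/-!
# DS main assembly, step (M2): the density bound in the shape consumed by the glue

`densityBound`: for `f`, `ε` as in the frozen statement S48, the hypothesis
`Glue.DensityBound N (a_p) (ε p)` of `Glue.exists_rep` holds.  It is `dens_of_S48` (`η = 1/16`)
with the exceptional set `P := Y ×ˢ (values of ε)`, both factors transported to
`integralClosure ℤ ℂ`.
-/

set_option autoImplicit false

namespace Fermat.Agent.DS.MainDens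

open CongruenceSubgroup ModularFormClass

local notation "Zbar" => integralClosure ℤ ℂ

/-- **(H2) for the frozen statement S48, in the shape `Glue.DensityBound`.** -/
theorem densityBound (N : ℕ) [NeZero N] (ε : DirichletCharacter ℂ N) (f : CuspForm (Gamma1 N) 1)
    (hf₁ : qCoeff f 1 = 1)
    (hT : ∀ p : ℕ, p.Prime → ¬ p ∣ N → ∀ n : ℕ,
        qCoeff f (p * n) + ε (p : ZMod N) * (if p ∣ n then qCoeff f (n / p) else 0) =
          qCoeff f p * qCoeff f n) :
    Glue.DensityBound N (fun p => qCoeff f p) (fun p => ε (p : ZMod N)) := by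
  classical
  obtain ⟨Y, C, hY, hYC⟩ := dens_of_S48 ε f hf₁ hT (η := 1 / 16) (by norm_num)
  let Y' : Finset Zbar := Y.subtype (fun y => y ∈ integralClosure ℤ ℂ)
  let E : Finset Zbar := Finset.univ.image
    (fun x : ZMod N => (⟨ε x, Conj.isIntegral_char ε x⟩ : Zbar))
  refine ⟨Y' ×ˢ E, C, fun s hs1 hs2 T hTp => hYC s hs1 hs2 T fun p hp => ?_⟩
  obtain ⟨hpp, hpN, hP⟩ := hTp p hp
  refine ⟨hpp, hpN, fun hmem => ?_⟩
  refine hP (⟨qCoeff f p, hY _ hmem⟩, ⟨ε (p : ZMod N), Conj.isIntegral_char ε _⟩) ?_ ⟨rfl, rfl⟩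
  rw [Finset.mem_product]
  exact ⟨Finset.mem_subtype.mpr hmem, Finset.mem_image.mpr ⟨(p : ZMod N), Finset.mem_univ _, rfl⟩⟩

end Fermat.Agent.DS.MainDens
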