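import Mathlib
import Fermat.Agent.DS.Glue
import Fermat.Agent.DS.HES
import Fermat.Agent.DS.Hecke1.Eigen
import Fermat.Agent.DS.Rat.Main
import Fermat.Agent.DS.ModL.Hecke1Plug

/-!
# DS main assembly, step (M1): the residual family from `HES`

`residualFamily_of_HES`: for `f`, `ε` as in the frozen statement S48, the hypothesis
`Glue.ResidualFamily N (a_p) (ε p)` of `Glue.exists_rep` follows from `HES`:

* `Rat.exists_integral_model` replaces `f` by a model `g` with the same `a_p` (`p ∤ N`), the same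
  Hecke relations, and `D · a_n(g)` integral for all `n`;
* for a prime `l ≥ 5`, `l ∤ D`, and `φ : ℤ̄ → k` (`char k = l`),
  `ModL.exists_eigenHom_hecke1` gives a ring homomorphism `θ` of the Hecke algebra of
  `S₂(Γ₁(N l))` with `θ(T_p) = φ(a_p)`, `p · θ(⟨p⟩) = φ(ε(p))`;
* the Hecke polynomials split in `k` because `X² - a_p X + ε(p)` splits over `ℤ̄`;
* `HES` at level `N l` gives the representation.
-/

set_option autoImplicit false

namespace Fermat.Agent.DS.MainRes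

open CongruenceSubgroup ModularFormClass Polynomial

local notation "Zbar" => integralClosure ℤ ℂ
local notation "Γℚ" => (AlgebraicClosure ℚ ≃ₐ[ℚ] AlgebraicClosure ℚ)

/-- A monic quadratic polynomial over the algebraic integers splits over the algebraic
integers. -/
theorem exists_roots_zbar (a d : Zbar) : ∃ r s : Zbar, r + s = a ∧ r * s = d := by
  obtain ⟨z, hz⟩ := IsAlgClosed.exists_eq_mul_self ((a : ℂ) ^ 2 - 4 * (d : ℂ))
  set r : ℂ := ((a : ℂ) + z) / 2 with hr
  have hroot : r ^ 2 - (a : ℂ) * r + (d : ℂ) = 0 := by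
    rw [hr]
    field_simp
    linear_combination (-1 : ℂ) * hz
  have hdeg : (C a * X - C d : (Zbar)[X]).degree < ((2 : ℕ) : WithBot ℕ) := by
    refine lt_of_le_of_lt (degree_sub_le _ _) ?_
    refine max_lt (lt_of_le_of_lt (degree_C_mul_X_le _) (by norm_num))
      (lt_of_le_of_lt degree_C_le (by norm_num))
  have hint' : IsIntegral (Zbar) r := by
    refine ⟨X ^ 2 - (C a * X - C d), monic_X_pow_sub hdeg, ?_⟩
    rw [← aeval_def]
    simp only [map_sub, map_pow, aeval_X, map_mul, aeval_C]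
    have h1 : (algebraMap (Zbar) ℂ) a = (a : ℂ) := rfl
    have h2 : (algebraMap (Zbar) ℂ) d = (d : ℂ) := rfl
    rw [h1, h2]
    linear_combination hroot
  have hint : IsIntegral ℤ r := isIntegral_trans r hint'
  refine ⟨⟨r, hint⟩, a - ⟨r, hint⟩, by ring, ?_⟩
  apply Subtype.ext
  push_cast
  linear_combination (-1 : ℂ) * hroot

/-- **(H1) for the frozen statement S48, in the shape `Glue.ResidualFamily`, from `HES`.** -/
theorem residualFamily_of_HES (h : HES) (N : ℕ) [NeZero N] (ε : DirichletCharacter ℂ N)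
    (f : CuspForm (Gamma1 N) 1) (hf₁ : qCoeff f 1 = 1)
    (hT : ∀ p : ℕ, p.Prime → ¬ p ∣ N → ∀ n : ℕ,
        qCoeff f (p * n) + ε (p : ZMod N) * (if p ∣ n then qCoeff f (n / p) else 0) =
          qCoeff f p * qCoeff f n) :
    Glue.ResidualFamily N (fun p => qCoeff f p) (fun p => ε (p : ZMod N)) := by
  classical
  obtain ⟨g, D, hD0, hg1, hgf, hgT, hgD⟩ := Rat.exists_integral_model ε f hf₁ hT
  refine ⟨{2, 3} ∪ D.primeFactors, fun l hl hlB k _ _ φ => ?_⟩
  -- the prime `l`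
  have hl2 : l ≠ 2 := fun e => hlB (by rw [e]; simp)
  have hl3 : l ≠ 3 := fun e => hlB (by rw [e]; simp)
  have hlD : ¬ l ∣ D := fun hd =>
    hlB (Finset.mem_union_right _ (Nat.mem_primeFactors.mpr ⟨hl, hd, hD0.ne'⟩))
  have h5 : 5 ≤ l := by
    have h2 := hl.two_le
    by_contra hlt
    have h4 : l ≠ 4 := fun e => by rw [e] at hl; exact absurd hl (by norm_num)
    omega
  have hDk : (D : k) ≠ 0 := fun e => hlD ((CharP.cast_eq_zero_iff k l D).mp e)
  have : NeZero l := ⟨hl.ne_zero⟩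
  -- the eigen-character of the Hecke algebra of level `N l`
  obtain ⟨θ, hθT, hθD⟩ := ModL.exists_eigenHom_hecke1 hl h5 φ ε g D hDk hgD hg1 hgT
    (Hecke1.slash_eq_of_hecke_one ε g hgT)
  -- integrality of the eigenvalues and of the character values
  have haint : ∀ p : ℕ, p.Prime → ¬ p ∣ N → IsIntegral ℤ (qCoeff f p) := fun p hp hpN =>
    Rat.isIntegral_qCoeff_prime ε f hf₁ hT hp hpN
  have hpM : ∀ p : ℕ, p.Prime → ¬ p ∣ N → p ≠ l → ¬ p ∣ N * l := by
    intro p hp hpN hpl hdvd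
    rcases (Nat.Prime.dvd_mul hp).mp hdvd with h1 | h1
    · exact hpN h1
    · exact hpl ((Nat.prime_dvd_prime_iff_eq hp hl).mp h1)
  have key : ∀ (p : ℕ) (hp : p.Prime) (hpN : ¬ p ∣ N) (hpl : p ≠ l),
      θ (Hecke1.heckeAlgebra.T hp (hpM p hp hpN hpl)) = φ ⟨qCoeff f p, haint p hp hpN⟩ ∧
      (p : k) * θ (Hecke1.heckeAlgebra.D (Hecke1.punit hp (hpM p hp hpN hpl))) =
        φ ⟨ε (p : ZMod N), Conj.isIntegral_char ε _⟩ := by
    intro p hp hpN hpl
    refine ⟨hθT p hp (hpM p hp hpN hpl) ⟨qCoeff f p, haint p hp hpN⟩ (hgf p hp hpN).symm, ?_⟩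
    exact hθD (Hecke1.punit hp (hpM p hp hpN hpl)) p
      (Hecke1.coe_punit hp (hpM p hp hpN hpl)).symm ⟨ε (p : ZMod N), Conj.isIntegral_char ε _⟩ rfl
  -- the representation
  obtain ⟨r, hr, hrF⟩ := h (N * l) l hl h5 (dvd_mul_left l N) k θ (by
    intro p hp hpM' hpl
    have hpN : ¬ p ∣ N := fun hd => hpM' (Dvd.dvd.mul_right hd l)
    obtain ⟨r, s, hrs, hrs'⟩ := exists_roots_zbar ⟨qCoeff f p, haint p hp hpN⟩
      ⟨ε (p : ZMod N), Conj.isIntegral_char ε _⟩
    refine ⟨φ r, φ s, ?_, ?_⟩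
    · rw [← map_add, hrs]
      exact ((key p hp hpN hpl).1).symm
    · rw [← map_mul, hrs']
      exact ((key p hp hpN hpl).2).symm)
  refine ⟨r, hr, fun p hp hpN hpl A hA => ?_⟩
  obtain ⟨hI, hF⟩ := hrF p hp (hpM p hp hpN hpl) hpl A hA
  refine ⟨hI, fun σ hσ => ?_⟩
  obtain ⟨h1, h2⟩ := hF σ hσ
  refine ⟨⟨qCoeff f p, haint p hp hpN⟩, ⟨ε (p : ZMod N), Conj.isIntegral_char ε _⟩, rfl, rfl,
    ?_, ?_⟩
  · rw [h1]; exact (key p hp hpN hpl).1
  · rw [h2]; exact (key p hp hpN hpl).2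

end Fermat.Agent.DS.MainRes
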