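import Mathlib
import Fermat.Agent.DS.Main
import Fermat.Agent.DS.MainRes
import Fermat.Agent.DS.MainDens
import Fermat.Agent.DS.Cheb.Final

/-!
# DS: the Deligne–Serre theorem (frozen statement S48) from the single hypothesis `HES`

`deligneSerre_of_HES : HES → <statement of S48>`.

`HES` (`DS/HES.lean`) = existence of mod `l` Galois representations attached to Hecke
eigen-characters of `S₂(Γ₁(M))`.  Everything else — Rankin–Selberg mean square, the density
statement, the symmetric Chebotarev density theorem, the Burnside-type bound for the images, the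
weight one Eisenstein series congruent to `1`, Hecke operators on `Γ₁(N)`, rationality and
integrality of the eigenform, lifting to characteristic `0`, irreducibility — is proved in `DS/`.
-/

set_option autoImplicit false

namespace Fermat.Agent.DS

open CongruenceSubgroup

/-- **Deligne–Serre** (the frozen statement S48), from `HES`. -/
theorem deligneSerre_of_HES (h : HES) (N : ℕ) [NeZero N] (ε : DirichletCharacter ℂ N)
    (f : CuspForm (Gamma1 N) 1) (hf₁ : ModularFormClass.qCoeff f 1 = 1)
    (hT : ∀ p : ℕ, p.Prime → ¬ p ∣ N → ∀ n : ℕ,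
        ModularFormClass.qCoeff f (p * n) +
            ε (p : ZMod N) * (if p ∣ n then ModularFormClass.qCoeff f (n / p) else 0) =
          ModularFormClass.qCoeff f p * ModularFormClass.qCoeff f n) :
    ∃ ρ : (AlgebraicClosure ℚ ≃ₐ[ℚ] AlgebraicClosure ℚ) →* GL (Fin 2) ℂ,
      GaloisFactorsThroughFiniteLevel ρ ∧
      (Deformation.matrixRepresentation ρ).IsIrreducible ∧
      ∀ p : ℕ, p.Prime → ¬ p ∣ N →
        ∀ A : ValuationSubring (AlgebraicClosure ℚ), A.LiesOverPrime p →
          (∀ σ ∈ A.inertiaSubgroupIn ℚ, ρ σ = 1) ∧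
          ∀ σ : (AlgebraicClosure ℚ ≃ₐ[ℚ] AlgebraicClosure ℚ), A.IsFrobeniusAt σ p →
            ((ρ σ : GL (Fin 2) ℂ) : Matrix (Fin 2) (Fin 2) ℂ).trace = ModularFormClass.qCoeff f p ∧
            ((ρ σ : GL (Fin 2) ℂ) : Matrix (Fin 2) (Fin 2) ℂ).det = ε (p : ZMod N) :=
  deligneSerre_of_family Cheb.chebSymK ε f hf₁ hT
    (MainRes.residualFamily_of_HES h N ε f hf₁ hT) (MainDens.densityBound N ε f hf₁ hT)

end Fermat.Agent.DS
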